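/-
S55 / leaf 34-CYCLO-RECIP, Track T, steps (II)+(III), abstract.  helper37.
Mathlib + GlobalInv91.Carry (helper91) only.

`Γ` a finite group (`Gal(Ω/ℚ)`), `C : Rep k Γ`.  A `SumSystem` is a family of functionals `S H` on
2-cochains of the subgroups `H ≤ Γ` (think `S H f = ∑_w κ_w · inv_w (loc_w [f])`), additive on
cocycles, killing coboundaries, with `S H' ∘ res = [H : H'] • S H` and invariant under conjugation
by `Γ` on normal subgroups.  If the sum formula `S ⊤ (δχ ∪ b) = 0` holds over the base for all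
invariant `b`, then for every subgroup `H` and every `H`-invariant `a`
`[Γ : core H] • S H (δχ|_H ∪ a) = 0`  (NO corestriction is used), and the index is removed by the
tower trick `δχ ∪ a = p^s • (δχ' ∪ a)` when `χ` lifts to `χ'` of level `n p^s`.
-/
import Mathlib
import Fermat.Agent.S55.GlobalInv91.Carry

set_option autoImplicit false
set_option linter.unusedSectionVars false

namespace Fermat.Agent.S55.CycloRecip37.DescendK

open groupCohomology Fermat.Agent.S55.GlobalInv91

universe u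

variable {k Γ : Type u} [CommRing k] [Group Γ] (C : Rep k Γ)

/-- the restriction of `C` to a subgroup. -/
abbrev resH (H : Subgroup Γ) : Rep k H := Rep.res H.subtype C

/-- conjugation by `σ ∈ Γ` on 2-cochains of a normal subgroup `N`:
`(σ_* f)(x, y) = σ • f (σ⁻¹ x σ, σ⁻¹ y σ)`. -/
def conjCochain (N : Subgroup Γ) [hN : N.Normal] (σ : Γ) (f : N × N → C) : N × N → C :=
  fun x => C.ρ σ (f (⟨σ⁻¹ * x.1 * σ, by
      have := hN.conj_mem x.1 x.1.2 σ⁻¹; rwa [inv_inv] at this⟩,
    ⟨σ⁻¹ * x.2 * σ, by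
      have := hN.conj_mem x.2 x.2.2 σ⁻¹; rwa [inv_inv] at this⟩))

/-- restriction of 2-cochains along `H' ≤ H`. -/
def resCochain {H' H : Subgroup Γ} (h : H' ≤ H) (f : H × H → C) : H' × H' → C :=
  fun x => f (Subgroup.inclusion h x.1, Subgroup.inclusion h x.2)

/-- A family of "sums of local invariants" on the 2-cochains of all subgroups of `Γ`. -/
structure SumSystem (T : Type*) [AddCommGroup T] where
  /-- the functional on 2-cochains of `H` (only its values on cocycles matter). -/
  S : ∀ H : Subgroup Γ, (H × H → C) → T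
  add : ∀ (H : Subgroup Γ) (f g : H × H → C), f ∈ cocycles₂ (resH C H) →
    g ∈ cocycles₂ (resH C H) → S H (f + g) = S H f + S H g
  cob : ∀ (H : Subgroup Γ) (f : H × H → C), IsCob₂ (resH C H) f → S H f = 0
  res : ∀ (H' H : Subgroup Γ) (h : H' ≤ H) (f : H × H → C), f ∈ cocycles₂ (resH C H) →
    S H' (resCochain C h f) = (H'.relIndex H) • S H f
  conj : ∀ (N : Subgroup Γ) [N.Normal] (σ : Γ) (f : N × N → C), f ∈ cocycles₂ (resH C N) →
    S N (conjCochain C N σ f) = S N f

variable {C}

namespace SumSystem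

variable {T : Type*} [AddCommGroup T] (Sys : SumSystem C T)

lemma zero (H : Subgroup Γ) : Sys.S H 0 = 0 :=
  Sys.cob H 0 ⟨0, fun g h => by simp⟩

lemma sum {ι : Type*} (H : Subgroup Γ) (s : Finset ι) (f : ι → (H × H → C))
    (hf : ∀ i ∈ s, f i ∈ cocycles₂ (resH C H)) :
    Sys.S H (∑ i ∈ s, f i) = ∑ i ∈ s, Sys.S H (f i) := by
  classical
  induction s using Finset.induction_on with
  | empty => simpa using Sys.zero H
  | insert i s hi ih =>
    rw [Finset.sum_insert hi, Finset.sum_insert hi,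
      Sys.add H _ _ (hf i (Finset.mem_insert_self _ _))
        (Submodule.sum_mem _ fun j hj => hf j (Finset.mem_insert_of_mem hj)),
      ih fun j hj => hf j (Finset.mem_insert_of_mem hj)]

/-- cohomologous cocycles have the same value. -/
lemma eq_of_sub_isCob (H : Subgroup Γ) (f g : H × H → C) (hf : f ∈ cocycles₂ (resH C H))
    (hg : g ∈ cocycles₂ (resH C H)) (h : IsCob₂ (resH C H) (f - g)) : Sys.S H f = Sys.S H g := by
  have hfg : f - g ∈ cocycles₂ (resH C H) := Submodule.sub_mem _ hf hg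
  have h1 := Sys.add H (f - g) g hfg hg
  rw [sub_add_cancel, Sys.cob H _ h, zero_add] at h1
  exact h1

end SumSystem

variable {n : ℕ} [NeZero n]

/-- the carry cochain of the restricted character on a subgroup. -/
abbrev carryH (C : Rep k Γ) (χ : Γ →* Multiplicative (ZMod n)) (H : Subgroup Γ) (a : C) :
    H × H → C :=
  carry (resH C H) (χ.comp H.subtype) a

lemma carryH_mem (χ : Γ →* Multiplicative (ZMod n)) (H : Subgroup Γ) (a : C)
    (ha : ∀ h ∈ H, C.ρ h a = a) : carryH C χ H a ∈ cocycles₂ (resH C H) :=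
  carry_mem_cocycles₂ (resH C H) (χ.comp H.subtype) a (fun g => ha g g.2)

lemma resCochain_carryH (χ : Γ →* Multiplicative (ZMod n)) {H' H : Subgroup Γ} (h : H' ≤ H)
    (a : C) : resCochain C h (carryH C χ H a) = carryH C χ H' a := rfl

lemma conjCochain_carryH (χ : Γ →* Multiplicative (ZMod n)) (N : Subgroup Γ) [N.Normal] (σ : Γ)
    (a : C) : conjCochain C N σ (carryH C χ N a) = carryH C χ N (C.ρ σ a) := by
  funext x
  simp only [conjCochain, carryH, carry_apply, map_nsmul]
  congr 2 <;>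
  · simp only [chiVal, MonoidHom.comp_apply, Subgroup.subtype_apply, map_mul, map_inv]
    rw [mul_comm, ← mul_assoc, mul_inv_cancel, one_mul]

section norm

variable [Fintype Γ]

open Classical in
/-- the relative norm `N_{Γ/H} a = ∑_{q ∈ Γ/H} q • a` of an `H`-invariant element. -/
noncomputable def relNorm (C : Rep k Γ) (H : Subgroup Γ) (a : C) : C :=
  ∑ q : Γ ⧸ H, C.ρ q.out a

lemma rho_eq_of_coset (H : Subgroup Γ) (a : C) (ha : ∀ h ∈ H, C.ρ h a = a) {x y : Γ}
    (hxy : (x : Γ ⧸ H) = (y : Γ ⧸ H)) : C.ρ x a = C.ρ y a := by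
  have hmem : x⁻¹ * y ∈ H := QuotientGroup.eq.mp hxy
  have : y = x * (x⁻¹ * y) := by group
  rw [this, map_mul, Module.End.mul_apply, ha _ hmem]

open Classical in
lemma relNorm_invariant (H : Subgroup Γ) (a : C) (ha : ∀ h ∈ H, C.ρ h a = a) (g : Γ) :
    C.ρ g (relNorm C H a) = relNorm C H a := by
  unfold relNorm
  rw [map_sum]
  have h1 : ∀ q : Γ ⧸ H, C.ρ g (C.ρ q.out a) = C.ρ (g • q).out a := by
    intro q
    rw [← Module.End.mul_apply, ← map_mul]
    apply rho_eq_of_coset H a ha
    rw [QuotientGroup.out_eq']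
    conv_rhs => rw [← QuotientGroup.out_eq' q]
    rfl
  rw [Finset.sum_congr rfl (fun q _ => h1 q)]
  exact Fintype.sum_equiv (MulAction.toPerm g) _ _ (fun q => rfl)

end norm

/-- **Step (II): descent to subgroups without corestriction.** -/
theorem index_nsmul_eq_zero [Fintype Γ] {T : Type*} [AddCommGroup T] (Sys : SumSystem C T)
    (χ : Γ →* Multiplicative (ZMod n))
    (hbase : ∀ b : C, (∀ g, C.ρ g b = b) → Sys.S ⊤ (carryH C χ ⊤ b) = 0)
    (H : Subgroup Γ) (a : C) (ha : ∀ h ∈ H, C.ρ h a = a) :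
    H.normalCore.index • Sys.S H (carryH C χ H a) = 0 := by
  classical
  set N := H.normalCore with hN
  have hNH : N ≤ H := Subgroup.normalCore_le H
  have haN : ∀ σ : Γ, ∀ h ∈ N, C.ρ h (C.ρ σ a) = C.ρ σ a := by
    intro σ h hh
    have hconj : σ⁻¹ * h * σ ∈ N := by
      have := (inferInstance : N.Normal).conj_mem h hh σ⁻¹
      rwa [inv_inv] at this
    rw [← Module.End.mul_apply, ← map_mul]
    have : h * σ = σ * (σ⁻¹ * h * σ) := by group
    rw [this, map_mul, Module.End.mul_apply, ha _ (hNH hconj)]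
  set b := relNorm C H a with hb
  have hbinv : ∀ g, C.ρ g b = b := relNorm_invariant H a ha
  -- restrict the base sum formula to `N`
  have h1 : Sys.S N (carryH C χ N b) = 0 := by
    have := Sys.res N ⊤ le_top (carryH C χ ⊤ b) (carryH_mem χ ⊤ b (fun g _ => hbinv g))
    rw [resCochain_carryH, hbase b hbinv, smul_zero] at this
    exact this
  -- expand `b`
  have h2 : carryH C χ N b = ∑ q : Γ ⧸ H, carryH C χ N (C.ρ q.out a) := by
    rw [hb, relNorm]
    have : ∀ (s : Finset (Γ ⧸ H)), carryH C χ N (∑ q ∈ s, C.ρ q.out a) =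
        ∑ q ∈ s, carryH C χ N (C.ρ q.out a) := by
      intro s
      induction s using Finset.induction_on with
      | empty => simpa using carry_zero (resH C N) (χ.comp N.subtype)
      | insert i s hi ih =>
        rw [Finset.sum_insert hi, Finset.sum_insert hi, ← ih]
        exact carry_add (resH C N) (χ.comp N.subtype) _ _
    exact this Finset.univ
  have h3 : ∀ q : Γ ⧸ H, Sys.S N (carryH C χ N (C.ρ q.out a)) = Sys.S N (carryH C χ N a) := by
    intro q
    rw [← conjCochain_carryH χ N q.out a]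
    exact Sys.conj N q.out _ (carryH_mem χ N a (fun h hh => ha h (hNH hh)))
  rw [h2, Sys.sum N Finset.univ _ (fun q _ => carryH_mem χ N _ (haN q.out)),
    Finset.sum_congr rfl (fun q _ => h3 q), Finset.sum_const, Finset.card_univ] at h1
  -- restrict from `H` to `N`
  have h4 := Sys.res N H hNH (carryH C χ H a) (carryH_mem χ H a ha)
  rw [resCochain_carryH] at h4
  rw [h4, ← mul_nsmul', ← Nat.card_eq_fintype_card] at h1
  have hidx : N.relIndex H * Nat.card (Γ ⧸ H) = N.index := by
    rw [← Subgroup.index_eq_card]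
    exact Subgroup.relIndex_mul_index hNH
  rw [mul_comm, hidx] at h1
  exact h1

/-- torsion bookkeeping for the tower trick. -/
theorem pow_nsmul_eq_zero_of {T : Type*} [AddCommGroup T] (p : ℕ) [hp : Fact p.Prime] {x : T}
    {M t s : ℕ} (hM : M • x = 0) (ht : p ^ t • x = 0) (hs : ∀ j, p ^ j ∣ M → j ≤ s) :
    p ^ s • x = 0 := by
  have h1 : addOrderOf x ∣ M := addOrderOf_dvd_of_nsmul_eq_zero hM
  have h2 : addOrderOf x ∣ p ^ t := addOrderOf_dvd_of_nsmul_eq_zero ht
  obtain ⟨j, _, hj⟩ := (Nat.dvd_prime_pow hp.out).mp h2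
  have hjs : j ≤ s := hs j (hj ▸ h1)
  have : addOrderOf x ∣ p ^ s := hj ▸ pow_dvd_pow p hjs
  exact addOrderOf_dvd_iff_nsmul_eq_zero.mp this

/-- **Step (III): the tower trick.**  If `χ'` of level `n * n'` lifts `χ`, then
`S H (δχ ∪ a) = n' • S H (δχ' ∪ a)`. -/
theorem S_carry_eq_nsmul_lift {T : Type*} [AddCommGroup T] (Sys : SumSystem C T) {n' : ℕ}
    [NeZero (n * n')] (χ : Γ →* Multiplicative (ZMod n))
    (χt : Γ →* Multiplicative (ZMod (n * n')))
    (hlift : ∀ g : Γ, (chiVal χ g).val = (chiVal χt g).val % n)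
    (H : Subgroup Γ) (a : C) (ha : ∀ h ∈ H, C.ρ h a = a) :
    Sys.S H (carryH C χ H a) = n' • Sys.S H (carryH C χt H a) := by
  have hcob := carry_lift_sub_carry_isCob₂ (resH C H) (χ.comp H.subtype) (χt.comp H.subtype)
    (fun g => hlift g) a (fun g => ha g g.2)
  have hmem1 := carryH_mem χ H a ha
  have hmem2 : carryH C χt H (n' • a) ∈ cocycles₂ (resH C H) :=
    carryH_mem χt H (n' • a) (fun h hh => by rw [map_nsmul, ha h hh])
  have h1 := Sys.eq_of_sub_isCob H _ _ hmem2 hmem1 hcob
  rw [← h1]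
  -- `S (carry (n' • a)) = n' • S (carry a)`
  have hsum : carryH C χt H (n' • a) = ∑ _i ∈ Finset.range n', carryH C χt H a := by
    rw [Finset.sum_const, Finset.card_range]
    exact carry_nsmul (resH C H) (χt.comp H.subtype) n' a
  rw [hsum, Sys.sum H _ _ (fun _ _ => carryH_mem χt H a ha), Finset.sum_const, Finset.card_range]

/-- `n • (δχ ∪ a)` is always a coboundary (`δχ` is `n`-torsion). -/
theorem nsmul_carry_isCob₂ (D : Rep k Γ) (χ : Γ →* Multiplicative (ZMod n)) (a : D)
    (ha : ∀ g : Γ, D.ρ g a = a) : IsCob₂ D (n • carry D χ a) := by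
  refine ⟨fun g => (chiVal χ g).val • a, fun g h => ?_⟩
  simp only [map_nsmul, ha, Pi.smul_apply, carry_apply, chiVal_mul]
  have hv := val_add_val n (chiVal χ g) (chiVal χ h)
  have e : (chiVal χ h).val • a + (chiVal χ g).val • a =
      (chiVal χ g + chiVal χ h).val • a + n • carryNat n (chiVal χ g) (chiVal χ h) • a := by
    rw [← add_nsmul, ← mul_nsmul', ← add_nsmul, ← hv, add_comm]
  rw [sub_add_eq_add_sub, sub_eq_iff_eq_add, e, add_comm]

/-- `S H (δχ ∪ a)` is killed by the level `n`. -/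
theorem level_nsmul_S_carry {T : Type*} [AddCommGroup T] (Sys : SumSystem C T)
    (χ : Γ →* Multiplicative (ZMod n)) (H : Subgroup Γ) (a : C) (ha : ∀ h ∈ H, C.ρ h a = a) :
    n • Sys.S H (carryH C χ H a) = 0 := by
  have hcob := nsmul_carry_isCob₂ (resH C H) (χ.comp H.subtype) a (fun g => ha g g.2)
  have h0 := Sys.cob H _ hcob
  have hsum : n • carryH C χ H a = ∑ _i ∈ Finset.range n, carryH C χ H a := by
    rw [Finset.sum_const, Finset.card_range]
  have h0' : Sys.S H (n • carryH C χ H a) = 0 := h0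
  rw [hsum, Sys.sum H _ _ (fun _ _ => carryH_mem χ H a ha), Finset.sum_const,
    Finset.card_range] at h0'
  exact h0'

/-- **Steps (II)+(III) together.**  `p` prime, level `n = p ^ m`; if `χ` lifts to `χ'` of level
`p ^ m * p ^ s` with `p ^ s` at least the `p`-part of `[Γ : core H]`, and the base sum formula
holds for `χ'`, then `S H (δχ|_H ∪ a) = 0`. -/
theorem S_carry_eq_zero [Fintype Γ] {T : Type*} [AddCommGroup T] (Sys : SumSystem C T)
    (p : ℕ) [hp : Fact p.Prime] {m s : ℕ}
    (χ : Γ →* Multiplicative (ZMod (p ^ m))) (χt : Γ →* Multiplicative (ZMod (p ^ m * p ^ s)))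
    (hlift : ∀ g : Γ, (chiVal χ g).val = (chiVal χt g).val % p ^ m)
    (hbase : ∀ b : C, (∀ g, C.ρ g b = b) → Sys.S ⊤ (carryH C χt ⊤ b) = 0)
    (H : Subgroup Γ) (hs : ∀ j, p ^ j ∣ H.normalCore.index → j ≤ s)
    (a : C) (ha : ∀ h ∈ H, C.ρ h a = a) :
    Sys.S H (carryH C χ H a) = 0 := by
  have hne : NeZero (p ^ m) := ⟨pow_ne_zero _ hp.out.ne_zero⟩
  have hne' : NeZero (p ^ m * p ^ s) :=
    ⟨mul_ne_zero (pow_ne_zero _ hp.out.ne_zero) (pow_ne_zero _ hp.out.ne_zero)⟩
  rw [S_carry_eq_nsmul_lift Sys χ χt hlift H a ha]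
  have hM := index_nsmul_eq_zero Sys χt hbase H a ha
  have ht := level_nsmul_S_carry Sys χt H a ha
  have ht' : p ^ (m + s) • Sys.S H (carryH C χt H a) = 0 := by
    rw [pow_add]; exact ht
  exact pow_nsmul_eq_zero_of p hM ht' hs

end Fermat.Agent.S55.CycloRecip37.DescendK
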