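/-
S55 / leaf 34-CYCLO-RECIP, 34-SYS (helper37): systems of "sums of local invariants" in GLOBAL
cochain form.  Mathlib + DescendK (for the bridge to `DescendK.SumSystem`) only.

`G` a group, `C : Rep k G`.  All 2-cochains are functions `f : G × G → C`; for a subgroup `H` only
the values on `H × H` matter (`IsCocOn H f`, `IsCobOn H f`).  A `GSys.Sys C T` is a family of
functionals `S H` with additivity on cocycles, vanishing on coboundaries,
`S H' f = [H : H'] • S H f` for `H' ≤ H`, and invariance under conjugation by `G`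
(for ALL subgroups).  No subtypes appear, so conjugate subgroups need no transport.
-/
import Mathlib
import Fermat.Agent.S55.CycloRecip37.DescendK

set_option autoImplicit false
set_option linter.unusedSectionVars false

namespace Fermat.Agent.S55.CycloRecip37.GSys

universe u

variable {k G : Type u} [CommRing k] [Group G] (C : Rep k G)

/-- `f` satisfies the 2-cocycle identity on `H`. -/
def IsCocOn (H : Subgroup G) (f : G × G → C) : Prop :=
  ∀ g ∈ H, ∀ h ∈ H, ∀ l ∈ H, C.ρ g (f (h, l)) - f (g * h, l) + f (g, h * l) - f (g, h) = 0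

/-- `f` is a 2-coboundary on `H`. -/
def IsCobOn (H : Subgroup G) (f : G × G → C) : Prop :=
  ∃ c : G → C, ∀ g ∈ H, ∀ h ∈ H, C.ρ g (c h) - c (g * h) + c g = f (g, h)

/-- conjugation by `σ` on 2-cochains: `(σ_* f)(g, h) = σ • f (σ⁻¹ g σ, σ⁻¹ h σ)`. -/
def conjC (σ : G) (f : G × G → C) : G × G → C :=
  fun x => C.ρ σ (f (σ⁻¹ * x.1 * σ, σ⁻¹ * x.2 * σ))

variable {C}

lemma conjC_apply (σ : G) (f : G × G → C) (g h : G) :
    conjC C σ f (g, h) = C.ρ σ (f (σ⁻¹ * g * σ, σ⁻¹ * h * σ)) := rfl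

lemma conjC_add (σ : G) (f f' : G × G → C) : conjC C σ (f + f') = conjC C σ f + conjC C σ f' := by
  funext x; simp [conjC]

lemma conjC_sub (σ : G) (f f' : G × G → C) : conjC C σ (f - f') = conjC C σ f - conjC C σ f' := by
  funext x; simp [conjC]

lemma IsCocOn.mono {H' H : Subgroup G} (h : H' ≤ H) {f : G × G → C} (hf : IsCocOn C H f) :
    IsCocOn C H' f := fun g hg a ha l hl => hf g (h hg) a (h ha) l (h hl)

lemma IsCobOn.mono {H' H : Subgroup G} (h : H' ≤ H) {f : G × G → C} (hf : IsCobOn C H f) :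
    IsCobOn C H' f := by
  obtain ⟨c, hc⟩ := hf
  exact ⟨c, fun g hg a ha => hc g (h hg) a (h ha)⟩

lemma IsCocOn.add {H : Subgroup G} {f f' : G × G → C} (hf : IsCocOn C H f) (hf' : IsCocOn C H f') :
    IsCocOn C H (f + f') := by
  intro g hg a ha l hl
  have h1 := hf g hg a ha l hl
  have h2 := hf' g hg a ha l hl
  simp only [Pi.add_apply, map_add]
  rw [← add_zero (0 : C)]
  nth_rewrite 1 [← h1]
  rw [← h2]
  abel

lemma IsCocOn.neg {H : Subgroup G} {f : G × G → C} (hf : IsCocOn C H f) : IsCocOn C H (-f) := by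
  intro g hg a ha l hl
  have h1 := hf g hg a ha l hl
  simp only [Pi.neg_apply, map_neg]
  rw [← neg_zero (G := C), ← h1]
  abel

lemma IsCocOn.sub {H : Subgroup G} {f f' : G × G → C} (hf : IsCocOn C H f) (hf' : IsCocOn C H f') :
    IsCocOn C H (f - f') := by
  rw [sub_eq_add_neg]; exact hf.add hf'.neg

lemma IsCocOn.zero (H : Subgroup G) : IsCocOn C H 0 := by
  intro g _ a _ l _; simp

lemma IsCocOn.congr {H : Subgroup G} {f f' : G × G → C} (hf : IsCocOn C H f)
    (h : ∀ g ∈ H, ∀ a ∈ H, f (g, a) = f' (g, a)) : IsCocOn C H f' := by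
  intro g hg a ha l hl
  rw [← h a ha l hl, ← h (g * a) (H.mul_mem hg ha) l hl, ← h g hg (a * l) (H.mul_mem ha hl),
    ← h g hg a ha]
  exact hf g hg a ha l hl

lemma IsCobOn.congr {H : Subgroup G} {f f' : G × G → C} (hf : IsCobOn C H f)
    (h : ∀ g ∈ H, ∀ a ∈ H, f (g, a) = f' (g, a)) : IsCobOn C H f' := by
  obtain ⟨c, hc⟩ := hf
  exact ⟨c, fun g hg a ha => (hc g hg a ha).trans (h g hg a ha)⟩

lemma IsCobOn.isCocOn {H : Subgroup G} {f : G × G → C} (hf : IsCobOn C H f) : IsCocOn C H f := by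
  obtain ⟨c, hc⟩ := hf
  intro g hg a ha l hl
  rw [← hc a ha l hl, ← hc (g * a) (H.mul_mem hg ha) l hl, ← hc g hg (a * l) (H.mul_mem ha hl),
    ← hc g hg a ha]
  simp only [map_sub, map_add, ← Module.End.mul_apply, ← map_mul, mul_assoc]
  abel

lemma IsCobOn.zero (H : Subgroup G) : IsCobOn C H 0 := ⟨0, fun g _ a _ => by simp⟩

lemma conj_mem_iff_aux {H' H : Subgroup G} {σ : G} (hH : ∀ g, g ∈ H' ↔ σ⁻¹ * g * σ ∈ H) :
    ∀ g, g ∈ H ↔ σ * g * σ⁻¹ ∈ H' := by
  intro g
  rw [hH]
  have : σ⁻¹ * (σ * g * σ⁻¹) * σ = g := by group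
  rw [this]

/-- conjugation transports cocycles on `H` to cocycles on `σ H σ⁻¹`. -/
lemma IsCocOn.conjC {H' H : Subgroup G} {σ : G} (hH : ∀ g, g ∈ H' ↔ σ⁻¹ * g * σ ∈ H)
    {f : G × G → C} (hf : IsCocOn C H f) : IsCocOn C H' (conjC C σ f) := by
  intro g hg a ha l hl
  have h1 := hf _ ((hH g).1 hg) _ ((hH a).1 ha) _ ((hH l).1 hl)
  simp only [conjC_apply]
  have e1 : σ⁻¹ * (g * a) * σ = (σ⁻¹ * g * σ) * (σ⁻¹ * a * σ) := by group
  have e2 : σ⁻¹ * (a * l) * σ = (σ⁻¹ * a * σ) * (σ⁻¹ * l * σ) := by group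
  have e3 : C.ρ g (C.ρ σ (f (σ⁻¹ * a * σ, σ⁻¹ * l * σ))) =
      C.ρ σ (C.ρ (σ⁻¹ * g * σ) (f (σ⁻¹ * a * σ, σ⁻¹ * l * σ))) := by
    rw [← Module.End.mul_apply, ← map_mul, ← Module.End.mul_apply, ← map_mul]
    congr 2; group
  rw [e1, e2, e3, ← map_sub, ← map_add, ← map_sub, h1, map_zero]

/-- conjugation transports coboundaries. -/
lemma IsCobOn.conjC {H' H : Subgroup G} {σ : G} (hH : ∀ g, g ∈ H' ↔ σ⁻¹ * g * σ ∈ H)
    {f : G × G → C} (hf : IsCobOn C H f) : IsCobOn C H' (conjC C σ f) := by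
  obtain ⟨c, hc⟩ := hf
  refine ⟨fun g => C.ρ σ (c (σ⁻¹ * g * σ)), fun g hg a ha => ?_⟩
  have h1 := hc _ ((hH g).1 hg) _ ((hH a).1 ha)
  simp only [conjC_apply]
  have e1 : σ⁻¹ * (g * a) * σ = (σ⁻¹ * g * σ) * (σ⁻¹ * a * σ) := by group
  have e3 : C.ρ g (C.ρ σ (c (σ⁻¹ * a * σ))) =
      C.ρ σ (C.ρ (σ⁻¹ * g * σ) (c (σ⁻¹ * a * σ))) := by
    rw [← Module.End.mul_apply, ← map_mul, ← Module.End.mul_apply, ← map_mul]
    congr 2; group
  rw [e1, e3, ← map_sub, ← map_add, h1]

/-- **inner automorphisms act trivially on `H²`**, explicitly: for `s ∈ H` and a cocycle `f` on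
`H`, `s_* f - f = d κ` with `κ u = f (s, s⁻¹ u s) - f (u, s)`. -/
theorem inner_isCobOn {H : Subgroup G} {s : G} (hs : s ∈ H) {f : G × G → C}
    (hf : IsCocOn C H f) : IsCobOn C H (conjC C s f - f) := by
  refine ⟨fun u => f (s, s⁻¹ * u * s) - f (u, s), fun u hu v hv => ?_⟩
  have hu' : s⁻¹ * u * s ∈ H := H.mul_mem (H.mul_mem (H.inv_mem hs) hu) hs
  have hv' : s⁻¹ * v * s ∈ H := H.mul_mem (H.mul_mem (H.inv_mem hs) hv) hs
  have h1 := hf s hs _ hu' _ hv'
  have h2 := hf u hu s hs _ hv'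
  have h3 := hf u hu v hv s hs
  have e1 : s * (s⁻¹ * u * s) = u * s := by group
  have e2 : (s⁻¹ * u * s) * (s⁻¹ * v * s) = s⁻¹ * (u * v) * s := by group
  have e3 : s * (s⁻¹ * v * s) = v * s := by group
  rw [e1, e2] at h1
  rw [e3] at h2
  simp only [Pi.sub_apply, conjC_apply, map_sub]
  have key : C.ρ u (f (s, s⁻¹ * v * s)) - C.ρ u (f (v, s)) -
      (f (s, s⁻¹ * (u * v) * s) - f (u * v, s)) + (f (s, s⁻¹ * u * s) - f (u, s)) -
      (C.ρ s (f (s⁻¹ * u * s, s⁻¹ * v * s)) - f (u, v)) = 0 := by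
    have : C.ρ u (f (s, s⁻¹ * v * s)) - C.ρ u (f (v, s)) -
      (f (s, s⁻¹ * (u * v) * s) - f (u * v, s)) + (f (s, s⁻¹ * u * s) - f (u, s)) -
      (C.ρ s (f (s⁻¹ * u * s, s⁻¹ * v * s)) - f (u, v)) =
      - (C.ρ s (f (s⁻¹ * u * s, s⁻¹ * v * s)) - f (u * s, s⁻¹ * v * s) +
          f (s, s⁻¹ * (u * v) * s) - f (s, s⁻¹ * u * s))
      + (C.ρ u (f (s, s⁻¹ * v * s)) - f (u * s, s⁻¹ * v * s) + f (u, v * s) - f (u, s))
      - (C.ρ u (f (v, s)) - f (u * v, s) + f (u, v * s) - f (u, v)) := by abel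
    rw [this, h1, h2, h3]; simp
  exact sub_eq_zero.mp key

/-- morphisms of representations preserve cocycles. -/
lemma hom_isCocOn {M : Rep k G} (φ : C ⟶ M) {H : Subgroup G} {f : G × G → C}
    (hf : IsCocOn C H f) : IsCocOn M H (fun x => φ.hom (f x)) := by
  intro g hg a ha l hl
  have := congrArg φ.hom (hf g hg a ha l hl)
  simp only [map_sub, map_add, map_zero] at this
  rw [← this]
  congr 3
  exact (Rep.hom_comm_apply φ g _).symm

/-- morphisms of representations preserve coboundaries. -/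
lemma hom_isCobOn {M : Rep k G} (φ : C ⟶ M) {H : Subgroup G} {f : G × G → C}
    (hf : IsCobOn C H f) : IsCobOn M H (fun x => φ.hom (f x)) := by
  obtain ⟨c, hc⟩ := hf
  refine ⟨fun g => φ.hom (c g), fun g hg a ha => ?_⟩
  have := congrArg φ.hom (hc g hg a ha)
  simp only [map_sub, map_add] at this
  change M.ρ g (φ.hom (c a)) - φ.hom (c (g * a)) + φ.hom (c g) = φ.hom (f (g, a))
  rw [← this]
  congr 2
  exact (Rep.hom_comm_apply φ g _).symm

variable (C)

/-- A system of sums of local invariants, global-cochain form. -/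
structure Sys (T : Type*) [AddCommGroup T] where
  /-- the functional attached to the subgroup `H`. -/
  S : Subgroup G → (G × G → C) → T
  congr : ∀ (H : Subgroup G) (f f' : G × G → C), (∀ g ∈ H, ∀ a ∈ H, f (g, a) = f' (g, a)) →
    S H f = S H f'
  add : ∀ (H : Subgroup G) (f f' : G × G → C), IsCocOn C H f → IsCocOn C H f' →
    S H (f + f') = S H f + S H f'
  cob : ∀ (H : Subgroup G) (f : G × G → C), IsCobOn C H f → S H f = 0
  res : ∀ (H' H : Subgroup G), H' ≤ H → ∀ f : G × G → C, IsCocOn C H f →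
    S H' f = H'.relIndex H • S H f
  conj : ∀ (H' H : Subgroup G) (σ : G), (∀ g, g ∈ H' ↔ σ⁻¹ * g * σ ∈ H) →
    ∀ f : G × G → C, IsCocOn C H f → S H' (conjC C σ f) = S H f


variable {C}

namespace Sys

variable {T : Type*} [AddCommGroup T] (I : Sys C T)

lemma zero (H : Subgroup G) : I.S H 0 = 0 := I.cob H 0 (IsCobOn.zero H)

lemma sum {ι : Type*} (H : Subgroup G) (s : Finset ι) (f : ι → (G × G → C))
    (hf : ∀ i ∈ s, IsCocOn C H (f i)) : I.S H (∑ i ∈ s, f i) = ∑ i ∈ s, I.S H (f i) := by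
  classical
  induction s using Finset.induction_on with
  | empty => simpa using I.zero H
  | insert i s hi ih =>
    have hs : IsCocOn C H (∑ j ∈ s, f j) := by
      have : ∀ t : Finset ι, (∀ j ∈ t, IsCocOn C H (f j)) → IsCocOn C H (∑ j ∈ t, f j) := by
        intro t
        induction t using Finset.induction_on with
        | empty => intro _; simpa using IsCocOn.zero H
        | insert a t ha iht =>
          intro h
          rw [Finset.sum_insert ha]
          exact (h a (Finset.mem_insert_self _ _)).add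
            (iht fun j hj => h j (Finset.mem_insert_of_mem hj))
      exact this s fun j hj => hf j (Finset.mem_insert_of_mem hj)
    rw [Finset.sum_insert hi, Finset.sum_insert hi,
      I.add H _ _ (hf i (Finset.mem_insert_self _ _)) hs,
      ih fun j hj => hf j (Finset.mem_insert_of_mem hj)]

/-- cohomologous cocycles have the same value. -/
lemma eq_of_sub_isCobOn (H : Subgroup G) (f g : G × G → C) (hg : IsCocOn C H g)
    (h : IsCobOn C H (f - g)) : I.S H f = I.S H g := by
  have h1 := I.add H (f - g) g h.isCocOn hg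
  rw [sub_add_cancel, I.cob H _ h, zero_add] at h1
  exact h1

/-- the value depends only on the subgroup as a set. -/
lemma congr_subgroup {H H' : Subgroup G} (h : H = H') (f : G × G → C) : I.S H f = I.S H' f := by
  rw [h]

/-- pullback of a system along a morphism of representations. -/
def comap {M : Rep k G} (I : Sys M T) (φ : C ⟶ M) : Sys C T where
  S H f := I.S H (fun x => φ.hom (f x))
  congr H f f' h := I.congr H _ _ (fun g hg a ha => by rw [h g hg a ha])
  add H f f' hf hf' := by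
    have e : (fun x => φ.hom ((f + f') x)) = (fun x => φ.hom (f x)) + (fun x => φ.hom (f' x)) := by
      funext x; simp
    rw [e]
    exact I.add H _ _ (hom_isCocOn φ hf) (hom_isCocOn φ hf')
  cob H f hf := I.cob H _ (hom_isCobOn φ hf)
  res H' H h f hf := I.res H' H h _ (hom_isCocOn φ hf)
  conj H' H σ hH f hf := by
    have e : (fun x => φ.hom (conjC C σ f x)) = conjC M σ (fun x => φ.hom (f x)) := by
      funext x
      simp only [conjC]
      exact Rep.hom_comm_apply φ σ _
    rw [e]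
    exact I.conj H' H σ hH _ (hom_isCocOn φ hf)

/-- post-composition with an additive map (e.g. multiplication by the unit `ε` at `p`). -/
def map {T' : Type*} [AddCommGroup T'] (I : Sys C T) (e : T →+ T') : Sys C T' where
  S H f := e (I.S H f)
  congr H f f' h := by rw [I.congr H f f' h]
  add H f f' hf hf' := by rw [I.add H f f' hf hf', map_add]
  cob H f hf := by rw [I.cob H f hf, map_zero]
  res H' H h f hf := by rw [I.res H' H h f hf, map_nsmul]
  conj H' H σ hH f hf := by rw [I.conj H' H σ hH f hf]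

/-- the sum of a finite family of systems. -/
def finsum {ι : Type*} (s : Finset ι) (I : ι → Sys C T) : Sys C T where
  S H f := ∑ i ∈ s, (I i).S H f
  congr H f f' h := Finset.sum_congr rfl fun i _ => (I i).congr H f f' h
  add H f f' hf hf' := by
    rw [← Finset.sum_add_distrib]
    exact Finset.sum_congr rfl fun i _ => (I i).add H f f' hf hf'
  cob H f hf := Finset.sum_eq_zero fun i _ => (I i).cob H f hf
  res H' H h f hf := by
    rw [Finset.smul_sum]
    exact Finset.sum_congr rfl fun i _ => (I i).res H' H h f hf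
  conj H' H σ hH f hf := Finset.sum_congr rfl fun i _ => (I i).conj H' H σ hH f hf

@[simp] lemma comap_S {M : Rep k G} (I : Sys M T) (φ : C ⟶ M) (H : Subgroup G) (f : G × G → C) :
    (I.comap φ).S H f = I.S H (fun x => φ.hom (f x)) := rfl

@[simp] lemma map_S {T' : Type*} [AddCommGroup T'] (I : Sys C T) (e : T →+ T') (H : Subgroup G)
    (f : G × G → C) : (I.map e).S H f = e (I.S H f) := rfl

@[simp] lemma finsum_S {ι : Type*} (s : Finset ι) (I : ι → Sys C T) (H : Subgroup G)
    (f : G × G → C) : (finsum s I).S H f = ∑ i ∈ s, (I i).S H f := rfl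

end Sys

/-! ### The bridge to `DescendK.SumSystem` (cochains of the subgroups themselves) -/

section bridge

open groupCohomology Fermat.Agent.S55.GlobalInv91 DescendK

open Classical in
/-- extension by zero of a 2-cochain of `H` to `G × G`. -/
noncomputable def ext0 (H : Subgroup G) (f : H × H → C) : G × G → C :=
  fun x => if h : x.1 ∈ H ∧ x.2 ∈ H then f (⟨x.1, h.1⟩, ⟨x.2, h.2⟩) else 0

lemma ext0_of_mem (H : Subgroup G) (f : H × H → C) {g a : G} (hg : g ∈ H) (ha : a ∈ H) :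
    ext0 H f (g, a) = f (⟨g, hg⟩, ⟨a, ha⟩) := by
  unfold ext0
  rw [dif_pos ⟨hg, ha⟩]

lemma ext0_add (H : Subgroup G) (f f' : H × H → C) : ext0 H (f + f') = ext0 H f + ext0 H f' := by
  funext x
  unfold ext0
  by_cases h : x.1 ∈ H ∧ x.2 ∈ H
  · simp only [Pi.add_apply, dif_pos h]
  · simp only [Pi.add_apply, dif_neg h, add_zero]

lemma isCocOn_ext0 (H : Subgroup G) (f : H × H → C) (hf : f ∈ cocycles₂ (resH C H)) :
    IsCocOn C H (ext0 H f) := by
  rw [mem_cocycles₂_def] at hf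
  intro g hg a ha l hl
  rw [ext0_of_mem H f ha hl, ext0_of_mem H f (H.mul_mem hg ha) hl,
    ext0_of_mem H f hg (H.mul_mem ha hl), ext0_of_mem H f hg ha]
  exact hf ⟨g, hg⟩ ⟨a, ha⟩ ⟨l, hl⟩

open Classical in
lemma isCobOn_ext0 (H : Subgroup G) (f : H × H → C) (hf : IsCob₂ (resH C H) f) :
    IsCobOn C H (ext0 H f) := by
  obtain ⟨c, hc⟩ := hf
  refine ⟨fun g => if h : g ∈ H then c ⟨g, h⟩ else 0, fun g hg a ha => ?_⟩
  rw [ext0_of_mem H f hg ha]
  simp only [dif_pos ha, dif_pos hg, dif_pos (H.mul_mem hg ha)]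
  exact hc ⟨g, hg⟩ ⟨a, ha⟩

/-- a global-cochain system gives a `DescendK.SumSystem`. -/
noncomputable def Sys.toSumSystem {T : Type*} [AddCommGroup T] (I : Sys C T) : SumSystem C T where
  S H f := I.S H (ext0 H f)
  add H f f' hf hf' := by
    rw [ext0_add]
    exact I.add H _ _ (isCocOn_ext0 H f hf) (isCocOn_ext0 H f' hf')
  cob H f hf := I.cob H _ (isCobOn_ext0 H f hf)
  res H' H h f hf := by
    rw [← I.res H' H h _ (isCocOn_ext0 H f hf)]
    refine I.congr H' _ _ (fun g hg a ha => ?_)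
    rw [ext0_of_mem H' _ hg ha, ext0_of_mem H f (h hg) (h ha)]
    rfl
  conj N hN σ f hf := by
    have hH : ∀ g, g ∈ N ↔ σ⁻¹ * g * σ ∈ N := by
      intro g
      constructor
      · intro hg
        have := hN.conj_mem g hg σ⁻¹
        rwa [inv_inv] at this
      · intro hg
        have := hN.conj_mem _ hg σ
        have e : σ * (σ⁻¹ * g * σ) * σ⁻¹ = g := by group
        rwa [e] at this
    rw [← I.conj N N σ hH _ (isCocOn_ext0 N f hf)]
    refine I.congr N _ _ (fun g hg a ha => ?_)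
    rw [ext0_of_mem N _ hg ha, conjC_apply, ext0_of_mem N f ((hH g).1 hg) ((hH a).1 ha)]
    rfl

lemma Sys.toSumSystem_S {T : Type*} [AddCommGroup T] (I : Sys C T) (H : Subgroup G)
    (f : H × H → C) : I.toSumSystem.S H f = I.S H (ext0 H f) := rfl

end bridge

end Fermat.Agent.S55.CycloRecip37.GSys
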