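/-
S55 / leaf 34-CYCLO-RECIP, 34-SYS (helper37): the only combinatorics of the coinduction of sum
systems: "the sum of the local degrees is the global degree", double-coset form.
Mathlib + Idele73.Mackey (twSub / InDC / IsRepr) only.
-/
import Mathlib
import Fermat.Agent.S55.Idele73.Mackey

set_option autoImplicit false

namespace Fermat.Agent.S55.CycloRecip37.Count

open Fermat.Agent.S55.Idele73.Mackey

variable {D G : Type} [Group D] [Group G] (j : D →* G)

lemma relIndex_mul_card {Γ : Type} [Group Γ] {H K : Subgroup Γ} (h : H ≤ K) :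
    H.relIndex K * Nat.card H = Nat.card K := by
  rw [Subgroup.relIndex, mul_comm, ← Nat.card_congr (Subgroup.subgroupOfEquivOfLe h).toEquiv]
  exact Subgroup.card_mul_index (H.subgroupOf K)

variable {j}

lemma mem_twSub_mul_left {H : Subgroup G} (d : D) (x : G) (g : D) :
    g ∈ twSub j H (j d * x) ↔ d⁻¹ * g * d ∈ twSub j H x := by
  rw [mem_twSub, mem_twSub]
  have e : (j d * x)⁻¹ * j g * (j d * x) = x⁻¹ * j (d⁻¹ * g * d) * x := by
    rw [map_mul, map_mul, map_inv]; group
  rw [e]

lemma twSub_mul_right {H : Subgroup G} (x : G) {h : G} (hh : h ∈ H) :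
    twSub j H (x * h) = twSub j H x := by
  ext g
  rw [mem_twSub, mem_twSub]
  have e : (x * h)⁻¹ * j g * (x * h) = h⁻¹ * (x⁻¹ * j g * x) * h := by group
  rw [e]
  constructor
  · intro hg
    have := H.mul_mem (H.mul_mem hh hg) (H.inv_mem hh)
    have e2 : h * (h⁻¹ * (x⁻¹ * j g * x) * h) * h⁻¹ = x⁻¹ * j g * x := by group
    rwa [e2] at this
  · intro hg
    exact H.mul_mem (H.mul_mem (H.inv_mem hh) hg) hh

/-- the decomposition groups along a double coset are conjugate, hence equinumerous. -/
lemma card_twSub_eq_of_inDC {H : Subgroup G} {x y : G} (hxy : InDC j H x y) :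
    Nat.card (twSub j H y) = Nat.card (twSub j H x) := by
  obtain ⟨d, h, rfl⟩ := hxy
  rw [twSub_mul_right _ h.2]
  refine Nat.card_congr
    { toFun := fun g => ⟨d⁻¹ * g.1 * d, (mem_twSub_mul_left d x g.1).1 g.2⟩
      invFun := fun g => ⟨d * g.1 * d⁻¹, (mem_twSub_mul_left d x _).2 (by
        have : d⁻¹ * (d * g.1 * d⁻¹) * d = g.1 := by group
        rw [this]; exact g.2)⟩
      left_inv := fun g => by apply Subtype.ext; simp only; group
      right_inv := fun g => by apply Subtype.ext; simp only; group }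

/-- the fibre of `(d, h) ↦ j d * y * h` over a point of the double coset is a torsor under
`D_y`. -/
lemma card_fiber [Finite D] (H : Subgroup G) (y : G) {g : G} (hg : InDC j H y g) :
    Nat.card {p : D × H // j p.1 * y * p.2 = g} = Nat.card (twSub j H y) := by
  obtain ⟨d₀, h₀, e⟩ := hg
  have key : ∀ p : D × H, j p.1 * y * p.2 = g →
      y⁻¹ * j (p.1⁻¹ * d₀) * y = (p.2 : G) * (h₀ : G)⁻¹ := by
    intro p hp
    rw [map_mul, map_inv]
    have e' : j d₀ * y = j p.1 * y * p.2 * (h₀ : G)⁻¹ := by rw [hp, e]; group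
    rw [mul_assoc (y⁻¹), mul_assoc ((j p.1)⁻¹), e']; group
  refine Nat.card_congr
    { toFun := fun p => ⟨p.1.1⁻¹ * d₀, by
        rw [mem_twSub, key p.1 p.2]; exact H.mul_mem p.1.2.2 (H.inv_mem h₀.2)⟩
      invFun := fun τ => ⟨(d₀ * τ.1⁻¹, ⟨y⁻¹ * j τ.1 * y, τ.2⟩ * h₀), by
        simp only [Subgroup.coe_mul]
        rw [e, map_mul, map_inv]; group⟩
      left_inv := ?_
      right_inv := ?_ }
  · rintro ⟨p, hp⟩
    apply Subtype.ext
    apply Prod.ext
    · simp only; group
    · apply Subtype.ext
      simp only [Subgroup.coe_mul]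
      rw [key p hp]; group
  · rintro ⟨τ, hτ⟩
    apply Subtype.ext
    simp only; group

lemma fiber_empty (H : Subgroup G) (y : G) {g : G} (hg : ¬ InDC j H y g) :
    Nat.card {p : D × H // j p.1 * y * p.2 = g} = 0 := by
  have : IsEmpty {p : D × H // j p.1 * y * p.2 = g} :=
    ⟨fun p => hg ⟨p.1.1, p.1.2, p.2.symm⟩⟩
  exact Nat.card_of_isEmpty

/-- the size of a double coset: `|D y H| · |D_y| = |D| · |H|`. -/
lemma card_inDC_mul_card_twSub [Finite G] [Finite D] (H : Subgroup G) (y : G) :
    Nat.card {g : G // InDC j H y g} * Nat.card (twSub j H y) = Nat.card D * Nat.card H := by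
  classical
  have := Fintype.ofFinite G
  rw [← Nat.card_prod D H,
    ← Nat.card_congr (Equiv.sigmaFiberEquiv (fun p : D × H => j p.1 * y * p.2)), Nat.card_sigma]
  have h1 : ∀ g : G, Nat.card {p : D × H // j p.1 * y * p.2 = g} =
      if InDC j H y g then Nat.card (twSub j H y) else 0 := by
    intro g
    by_cases hg : InDC j H y g
    · rw [if_pos hg, card_fiber H y hg]
    · rw [if_neg hg, fiber_empty H y hg]
  rw [Finset.sum_congr rfl (fun g _ => h1 g), Finset.sum_ite, Finset.sum_const_zero, add_zero,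
    Finset.sum_const, smul_eq_mul, Nat.card_eq_fintype_card, Fintype.card_subtype]

lemma twSub_mono {H' H : Subgroup G} (h : H' ≤ H) (x : G) : twSub j H' x ≤ twSub j H x :=
  fun _ hg => h hg

lemma inDC_mono {H' H : Subgroup G} (h : H' ≤ H) {y g : G} (hyg : InDC j H' y g) :
    InDC j H y g := by
  obtain ⟨τ, h', e⟩ := hyg
  exact ⟨τ, ⟨h', h h'.2⟩, e⟩

/-- `Σ_{w | v} [L_w : K_v] = [L : K]`: for `H' ≤ H ≤ G` and a double coset `D x H`, the sum over
the `(D, H')`-double cosets `D y H' ⊆ D x H` of `[D_y : D'_y]` is `[H : H']`. -/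
theorem sum_relIndex_eq [Finite G] [Finite D] {H' H : Subgroup G} (h : H' ≤ H) (x : G)
    {R' : Finset G} (hR' : IsRepr j H' R') [DecidablePred (InDC j H x)] :
    ∑ y ∈ R'.filter (InDC j H x), (twSub j H' y).relIndex (twSub j H y) = H'.relIndex H := by
  classical
  have := Fintype.ofFinite G
  set t := R'.filter (InDC j H x) with ht
  have hex : ∀ g : G, ∃ y ∈ R', InDC j H' y g := hR'.1
  choose r hrmem hr using hex
  -- the double coset `D x H` is partitioned into the `D y H'`, `y ∈ t`
  have hcardP : ∀ (K : Subgroup G) (y : G),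
      Nat.card {g : G // InDC j K y g} = (Finset.univ.filter (InDC j K y)).card := by
    intro K y
    rw [Nat.card_eq_fintype_card, Fintype.card_subtype]
  have h3 : Nat.card {g : G // InDC j H x g} = ∑ y ∈ t, Nat.card {g : G // InDC j H' y g} := by
    rw [hcardP, Finset.card_eq_sum_card_fiberwise (f := r) (t := t)]
    · refine Finset.sum_congr rfl (fun y hy => ?_)
      rw [hcardP]
      congr 1
      ext g
      simp only [Finset.mem_filter, Finset.mem_univ, true_and]
      constructor
      · rintro ⟨_, rfl⟩; exact hr g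
      · intro hyg
        refine ⟨inDC_trans j H x (Finset.mem_filter.1 hy).2 (inDC_mono h hyg), ?_⟩
        exact hR'.2 _ (hrmem g) _ (Finset.mem_filter.1 hy).1
          (inDC_trans j H' _ (hr g) (inDC_comm j H' _ hyg))
    · intro g hg
      simp only [Finset.coe_filter, Finset.mem_univ, true_and, Set.mem_ofPred_eq] at hg
      simp only [ht, Finset.coe_filter, Set.mem_ofPred_eq]
      exact ⟨hrmem g, inDC_trans j H x hg (inDC_comm j H _ (inDC_mono h (hr g)))⟩
  have h1 := card_inDC_mul_card_twSub (j := j) H x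
  have h5 := relIndex_mul_card h
  have hpos : 0 < Nat.card D * Nat.card H' :=
    Nat.mul_pos Nat.card_pos Nat.card_pos
  apply Nat.eq_of_mul_eq_mul_right hpos
  rw [Finset.sum_mul]
  have h6 : ∀ y ∈ t, (twSub j H' y).relIndex (twSub j H y) * (Nat.card D * Nat.card H') =
      Nat.card {g : G // InDC j H' y g} * Nat.card (twSub j H x) := by
    intro y hy
    rw [← card_inDC_mul_card_twSub (j := j) H' y,
      ← card_twSub_eq_of_inDC (Finset.mem_filter.1 hy).2,
      ← relIndex_mul_card (twSub_mono h y)]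
    ring
  rw [Finset.sum_congr rfl h6, ← Finset.sum_mul, ← h3, h1, ← h5]
  ring

end Fermat.Agent.S55.CycloRecip37.Count
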