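/-
S55 / leaf 34-CYCLO-RECIP, 34-SYS (helper37): COINDUCTION OF SUM SYSTEMS.
Mathlib + Idele73.Mackey (twSub / InDC / IsRepr) + GSys + Count only.

`j : D →* G`, `A : Rep k D`, `M = Rep.coind j A` (the `q`-component of the ideles of a level, with
`D` the local Galois group).  A system `I` of local invariants on `(D, A)` induces the system
`(coindSys j A I).S H f = ∑_{x ∈ D \ G / H} I.S D_x (loc x f)` on `(G, M)`, where
`D_x = {τ | x⁻¹ j(τ) x ∈ H}` and `loc x f (a, b) = f (x⁻¹ j(a) x, x⁻¹ j(b) x) (x)` is the explicit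
evaluation cochain map (NO Shapiro isomorphism, NO biproducts).
-/
import Mathlib
import Fermat.Agent.S55.Idele73.Mackey
import Fermat.Agent.S55.CycloRecip37.GSys
import Fermat.Agent.S55.CycloRecip37.Count

set_option autoImplicit false
set_option linter.unusedSectionVars false

namespace Fermat.Agent.S55.CycloRecip37.CoindSys

open Fermat.Agent.S55.Idele73.Mackey Fermat.Agent.S55.CycloRecip37.GSys
  Fermat.Agent.S55.CycloRecip37.Count

variable {k : Type} [CommRing k] {D G : Type} [Group D] [Group G] (j : D →* G) (A : Rep.{0} k D)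

/-- the coinduced representation. -/
noncomputable abbrev M : Rep.{0} k G := Rep.coind j A

/-- the evaluation cochain map at `x`: `loc x f (a, b) = f (x⁻¹ j(a) x, x⁻¹ j(b) x) (x)`. -/
def loc (x : G) (f : G × G → (M j A)) : D × D → A :=
  fun a => (f (x⁻¹ * j a.1 * x, x⁻¹ * j a.2 * x)).1 x

variable {j A}

lemma loc_apply (x : G) (f : G × G → (M j A)) (a b : D) :
    loc j A x f (a, b) = (f (x⁻¹ * j a * x, x⁻¹ * j b * x)).1 x := rfl

lemma loc_add (x : G) (f f' : G × G → (M j A)) : loc j A x (f + f') = loc j A x f + loc j A x f' := by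
  funext a; rfl

lemma loc_sub (x : G) (f f' : G × G → (M j A)) : loc j A x (f - f') = loc j A x f - loc j A x f' := by
  funext a; rfl

/-- evaluation at `x` intertwines `twHom` and the action. -/
lemma eval_rho (x : G) (F : M j A) (a : D) :
    ((M j A).ρ (x⁻¹ * j a * x) F).1 x = A.ρ a (F.1 x) := by
  change F.1 (x * (x⁻¹ * j a * x)) = A.ρ a (F.1 x)
  have e : x * (x⁻¹ * j a * x) = j a * x := by group
  rw [e]
  exact F.2 a x

lemma tw_mul (x : G) (a b : D) : x⁻¹ * j (a * b) * x = (x⁻¹ * j a * x) * (x⁻¹ * j b * x) := by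
  rw [map_mul]; group

/-- `loc x` maps cocycles on `H` to cocycles on `D_x`. -/
lemma loc_isCocOn {H : Subgroup G} (x : G) {f : G × G → (M j A)} (hf : IsCocOn (M j A) H f) :
    IsCocOn A (twSub j H x) (loc j A x f) := by
  intro a ha b hb c hc
  have h1 := hf _ ha _ hb _ hc
  have h2 := congrArg (fun F : (M j A) => F.1 x) h1
  simp only [loc_apply, tw_mul]
  rw [← eval_rho x (f (x⁻¹ * j b * x, x⁻¹ * j c * x)) a]
  exact h2

/-- `loc x` maps coboundaries on `H` to coboundaries on `D_x`. -/
lemma loc_isCobOn {H : Subgroup G} (x : G) {f : G × G → (M j A)} (hf : IsCobOn (M j A) H f) :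
    IsCobOn A (twSub j H x) (loc j A x f) := by
  obtain ⟨c, hc⟩ := hf
  refine ⟨fun a => (c (x⁻¹ * j a * x)).1 x, fun a ha b hb => ?_⟩
  have h1 := hc _ ha _ hb
  have h2 := congrArg (fun F : (M j A) => F.1 x) h1
  simp only [loc_apply, tw_mul]
  rw [← eval_rho x (c (x⁻¹ * j b * x)) a]
  exact h2

/-- moving the base point on the left by `D` is conjugation on `(D, A)`. -/
lemma loc_mul_left (d : D) (x : G) (f : G × G → (M j A)) :
    loc j A (j d * x) f = conjC A d (loc j A x f) := by
  funext ⟨a, b⟩
  simp only [loc_apply, conjC_apply]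
  have e : ∀ c : D, (j d * x)⁻¹ * j c * (j d * x) = x⁻¹ * j (d⁻¹ * c * d) * x := by
    intro c; rw [map_mul, map_mul, map_inv]; group
  rw [e a, e b]
  exact (f (x⁻¹ * j (d⁻¹ * a * d) * x, x⁻¹ * j (d⁻¹ * b * d) * x)).2 d x

/-- moving the base point on the right by `h` is conjugation on `(G, M)`. -/
lemma loc_mul_right (x h : G) (f : G × G → (M j A)) :
    loc j A (x * h) f = loc j A x (conjC (M j A) h f) := by
  funext ⟨a, b⟩
  simp only [loc_apply, conjC_apply]
  have e : ∀ c : D, (x * h)⁻¹ * j c * (x * h) = h⁻¹ * (x⁻¹ * j c * x) * h := by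
    intro c; group
  rw [e a, e b]
  rfl

variable {T : Type*} [AddCommGroup T] (I : Sys A T)

/-- the local term at `x`. -/
def term (H : Subgroup G) (f : G × G → (M j A)) (x : G) : T :=
  I.S (twSub j H x) (loc j A x f)

lemma term_mul_left {H : Subgroup G} {f : G × G → (M j A)} (hf : IsCocOn (M j A) H f) (d : D)
    (x : G) : term I H f (j d * x) = term I H f x := by
  unfold term
  rw [loc_mul_left]
  exact I.conj _ _ d (mem_twSub_mul_left d x) _ (loc_isCocOn x hf)

lemma term_mul_right {H : Subgroup G} {f : G × G → (M j A)} (hf : IsCocOn (M j A) H f) (x : G)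
    {h : G} (hh : h ∈ H) : term I H f (x * h) = term I H f x := by
  unfold term
  rw [loc_mul_right, twSub_mul_right x hh]
  refine I.eq_of_sub_isCobOn _ _ _ (loc_isCocOn x hf) ?_
  rw [← loc_sub]
  exact loc_isCobOn x (inner_isCobOn hh hf)

/-- the local term is constant on double cosets. -/
lemma term_eq_of_inDC {H : Subgroup G} {f : G × G → (M j A)} (hf : IsCocOn (M j A) H f) {x y : G}
    (hxy : InDC j H x y) : term I H f y = term I H f x := by
  obtain ⟨τ, h, rfl⟩ := hxy
  rw [term_mul_right I hf _ h.2, term_mul_left I hf]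

/-! ### Sums over double-coset representatives -/

section sums

variable [Finite G]

/-- a chosen system of representatives of `j(D) \ G / H`. -/
noncomputable def reps (j : D →* G) (H : Subgroup G) : Finset G := (exists_isRepr j H).choose

lemma isRepr_reps (H : Subgroup G) : IsRepr j H (reps j H) := (exists_isRepr j H).choose_spec

/-- the sum of the local terms over the chosen representatives. -/
noncomputable def coindS (H : Subgroup G) (f : G × G → (M j A)) : T :=
  ∑ x ∈ reps j H, term I H f x

/-- two systems of representatives give the same sum, for any function constant on double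
cosets. -/
lemma sum_eq_sum_of_isRepr {H : Subgroup G} {R R' : Finset G} (hR : IsRepr j H R)
    (hR' : IsRepr j H R') (c : G → T) (hc : ∀ x y, InDC j H x y → c y = c x) :
    ∑ x ∈ R, c x = ∑ x ∈ R', c x := by
  classical
  have hex : ∀ x : G, ∃ x' ∈ R', InDC j H x' x := fun x => hR'.1 x
  choose π hπmem hπ using hex
  refine Finset.sum_bij (fun x _ => π x) (fun x _ => hπmem x) ?_ ?_ ?_
  · intro x₁ h₁ x₂ h₂ he
    apply hR.2 x₁ h₁ x₂ h₂
    have a1 := hπ x₁
    have a2 := hπ x₂
    rw [he] at a1
    exact inDC_trans j H x₁ (inDC_comm j H _ a1) a2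
  · intro x' hx'
    obtain ⟨x, hx, hxx'⟩ := hR.1 x'
    refine ⟨x, hx, ?_⟩
    apply hR'.2 _ (hπmem x) _ hx'
    exact inDC_trans j H _ (hπ x) hxx'
  · intro x _
    exact (hc _ _ (hπ x))

/-- **independence of the representatives.** -/
theorem coindS_eq_sum {H : Subgroup G} {f : G × G → (M j A)} (hf : IsCocOn (M j A) H f)
    {R : Finset G} (hR : IsRepr j H R) : coindS I H f = ∑ x ∈ R, term I H f x :=
  sum_eq_sum_of_isRepr (isRepr_reps H) hR _ (fun _ _ h => term_eq_of_inDC I hf h)

lemma term_congr {H : Subgroup G} {f f' : G × G → (M j A)}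
    (h : ∀ g ∈ H, ∀ a ∈ H, f (g, a) = f' (g, a)) (x : G) : term I H f x = term I H f' x := by
  unfold term
  refine I.congr _ _ _ (fun a ha b hb => ?_)
  rw [loc_apply, loc_apply, h _ ha _ hb]

lemma term_add {H : Subgroup G} {f f' : G × G → (M j A)} (hf : IsCocOn (M j A) H f)
    (hf' : IsCocOn (M j A) H f') (x : G) :
    term I H (f + f') x = term I H f x + term I H f' x := by
  unfold term
  rw [loc_add]
  exact I.add _ _ _ (loc_isCocOn x hf) (loc_isCocOn x hf')

lemma term_cob {H : Subgroup G} {f : G × G → (M j A)} (hf : IsCobOn (M j A) H f) (x : G) :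
    term I H f x = 0 :=
  I.cob _ _ (loc_isCobOn x hf)

/-- restriction, termwise: the local term for `H'` is `[D_y : D'_y]` times the one for `H`. -/
lemma term_res {H' H : Subgroup G} (h : H' ≤ H) {f : G × G → (M j A)}
    (hf : IsCocOn (M j A) H f) (y : G) :
    term I H' f y = (twSub j H' y).relIndex (twSub j H y) • term I H f y :=
  I.res _ _ (twSub_mono h y) _ (loc_isCocOn y hf)

/-- **(J1): restriction multiplies the sum of the local invariants by the index.** -/
theorem coindS_res [Finite D] {H' H : Subgroup G} (h : H' ≤ H) {f : G × G → (M j A)}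
    (hf : IsCocOn (M j A) H f) : coindS I H' f = H'.relIndex H • coindS I H f := by
  classical
  have hR := isRepr_reps (j := j) H
  have hR' := isRepr_reps (j := j) H'
  have hex : ∀ y : G, ∃ x ∈ reps j H, InDC j H x y := fun y => hR.1 y
  choose r hrmem hr using hex
  unfold coindS
  rw [← Finset.sum_fiberwise_of_maps_to (s := reps j H') (t := reps j H) (g := r)
    (fun y _ => hrmem y), Finset.smul_sum]
  refine Finset.sum_congr rfl (fun x hx => ?_)
  have hfilter : (reps j H').filter (fun y => r y = x) = (reps j H').filter (InDC j H x) := by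
    refine Finset.filter_congr (fun y _ => ?_)
    constructor
    · intro e; rw [← e]; exact hr y
    · intro hxy
      exact hR.2 _ (hrmem y) _ hx (inDC_trans j H _ (hr y) (inDC_comm j H _ hxy))
  rw [hfilter, ← Count.sum_relIndex_eq h x hR', Finset.sum_smul]
  refine Finset.sum_congr rfl (fun y hy => ?_)
  rw [term_res I h hf y, term_eq_of_inDC I hf (Finset.mem_filter.1 hy).2]

/-- conjugating the subgroup moves the representatives by right translation. -/
lemma isRepr_image_mul {H' H : Subgroup G} {σ : G} (hH : ∀ g, g ∈ H' ↔ σ⁻¹ * g * σ ∈ H)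
    {R : Finset G} (hR : IsRepr j H R) [DecidableEq G] :
    IsRepr j H' (R.image (fun x => x * σ⁻¹)) := by
  have key : ∀ x g : G, InDC j H' (x * σ⁻¹) g ↔ InDC j H x (g * σ) := by
    intro x g
    constructor
    · rintro ⟨τ, h', e⟩
      refine ⟨τ, ⟨σ⁻¹ * h' * σ, (hH _).1 h'.2⟩, ?_⟩
      rw [e]; group
    · rintro ⟨τ, h, e⟩
      refine ⟨τ, ⟨σ * h * σ⁻¹, (hH _).2 (by
        have : σ⁻¹ * (σ * (h : G) * σ⁻¹) * σ = h := by group
        rw [this]; exact h.2)⟩, ?_⟩
      have : g = g * σ * σ⁻¹ := by group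
      rw [this, e]; group
  constructor
  · intro g
    obtain ⟨x, hx, hxg⟩ := hR.1 (g * σ)
    exact ⟨x * σ⁻¹, Finset.mem_image_of_mem _ hx, (key x g).2 hxg⟩
  · intro z₁ hz₁ z₂ hz₂ h12
    obtain ⟨x₁, hx₁, rfl⟩ := Finset.mem_image.1 hz₁
    obtain ⟨x₂, hx₂, rfl⟩ := Finset.mem_image.1 hz₂
    have := (key x₁ (x₂ * σ⁻¹)).1 h12
    rw [inv_mul_cancel_right] at this
    rw [hR.2 x₁ hx₁ x₂ hx₂ this]

lemma twSub_conj {H' H : Subgroup G} {σ : G} (hH : ∀ g, g ∈ H' ↔ σ⁻¹ * g * σ ∈ H) (x : G) :
    twSub j H' (x * σ⁻¹) = twSub j H x := by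
  ext g
  rw [mem_twSub, mem_twSub, hH]
  have e : σ⁻¹ * ((x * σ⁻¹)⁻¹ * j g * (x * σ⁻¹)) * σ = x⁻¹ * j g * x := by group
  rw [e]

/-- **conjugation invariance of the sum of the local invariants.** -/
theorem coindS_conj {H' H : Subgroup G} {σ : G} (hH : ∀ g, g ∈ H' ↔ σ⁻¹ * g * σ ∈ H)
    {f : G × G → (M j A)} (hf : IsCocOn (M j A) H f) :
    coindS I H' (conjC (M j A) σ f) = coindS I H f := by
  classical
  have hR := isRepr_reps (j := j) H
  rw [coindS_eq_sum I (hf.conjC hH) (isRepr_image_mul hH hR), coindS,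
    Finset.sum_image (fun x _ y _ e => mul_right_cancel e)]
  refine Finset.sum_congr rfl (fun x _ => ?_)
  unfold term
  rw [twSub_conj hH x, ← loc_mul_right, inv_mul_cancel_right]

end sums

/-- **the coinduced system.** -/
noncomputable def coindSys [Finite G] [Finite D] (I : Sys A T) : Sys (M j A) T where
  S H f := coindS I H f
  congr H f f' h := Finset.sum_congr rfl fun x _ => term_congr I h x
  add H f f' hf hf' := by
    unfold coindS
    rw [← Finset.sum_add_distrib]
    exact Finset.sum_congr rfl fun x _ => term_add I hf hf' x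
  cob H f hf := Finset.sum_eq_zero fun x _ => term_cob I hf x
  res H' H h f hf := coindS_res I h hf
  conj H' H σ hH f hf := coindS_conj I hH hf

@[simp] lemma coindSys_S [Finite G] [Finite D] (I : Sys A T) (H : Subgroup G)
    (f : G × G → (M j A)) : (coindSys (j := j) I).S H f = coindS I H f := rfl

/-! ### The value over the base: one place, `D_1 = D` -/

lemma isRepr_top_one : IsRepr j (⊤ : Subgroup G) {1} := by
  constructor
  · intro g
    exact ⟨1, Finset.mem_singleton_self 1, 1, ⟨g, Subgroup.mem_top g⟩, by simp⟩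
  · intro x hx y hy _
    rw [Finset.mem_singleton.1 hx, Finset.mem_singleton.1 hy]

lemma twSub_top (x : G) : twSub j (⊤ : Subgroup G) x = ⊤ := by
  ext g; simp [mem_twSub]

/-- **over the base field there is one place above `q`:** the sum is the local invariant of the
localised cocycle `loc 1 f (a, b) = f (j a, j b) (1)`. -/
theorem coindS_top [Finite G] (I : Sys A T) {f : G × G → (M j A)}
    (hf : IsCocOn (M j A) ⊤ f) : coindS I ⊤ f = I.S ⊤ (loc j A 1 f) := by
  rw [coindS_eq_sum I hf isRepr_top_one, Finset.sum_singleton]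
  unfold term
  rw [twSub_top]

lemma loc_one_apply (f : G × G → (M j A)) (a b : D) :
    loc j A 1 f (a, b) = (f (j a, j b)).1 1 := by
  rw [loc_apply]; simp

end Fermat.Agent.S55.CycloRecip37.CoindSys
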