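/-
S55 / leaf 34-CYCLO-RECIP, 34-SYS part 2 (helper37): carry cocycles in a coinduced system, the
master formula `S H (δχ ∪ b) = ∑_x I.S D_x (δ(χ∘j) ∪ b_x)`, the base case, and the additive maps
`H²(H, C) →+ T` attached to a system.
Mathlib + GSys + CoindSys + GlobalInv91.Carry + ProfinGlobal22.Desc (H2desc) only.
-/
import Mathlib
import Fermat.Agent.S55.CycloRecip37.CoindSys
import Fermat.Agent.S55.ProfinGlobal22.Desc

set_option autoImplicit false
set_option linter.unusedSectionVars false

namespace Fermat.Agent.S55.CycloRecip37.SysMore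

open Fermat.Agent.S55.Idele73.Mackey Fermat.Agent.S55.CycloRecip37.GSys
  Fermat.Agent.S55.CycloRecip37.CoindSys Fermat.Agent.S55.GlobalInv91
  Fermat.Agent.S55.CycloRecip37.DescendK

/-! ### Carry cocycles, global-cochain form -/

section carry

universe u

variable {k G : Type u} [CommRing k] [Group G] (C : Rep k G) {n : ℕ} [NeZero n]

/-- the carry cochain of an `H`-invariant element is a cocycle on `H`. -/
lemma isCocOn_carry (χ : G →* Multiplicative (ZMod n)) (H : Subgroup G) (b : C)
    (hb : ∀ h ∈ H, C.ρ h b = b) : IsCocOn C H (carry C χ b) := by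
  intro g hg a _ l _
  simp only [carry_apply, chiVal_mul, map_nsmul, hb g hg]
  have := carryNat_assoc n (chiVal χ g) (chiVal χ a) (chiVal χ l)
  rw [sub_add_eq_add_sub, sub_sub, sub_eq_zero, ← add_nsmul, ← add_nsmul]
  congr 1
  omega

/-- on `H × H` the global carry cochain is the carry cochain of the restricted character. -/
lemma ext0_carryH (χ : G →* Multiplicative (ZMod n)) (H : Subgroup G) (b : C) :
    ∀ g ∈ H, ∀ a ∈ H, ext0 H (carryH C χ H b) (g, a) = carry C χ b (g, a) := by
  intro g hg a ha
  rw [ext0_of_mem H _ hg ha]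
  rfl

/-- the `DescendK.SumSystem` of a system, on carry cochains. -/
lemma toSumSystem_carryH {T : Type*} [AddCommGroup T] (I : Sys C T)
    (χ : G →* Multiplicative (ZMod n)) (H : Subgroup G) (b : C) :
    I.toSumSystem.S H (carryH C χ H b) = I.S H (carry C χ b) :=
  I.congr H _ _ (ext0_carryH C χ H b)

end carry

/-! ### Carry cocycles in a coinduced system -/

section coind

variable {k : Type} [CommRing k] {D G : Type} [Group D] [Group G] {j : D →* G} {A : Rep.{0} k D}
variable {C : Rep.{0} k G} {n : ℕ} [NeZero n]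

omit [NeZero n] in
lemma chiVal_conj (χ : G →* Multiplicative (ZMod n)) (x g : G) :
    chiVal χ (x⁻¹ * g * x) = chiVal χ g := by
  simp only [chiVal, map_mul, map_inv, toAdd_mul, toAdd_inv]
  abel

/-- **localisation of a carry cochain:** `loc x (φ ∘ (δχ ∪ b)) = δ(χ ∘ j) ∪ (φ b)(x)`. -/
theorem loc_carry (φ : C ⟶ M j A) (χ : G →* Multiplicative (ZMod n)) (b : C) (x : G) :
    loc j A x (fun y => φ.hom (carry C χ b y)) = carry A (χ.comp j) ((φ.hom b).1 x) := by
  funext ⟨a, a'⟩
  rw [loc_apply, carry_apply, carry_apply, chiVal_conj, chiVal_conj, map_nsmul]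
  rfl

variable {T : Type*} [AddCommGroup T] [Finite G] [Finite D]

/-- **the master formula:** in the system coinduced from `I` and pulled back along `φ`, the value
on `δχ ∪ b` over `K = L^H` is the sum over the places `x` of the local values on
`δ(χ∘j) ∪ (φ b)(x)`. -/
theorem comap_coindSys_carry (I : Sys A T) (φ : C ⟶ M j A) (χ : G →* Multiplicative (ZMod n))
    (H : Subgroup G) (b : C) (hb : ∀ h ∈ H, C.ρ h b = b) {R : Finset G} (hR : IsRepr j H R) :
    ((coindSys (j := j) I).comap φ).S H (carry C χ b) =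
      ∑ x ∈ R, I.S (twSub j H x) (carry A (χ.comp j) ((φ.hom b).1 x)) := by
  rw [Sys.comap_S, coindSys_S,
    coindS_eq_sum I (hom_isCocOn φ (isCocOn_carry C χ H b hb)) hR]
  refine Finset.sum_congr rfl (fun x _ => ?_)
  unfold term
  rw [loc_carry]

/-- **the base case:** over `ℚ` there is one place above `q`. -/
theorem comap_coindSys_carry_top (I : Sys A T) (φ : C ⟶ M j A)
    (χ : G →* Multiplicative (ZMod n)) (b : C) (hb : ∀ g, C.ρ g b = b) :
    ((coindSys (j := j) I).comap φ).S ⊤ (carry C χ b) =
      I.S ⊤ (carry A (χ.comp j) ((φ.hom b).1 1)) := by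
  rw [comap_coindSys_carry I φ χ ⊤ b (fun h _ => hb h) isRepr_top_one, Finset.sum_singleton,
    twSub_top]

end coind

/-! ### The additive maps on `H²` -/

section H2

open groupCohomology Fermat.Agent.S55.ProfinGlobal22

universe u

/-- descend an ADDITIVE map on `2`-cocycles killing coboundaries to `H²`. -/
noncomputable def H2descAdd {k Q : Type u} [CommRing k] [Group Q] (B : Rep k Q) {Y : Type*}
    [AddCommGroup Y] (f : cocycles₂ B →+ Y)
    (hf : ∀ c : cocycles₂ B, (c : Q × Q → B) ∈ coboundaries₂ B → f c = 0) : H2 B →+ Y :=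
  (QuotientAddGroup.lift ((H2π B).hom.toAddMonoidHom.ker) f (by
      intro c hc
      rw [AddMonoidHom.mem_ker]
      exact hf c ((H2π_eq_zero_iff c).mp hc))).comp
    (QuotientAddGroup.quotientKerEquivOfSurjective (H2π B).hom.toAddMonoidHom
      (H2π_surjective B)).symm.toAddMonoidHom

theorem H2descAdd_H2π {k Q : Type u} [CommRing k] [Group Q] (B : Rep k Q) {Y : Type*}
    [AddCommGroup Y] (f : cocycles₂ B →+ Y)
    (hf : ∀ c : cocycles₂ B, (c : Q × Q → B) ∈ coboundaries₂ B → f c = 0) (c : cocycles₂ B) :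
    H2descAdd B f hf ((H2π B).hom c) = f c := by
  have h1 : (QuotientAddGroup.quotientKerEquivOfSurjective (H2π B).hom.toAddMonoidHom
      (H2π_surjective B)).symm ((H2π B).hom c) = QuotientAddGroup.mk c := by
    rw [AddEquiv.symm_apply_eq]
    rfl
  unfold H2descAdd
  rw [AddMonoidHom.comp_apply]
  change QuotientAddGroup.lift _ f _ ((QuotientAddGroup.quotientKerEquivOfSurjective
    (H2π B).hom.toAddMonoidHom (H2π_surjective B)).symm ((H2π B).hom c)) = f c
  rw [h1]
  exact QuotientAddGroup.lift_mk _ _ c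

variable {k G : Type u} [CommRing k] [Group G] {C : Rep k G} {T : Type*} [AddCommGroup T]

/-- the additive functional on the cocycles of `H`. -/
noncomputable def cocyclesHom (I : Sys C T) (H : Subgroup G) : cocycles₂ (resH C H) →+ T where
  toFun c := I.S H (GSys.ext0 H c.1)
  map_zero' := by
    have : GSys.ext0 H ((0 : cocycles₂ (resH C H)).1) = 0 := by
      funext x; unfold GSys.ext0; split_ifs <;> rfl
    rw [this]; exact I.zero H
  map_add' c c' := by
    change I.S H (GSys.ext0 H (c.1 + c'.1)) = _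
    rw [ext0_add]
    exact I.add H _ _ (isCocOn_ext0 H c.1 c.2) (isCocOn_ext0 H c'.1 c'.2)

/-- **the invariant map `H²(H, C) →+ T` of a system.** -/
noncomputable def toH2 (I : Sys C T) (H : Subgroup G) : H2 (resH C H) →+ T :=
  H2descAdd (resH C H) (cocyclesHom I H) (fun c hc => by
    change I.S H (GSys.ext0 H c.1) = 0
    exact I.cob H _ (isCobOn_ext0 H c.1 ((isCob₂_iff_mem _ _).2 hc)))

lemma toH2_H2π (I : Sys C T) (H : Subgroup G) (c : cocycles₂ (resH C H)) :
    toH2 I H ((H2π (resH C H)).hom c) = I.S H (GSys.ext0 H c.1) :=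
  H2descAdd_H2π (resH C H) _ _ c

end H2

end Fermat.Agent.S55.CycloRecip37.SysMore
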