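/-
S55 / leaf 34-CYCLO-RECIP, 34-SYS part 4 (helper37): the `H²`-level dictionary between systems
(`GSys.Sys`) and the vocabulary of 35 (helper91 `GlobalInv91`: `res₂`, `push₂`, `pushS₂`,
`carryH2`, ambient group a subgroup `↥H`).
* `toH2top I : H2 C →+ T`, `toH2top_H2π`, `toH2top_carryH2`, `toH2top_push₂`;
* `toH2_res₂ : toH2 I N (res₂ C N y) = N.index • toH2top I y`  (= `hJ1` of GlobalInv91 literally);
* `toH2_pushS₂`;
* `Sys.restrict I H : Sys (resH C H) T` (the ambient group becomes `↥H`), with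
  `restrict_S_top_carry`.
Mathlib + GSys + SysMore + GlobalInv91.{Carry,Tower,Gen} only.
-/
import Mathlib
import Fermat.Agent.S55.CycloRecip37.SysMore
import Fermat.Agent.S55.GlobalInv91.Gen

set_option autoImplicit false
set_option linter.unusedSectionVars false

namespace Fermat.Agent.S55.CycloRecip37.SysH2

open groupCohomology CategoryTheory Fermat.Agent.S55.CycloRecip37.GSys
  Fermat.Agent.S55.CycloRecip37.SysMore Fermat.Agent.S55.GlobalInv91
  Fermat.Agent.S55.CycloRecip37.DescendK Fermat.Agent.S55.ProfinGlobal22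

universe u

variable {k G : Type u} [CommRing k] [Group G] {C : Rep.{u, u, u} k G} {T : Type*} [AddCommGroup T]

/-- the additive functional on the cocycles of the ambient group. -/
noncomputable def cocyclesTop (I : Sys C T) : cocycles₂ C →+ T where
  toFun c := I.S ⊤ c.1
  map_zero' := I.zero ⊤
  map_add' c c' := by
    have hc : ∀ c : cocycles₂ C, IsCocOn C ⊤ c.1 := fun c g _ a _ l _ =>
      (mem_cocycles₂_def c.1).1 c.2 g a l
    exact I.add ⊤ _ _ (hc c) (hc c')

/-- **the invariant map `H²(G, C) →+ T` of a system** (ambient group). -/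
noncomputable def toH2top (I : Sys C T) : H2 C →+ T :=
  H2descAdd C (cocyclesTop I) (fun c hc => by
    change I.S ⊤ c.1 = 0
    obtain ⟨x, hx⟩ := (isCob₂_iff_mem C c.1).2 hc
    exact I.cob ⊤ _ ⟨x, fun g _ a _ => hx g a⟩)

lemma toH2top_H2π (I : Sys C T) (c : cocycles₂ C) : toH2top I ((H2π C).hom c) = I.S ⊤ c.1 :=
  H2descAdd_H2π C _ _ c

variable {n : ℕ} [NeZero n]

/-- the value on a tower class. -/
theorem toH2top_carryH2 (I : Sys C T) (χ : G →* Multiplicative (ZMod n)) (a : C.ρ.invariants) :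
    toH2top I (carryH2 C χ a) = I.S ⊤ (carry C χ (a : C)) := by
  rw [carryH2_apply]
  exact toH2top_H2π I _

/-- **base change (`hJ1` of GlobalInv91):** `inv_N (res y) = [G : N] • inv y`. -/
theorem toH2_res₂ (I : Sys C T) (N : Subgroup G) (y : H2 C) :
    toH2 I N ((res₂ C N).hom y) = N.index • toH2top I y := by
  obtain ⟨c, rfl⟩ := H2π_surjective C y
  erw [H2π_comp_map_apply]
  rw [toH2_H2π, toH2top_H2π, ← Subgroup.relIndex_top_right]
  have hc : IsCocOn C ⊤ c.1 := fun g _ a _ l _ => (mem_cocycles₂_def c.1).1 c.2 g a l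
  rw [← I.res N ⊤ le_top c.1 hc]
  refine I.congr N _ _ (fun g hg a ha => ?_)
  rw [ext0_of_mem N _ hg ha]
  rfl

/-- push-forward along a morphism of representations. -/
theorem toH2top_push₂ {M : Rep.{u, u, u} k G} (I : Sys M T) (f : C ⟶ M) (x : H2 C) :
    toH2top I ((push₂ f).hom x) = toH2top (I.comap f) x := by
  obtain ⟨c, rfl⟩ := H2π_surjective C x
  erw [H2π_comp_map_apply]
  rw [toH2top_H2π, toH2top_H2π]
  rfl

/-- push-forward on a subgroup. -/
theorem toH2_pushS₂ {M : Rep.{u, u, u} k G} (I : Sys M T) (f : C ⟶ M) (N : Subgroup G)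
    (x : H2 (Rep.res N.subtype C)) :
    toH2 I N ((pushS₂ f N).hom x) = toH2 (I.comap f) N x := by
  obtain ⟨c, rfl⟩ := H2π_surjective _ x
  erw [H2π_comp_map_apply]
  rw [toH2_H2π, toH2_H2π]
  refine I.congr N _ _ (fun g hg a ha => ?_)
  rw [ext0_of_mem N _ hg ha, ext0_of_mem N _ hg ha]
  rfl

/-! ### Restricting a system to a subgroup as ambient group -/

section restrict

variable (H : Subgroup G)

lemma mem_map_subtype {N : Subgroup H} {g : G} :
    g ∈ N.map H.subtype ↔ ∃ hg : g ∈ H, (⟨g, hg⟩ : H) ∈ N := by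
  constructor
  · rintro ⟨x, hx, rfl⟩
    exact ⟨x.2, hx⟩
  · rintro ⟨hg, hN⟩
    exact ⟨⟨g, hg⟩, hN, rfl⟩

lemma isCocOn_ext0_sub {N : Subgroup H} {f : H × H → C} (hf : IsCocOn (resH C H) N f) :
    IsCocOn C (N.map H.subtype) (GSys.ext0 H f) := by
  intro g hg a ha l hl
  obtain ⟨hg', hgN⟩ := mem_map_subtype H |>.1 hg
  obtain ⟨ha', haN⟩ := mem_map_subtype H |>.1 ha
  obtain ⟨hl', hlN⟩ := mem_map_subtype H |>.1 hl
  rw [ext0_of_mem H f ha' hl', ext0_of_mem H f (H.mul_mem hg' ha') hl',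
    ext0_of_mem H f hg' (H.mul_mem ha' hl'), ext0_of_mem H f hg' ha']
  exact hf ⟨g, hg'⟩ hgN ⟨a, ha'⟩ haN ⟨l, hl'⟩ hlN

open Classical in
lemma isCobOn_ext0_sub {N : Subgroup H} {f : H × H → C} (hf : IsCobOn (resH C H) N f) :
    IsCobOn C (N.map H.subtype) (GSys.ext0 H f) := by
  obtain ⟨c, hc⟩ := hf
  refine ⟨fun g => if h : g ∈ H then c ⟨g, h⟩ else 0, fun g hg a ha => ?_⟩
  obtain ⟨hg', hgN⟩ := mem_map_subtype H |>.1 hg
  obtain ⟨ha', haN⟩ := mem_map_subtype H |>.1 ha
  rw [ext0_of_mem H f hg' ha']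
  simp only [dif_pos ha', dif_pos hg', dif_pos (H.mul_mem hg' ha')]
  exact hc ⟨g, hg'⟩ hgN ⟨a, ha'⟩ haN

/-- **the restriction of a system to `H` as ambient group.** -/
noncomputable def restrict (I : Sys C T) : Sys (resH C H) T where
  S N f := I.S (N.map H.subtype) (GSys.ext0 H f)
  congr N f f' h := by
    refine I.congr _ _ _ (fun g hg a ha => ?_)
    obtain ⟨hg', hgN⟩ := mem_map_subtype H |>.1 hg
    obtain ⟨ha', haN⟩ := mem_map_subtype H |>.1 ha
    rw [ext0_of_mem H f hg' ha', ext0_of_mem H f' hg' ha']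
    exact h ⟨g, hg'⟩ hgN ⟨a, ha'⟩ haN
  add N f f' hf hf' := by
    rw [ext0_add]
    exact I.add _ _ _ (isCocOn_ext0_sub H hf) (isCocOn_ext0_sub H hf')
  cob N f hf := I.cob _ _ (isCobOn_ext0_sub H hf)
  res N' N h f hf := by
    rw [I.res (N'.map H.subtype) (N.map H.subtype) (Subgroup.map_mono h) _
      (isCocOn_ext0_sub H hf),
      Subgroup.relIndex_map_map_of_injective N' N (Subgroup.subtype_injective H)]
  conj N' N σ hN f hf := by
    have hmap : ∀ g : G, g ∈ N'.map H.subtype ↔ (σ : G)⁻¹ * g * σ ∈ N.map H.subtype := by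
      intro g
      rw [mem_map_subtype, mem_map_subtype]
      constructor
      · rintro ⟨hg, hgN⟩
        refine ⟨H.mul_mem (H.mul_mem (H.inv_mem σ.2) hg) σ.2, ?_⟩
        exact (hN ⟨g, hg⟩).1 hgN
      · rintro ⟨hg, hgN⟩
        have hg' : g ∈ H := by
          have := H.mul_mem (H.mul_mem σ.2 hg) (H.inv_mem σ.2)
          have e : (σ : G) * ((σ : G)⁻¹ * g * σ) * (σ : G)⁻¹ = g := by group
          rwa [e] at this
        exact ⟨hg', (hN ⟨g, hg'⟩).2 hgN⟩
    rw [← I.conj (N'.map H.subtype) (N.map H.subtype) (σ : G) hmap _ (isCocOn_ext0_sub H hf)]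
    refine I.congr _ _ _ (fun g hg a ha => ?_)
    obtain ⟨hg', -⟩ := mem_map_subtype H |>.1 hg
    obtain ⟨ha', -⟩ := mem_map_subtype H |>.1 ha
    rw [ext0_of_mem H _ hg' ha', conjC_apply, conjC_apply,
      ext0_of_mem H f (H.mul_mem (H.mul_mem (H.inv_mem σ.2) hg') σ.2)
        (H.mul_mem (H.mul_mem (H.inv_mem σ.2) ha') σ.2)]
    rfl

lemma restrict_S (I : Sys C T) (N : Subgroup H) (f : H × H → C) :
    (restrict H I).S N f = I.S (N.map H.subtype) (GSys.ext0 H f) := rfl

/-- the restricted system over its base, on a tower class: the value of the original system at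
`H`. -/
theorem restrict_S_top_carry (I : Sys C T) (χ : G →* Multiplicative (ZMod n)) (a : C) :
    (restrict H I).S ⊤ (carry (resH C H) (χ.comp H.subtype) a) = I.S H (carry C χ a) := by
  rw [restrict_S]
  have htop : (⊤ : Subgroup H).map H.subtype = H := by
    rw [← MonoidHom.range_eq_map, Subgroup.range_subtype]
  rw [I.congr_subgroup htop]
  exact I.congr H _ _ (ext0_carryH C χ H a)

/-- restriction to `H` commutes with pull-back along a morphism of representations. -/
theorem restrict_comap {M : Rep.{u, u, u} k G} (I : Sys M T) (φ : C ⟶ M) (N : Subgroup H)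
    (f : H × H → C) :
    ((restrict H I).comap ((Rep.resFunctor H.subtype).map φ)).S N f =
      (restrict H (I.comap φ)).S N f := by
  rw [Sys.comap_S, restrict_S, restrict_S, Sys.comap_S]
  refine I.congr _ _ _ (fun g hg a ha => ?_)
  obtain ⟨hg', -⟩ := mem_map_subtype H |>.1 hg
  obtain ⟨ha', -⟩ := mem_map_subtype H |>.1 ha
  rw [ext0_of_mem H _ hg' ha', ext0_of_mem H _ hg' ha']
  rfl

/-- **the shape of `hrecT` (GlobalInv91.tower_layer) from a value of a system:** with ambient
group `↥H`, `X₁ = Res_H C`, `X₂ = Res_H M`, `X.f = Res_H φ` and `invJ = toH2top (restrict H I)`. -/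
theorem invJ_push₂_carryH2 {M : Rep.{u, u, u} k G} (I : Sys M T) (φ : C ⟶ M)
    (χ : G →* Multiplicative (ZMod n)) (b : (resH C H).ρ.invariants) :
    toH2top (restrict H I) ((push₂ ((Rep.resFunctor H.subtype).map φ)).hom
      (carryH2 (resH C H) (χ.comp H.subtype) b)) = (I.comap φ).S H (carry C χ (b : C)) := by
  rw [toH2top_push₂, toH2top_carryH2, restrict_comap, restrict_S_top_carry]

end restrict

end Fermat.Agent.S55.CycloRecip37.SysH2
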