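/-
S55 / leaf 34-CYCLO-RECIP, 34-SYS part 3 (helper37): the global system of sums of local
invariants on `Lˣ` for a level `L` (finite Galois over `ℚ`) in the Idele73 model, from ANY family
of local systems on `(Gal(E_q/ℚ_q), E_qˣ)`, `E_q = ℚ_q(ι L)`; the explicit local expansion over a
subfield `K = L^H`; and the descent of the tower sum formula from `ℚ` to `K`.
-/
import Mathlib
import Fermat.Agent.S55.Idele73.Local
import Fermat.Agent.S55.CycloRecip37.SysMore

set_option autoImplicit false
set_option linter.unusedSectionVars false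

namespace Fermat.Agent.S55.CycloRecip37.IdeleSys

open Fermat.Agent.S55.Idele73.Basic Fermat.Agent.S55.Idele73.Local
  Fermat.Agent.S55.Idele73.Mackey Fermat.Agent.S55.CycloRecip37.GSys
  Fermat.Agent.S55.CycloRecip37.CoindSys Fermat.Agent.S55.CycloRecip37.SysMore
  Fermat.Agent.S55.GlobalInv91 Fermat.Agent.S55.ProfinLoc80

section local_

variable (q : ℕ) [Fact q.Prime] (L : IntermediateField ℚ Qbar) [Normal ℚ L]

/-- the embedding `L → E = ℚ_q(ι L)`. -/
noncomputable def iotaE : L →+* Elev q L :=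
  (iotaL q L).codRestrict (Elev q L).toSubring (fun x => padicEmbedding_mem_localLevel q L x)

lemma iotaE_apply (x : L) : ((iotaE q L x : Elev q L) : PadicAlgCl q) = iotaL q L x := rfl

lemma iotaE_jE (σ : DE q L) (x : L) : iotaE q L (jE q L σ x) = σ (iotaE q L x) := by
  apply Subtype.ext
  rw [iotaE_apply, iotaL_jE]
  rfl

/-- the local diagonal `Lˣ → Eˣ`, equivariant along `jE`. -/
noncomputable def diagLocE : Rep.res (jE q L) (Lx L) ⟶ EUnits q L :=
  Rep.ofHom <| LinearMap.intertwiningMap_of_isIntertwiningMap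
    (ρ := (Rep.res (jE q L) (Lx L)).ρ) (σ := (EUnits q L).ρ)
    (Units.map (iotaE q L).toMonoidHom).toAdditive.toIntLinearMap (fun σ x => by
      apply Additive.toMul.injective
      apply Units.ext
      exact iotaE_jE q L σ (Additive.toMul x : Lˣ))

/-- the diagonal embedding `Lˣ → Coind_{jE} Eˣ`, `b ↦ (g ↦ ι (g b))`. -/
noncomputable def diagE : Lx L ⟶ Rep.coind (jE q L) (EUnits q L) :=
  Rep.resCoindToHom (jE q L) (Lx L) (EUnits q L) (diagLocE q L)

lemma diagE_apply (b : Lx L) (g : GalL L) :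
    ((diagE q L).hom b).1 g = (diagLocE q L).hom ((Lx L).ρ g b) := rfl

end local_

section global

variable (L : IntermediateField ℚ Qbar) [Normal ℚ L] [FiniteDimensional ℚ L]
variable {T : Type*} [AddCommGroup T]

instance finite_DE (q : ℕ) [Fact q.Prime] : Finite (DE q L) := inferInstance

instance factPrime (q : Nat.Primes) : Fact (q : ℕ).Prime := ⟨q.2⟩

/-- the `q`-part of the global system: coinduce the local system, rescale by `e`, pull back along
the diagonal. -/
noncomputable def qSys (q : Nat.Primes) (I : Sys (EUnits (q : ℕ) L) T) (e : T →+ T) :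
    Sys (Lx L) T :=
  ((coindSys (j := jE (q : ℕ) L) I).map e).comap (diagE (q : ℕ) L)

/-- **the global system of sums of local invariants** on `Lˣ`, for a finite set `P` of primes,
local systems `I q` and rescalings `e q` (`e p = ε`, `e q = id` otherwise). -/
noncomputable def globSys (P : Finset Nat.Primes) (I : ∀ q : Nat.Primes, Sys (EUnits (q : ℕ) L) T)
    (e : Nat.Primes → (T →+ T)) : Sys (Lx L) T :=
  Sys.finsum P (fun q => qSys L q (I q) (e q))

variable {L}
variable (P : Finset Nat.Primes) (I : ∀ q : Nat.Primes, Sys (EUnits (q : ℕ) L) T)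
  (e : Nat.Primes → (T →+ T)) {n : ℕ} [NeZero n]

/-- **explicit local expansion over `K = L^H`:** the value on `δχ ∪ a` is the sum over `q ∈ P` and
the places `x` of `K` above `q` of the local invariant of `δ(χ ∘ jE) ∪ ι(x a)` over `K_x`. -/
theorem globSys_carry (χ : GalL L →* Multiplicative (ZMod n)) (H : Subgroup (GalL L)) (a : Lx L)
    (ha : ∀ h ∈ H, (Lx L).ρ h a = a) (R : Nat.Primes → Finset (GalL L))
    (hR : ∀ q ∈ P, IsRepr (jE (q : ℕ) L) H (R q)) :
    (globSys L P I e).S H (carry (Lx L) χ a) =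
      ∑ q ∈ P, e q (∑ x ∈ R q, (I q).S (twSub (jE (q : ℕ) L) H x)
        (carry (EUnits (q : ℕ) L) (χ.comp (jE (q : ℕ) L))
          ((diagLocE (q : ℕ) L).hom ((Lx L).ρ x a)))) := by
  rw [globSys, Sys.finsum_S]
  refine Finset.sum_congr rfl (fun q hq => ?_)
  have h := comap_coindSys_carry (I q) (diagE (q : ℕ) L) χ H a ha (hR q hq)
  rw [qSys]
  change e q (((coindSys (j := jE (q : ℕ) L) (I q)).comap (diagE (q : ℕ) L)).S H
    (carry (Lx L) χ a)) = _
  rw [h]
  rfl

/-- **the base case `K = ℚ`:** one place above each `q`, with local group all of `Gal(E/ℚ_q)`. -/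
theorem globSys_carry_top (χ : GalL L →* Multiplicative (ZMod n)) (b : Lx L)
    (hb : ∀ g, (Lx L).ρ g b = b) :
    (globSys L P I e).S ⊤ (carry (Lx L) χ b) =
      ∑ q ∈ P, e q ((I q).S ⊤ (carry (EUnits (q : ℕ) L) (χ.comp (jE (q : ℕ) L))
        ((diagLocE (q : ℕ) L).hom b))) := by
  rw [globSys, Sys.finsum_S]
  refine Finset.sum_congr rfl (fun q _ => ?_)
  have h := comap_coindSys_carry_top (I q) (diagE (q : ℕ) L) χ b hb
  rw [qSys]
  change e q (((coindSys (j := jE (q : ℕ) L) (I q)).comap (diagE (q : ℕ) L)).S ⊤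
    (carry (Lx L) χ b)) = _
  rw [h, diagE_apply, map_one]
  rfl

/-- **Steps (II)+(III) in the Idele73 model: descent of the tower sum formula from `ℚ` to every
subfield `K = L^H`.**  If the base sum formula holds for the lift `χt` (level `p^m * p^s`) of `χ`
(level `p^m`) and `p^s` is at least the `p`-part of the degree of the Galois closure of `K`, then
`∑_q e_q ∑_{v | q} inv_v (δχ ∪ a) = 0` for every `a ∈ Kˣ`. -/
theorem globSys_carry_eq_zero (p : ℕ) [Fact p.Prime] {m s : ℕ}
    (χ : GalL L →* Multiplicative (ZMod (p ^ m)))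
    (χt : GalL L →* Multiplicative (ZMod (p ^ m * p ^ s)))
    (hlift : ∀ g : GalL L, (chiVal χ g).val = (chiVal χt g).val % p ^ m)
    (hbase : ∀ b : Lx L, (∀ g, (Lx L).ρ g b = b) →
      haveI : NeZero (p ^ m * p ^ s) := ⟨mul_ne_zero (pow_ne_zero _ (Fact.out : p.Prime).ne_zero)
        (pow_ne_zero _ (Fact.out : p.Prime).ne_zero)⟩
      ∑ q ∈ P, e q ((I q).S ⊤ (carry (EUnits (q : ℕ) L) (χt.comp (jE (q : ℕ) L))
        ((diagLocE (q : ℕ) L).hom b))) = 0)
    (H : Subgroup (GalL L)) (hs : ∀ i, p ^ i ∣ H.normalCore.index → i ≤ s)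
    (a : Lx L) (ha : ∀ h ∈ H, (Lx L).ρ h a = a) :
    haveI : NeZero (p ^ m) := ⟨pow_ne_zero _ (Fact.out : p.Prime).ne_zero⟩
    (globSys L P I e).S H (carry (Lx L) χ a) = 0 := by
  have hne : NeZero (p ^ m) := ⟨pow_ne_zero _ (Fact.out : p.Prime).ne_zero⟩
  have hne' : NeZero (p ^ m * p ^ s) := ⟨mul_ne_zero (pow_ne_zero _ (Fact.out : p.Prime).ne_zero)
    (pow_ne_zero _ (Fact.out : p.Prime).ne_zero)⟩
  have := Fintype.ofFinite (GalL L)
  rw [← toSumSystem_carryH]
  refine DescendK.S_carry_eq_zero (globSys L P I e).toSumSystem p χ χt hlift ?_ H hs a ha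
  intro b hb
  rw [toSumSystem_carryH, globSys_carry_top P I e χt b hb]
  exact hbase b hb

end global

end Fermat.Agent.S55.CycloRecip37.IdeleSys
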