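/-
S55 / leaf 34 → 35 (helper37): THE TOTAL SYSTEM of sums of local invariants on the finite-level
ideles `J_S(L) × I^S(L)` (helper44's D2 model `IdeleVal44.JIS L S`), from ANY local systems
`I q` on `(Gal(E_q/ℚ_q), E_qˣ)`, rescalings `e q : T →+ T` (the `p`-adic unit twist at `p`) and the
Frobenius-evaluation systems on the ideal part (helper54's `idealSys`).  Its pull-back along the
diagonal `deltaS h : Lˣ ⟶ J_S × I^S` is the sum of the `qSys` of `IdeleSys` over `q ∈ S` plus the
locally finite sum of the unramified systems over `ℓ ∉ S`.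
-/
import Mathlib
import Fermat.Agent.S55.CycloRecip37.IdeleSys
import Fermat.Agent.S55.IdeleCoh54.IdealSys
import Fermat.Agent.S55.IdeleVal44.Class

set_option autoImplicit false
set_option linter.unusedSectionVars false

namespace Fermat.Agent.S55.CycloRecip37.TotalSys

open CategoryTheory
open Fermat.Agent.S55.Idele73.Basic Fermat.Agent.S55.Idele73.Local
  Fermat.Agent.S55.CycloRecip37.GSys Fermat.Agent.S55.CycloRecip37.CoindSys
  Fermat.Agent.S55.CycloRecip37.IdeleSys Fermat.Agent.S55.IdeleVal44
  Fermat.Agent.S55.IdeleCoh54.IdealSys Fermat.Agent.S55.IdeleCoh54.UnrGSys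

/-! ### the `q`-component -/

section Local

variable (q : ℕ) [Fact q.Prime] (L : IntermediateField ℚ Qbar) [Normal ℚ L]

/-- `f ↦ eLin ∘ f`: `Coind_{jE} Eˣ → J_q(L)`. -/
noncomputable def pushE : (Rep.coind (jE q L) (EUnits q L)).V →ₗ[ℤ] (Jq q L).V where
  toFun f := ⟨fun g => eLin q L (f.1 g), fun τ g => by
    change eLin q L (f.1 (locHom q L τ * g)) = (localUnits q).ρ τ (eLin q L (f.1 g))
    rw [← jE_resE, f.2 (resE q L τ) g, eLin_equivariant]⟩
  map_add' f f' := by
    apply Subtype.ext; funext g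
    change eLin q L ((f + f').1 g) = eLin q L (f.1 g) + eLin q L (f'.1 g)
    rw [← map_add]; rfl
  map_smul' c f := by
    apply Subtype.ext; funext g
    change eLin q L ((c • f).1 g) = c • eLin q L (f.1 g)
    rw [← map_smul]; rfl

lemma pushE_apply (f : (Rep.coind (jE q L) (EUnits q L)).V) (g : GalL L) :
    (pushE q L f).1 g = eLin q L (f.1 g) := rfl

lemma pushE_injective : Function.Injective (pushE q L) := by
  intro f f' h
  apply Subtype.ext; funext g
  apply eLin_injective q L
  have := congrArg (fun F => F.1 g) h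
  exact this

lemma pushE_surjective : Function.Surjective (pushE q L) := by
  intro F
  have hinv : ∀ g : GalL L, ∃ b, eLin q L b = F.1 g := fun g => eLin_range q L _ (fun n hn => by
    have := F.2 n g
    rw [← jE_resE, MonoidHom.mem_ker.1 hn, map_one, one_mul] at this
    exact this.symm)
  choose f hf using hinv
  refine ⟨⟨f, fun σ g => ?_⟩, ?_⟩
  · obtain ⟨τ, rfl⟩ := resE_surjective q L σ
    apply eLin_injective q L
    rw [hf, eLin_equivariant, hf, jE_resE]
    exact F.2 τ g
  · apply Subtype.ext; funext g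
    exact hf g

/-- `J_{L,q} ≅ Coind_{Gal(E/ℚ_q)}^{Gal(L/ℚ)} Eˣ`, built directly (no transport along equalities of
homomorphisms, so that it computes). -/
noncomputable def JqIsoE : Rep.coind (jE q L) (EUnits q L) ≅ Jq q L :=
  Rep.mkIso <| Representation.Equiv.mk
    (LinearEquiv.ofBijective (pushE q L) ⟨pushE_injective q L, pushE_surjective q L⟩)
    (fun g => by
      apply LinearMap.ext
      intro f
      apply Subtype.ext; funext g'
      rfl)

lemma JqIsoE_hom_apply (f : Rep.coind (jE q L) (EUnits q L)) (g : GalL L) :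
    ((JqIsoE q L).hom.hom f).1 g = eLin q L (f.1 g) := rfl

/-- the diagonal into `Coind Eˣ` followed by `JqIsoE` is the diagonal into `J_q`. -/
lemma JqIsoE_hom_diagE (b : Lx L) :
    (JqIsoE q L).hom.hom ((diagE q L).hom b) = (diag q L).hom b := by
  apply Subtype.ext
  funext g
  rw [JqIsoE_hom_apply]
  apply Additive.toMul.injective
  apply Units.ext
  rfl

lemma JqIsoE_inv_hom (F : Jq q L) : (JqIsoE q L).hom.hom ((JqIsoE q L).inv.hom F) = F := by
  have h : (JqIsoE q L).inv ≫ (JqIsoE q L).hom = 𝟙 _ := (JqIsoE q L).inv_hom_id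
  exact congrArg (fun φ => φ.hom F) h

lemma JqIsoE_hom_inv (f : Rep.coind (jE q L) (EUnits q L)) :
    (JqIsoE q L).inv.hom ((JqIsoE q L).hom.hom f) = f := by
  have h : (JqIsoE q L).hom ≫ (JqIsoE q L).inv = 𝟙 _ := (JqIsoE q L).hom_inv_id
  exact congrArg (fun φ => φ.hom f) h

lemma JqIsoE_inv_diag (b : Lx L) :
    (JqIsoE q L).inv.hom ((diag q L).hom b) = (diagE q L).hom b := by
  rw [← JqIsoE_hom_diagE, JqIsoE_hom_inv]

end Local

/-! ### the total system -/

section Total

attribute [local instance] factPrimes44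
attribute [local instance 2000] fintypeGalL

variable (L : IntermediateField ℚ Qbar) [Normal ℚ L] [FiniteDimensional ℚ L]
  {S : Finset Nat.Primes} {T : Type*} [AddCommGroup T]
  (I : ∀ q : Nat.Primes, Sys (EUnits (q : ℕ) L) T) (e : Nat.Primes → (T →+ T))
  (θ : ℚ →+ T) (hθ : θ 1 = 0)

/-- the system on the `q`-component `J_q(L)` of the ideles: coinduce the local system, rescale,
transport along `J_q ≅ Coind Eˣ`. -/
noncomputable def jqSys (q : Nat.Primes) : Sys (Jq (q : ℕ) L) T :=
  ((coindSys (j := jE (q : ℕ) L) (I q)).map (e q)).comap (JqIsoE (q : ℕ) L).inv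

lemma jqSys_comap_diag_S (q : Nat.Primes) (H : Subgroup (GalL L))
    (f : GalL L × GalL L → Lx L) :
    ((jqSys L I e q).comap (diag (q : ℕ) L)).S H f = (qSys L q (I q) (e q)).S H f := by
  show ((coindSys (j := jE (q : ℕ) L) (I q)).map (e q)).S H
      (fun x => (JqIsoE (q : ℕ) L).inv.hom ((diag (q : ℕ) L).hom (f x))) =
    ((coindSys (j := jE (q : ℕ) L) (I q)).map (e q)).S H (fun x => (diagE (q : ℕ) L).hom (f x))
  congr 1
  funext x
  exact JqIsoE_inv_diag (q : ℕ) L (f x)

variable (S) in
/-- the system on `J_S(L) = ⨁_{q ∈ S} J_q(L)`. -/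
noncomputable def jsSys : Sys (JS L S) T :=
  dsSys (fun q : InS S => Jq q.1.1 L) (fun q => jqSys L I e q.1)

variable (S) in
/-- **the total system** on `J_S(L) × I^S(L)`. -/
noncomputable def totalSys : Sys (JIS L S) T :=
  sysAdd ((jsSys L S I e).comap (prodRep.fst (JS L S) (IS L S)))
    ((idealSys L S θ hθ).comap (prodRep.snd (JS L S) (IS L S)))

variable {L}

/-- the `ℓ`-th unramified system on `Lˣ`, `ℓ ∉ S`: evaluate the divisor above `ℓ` at Frobenius. -/
noncomputable def unrSys (h : UnrOutside L S) (ℓ : OutS S) : Sys (Lx L) T :=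
  (unrGSys (evalL L S ℓ) θ hθ).comap (divAt h ℓ)

/-- **the total system pulled back to `Lˣ`**: the sum of the local systems over `q ∈ S` plus the
locally finite sum of the unramified systems over `ℓ ∉ S`. -/
theorem totalSys_comap_deltaS_S (h : UnrOutside L S) (H : Subgroup (GalL L))
    (f : GalL L × GalL L → Lx L) :
    ((totalSys L S I e θ hθ).comap (deltaS h)).S H f =
      ∑ q : InS S, (qSys L q.1 (I q.1) (e q.1)).S H f +
        ∑ᶠ ℓ : OutS S, (unrSys θ hθ h ℓ).S H f := by
  show (jsSys L S I e).S H (fun x => (prodRep.fst _ _).hom ((deltaS h).hom (f x))) +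
      (idealSys L S θ hθ).S H (fun x => (prodRep.snd _ _).hom ((deltaS h).hom (f x))) = _
  congr 1
  · rw [jsSys, dsSys_S, finsum_eq_sum_of_fintype]
    refine Finset.sum_congr rfl fun q _ => ?_
    rw [← jqSys_comap_diag_S, Sys.comap_S]
    congr 1
  · rw [idealSys_S]
    refine finsum_congr fun ℓ => ?_
    rw [unrSys, Sys.comap_S]
    congr 1
    funext x
    exact idealMap_hom_apply h (f x) ℓ

end Total

end Fermat.Agent.S55.CycloRecip37.TotalSys
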