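/-
S55 / leaf 34-CYCLO-RECIP (helper37): refinement of `DescendK`: the base sum formula is only used
at ONE invariant element, the relative norm `N_{K/ℚ} a` (so that the finite set of primes carrying
the sum may depend on `a`).  Mathlib + DescendK only.
-/
import Mathlib
import Fermat.Agent.S55.CycloRecip37.DescendK

set_option autoImplicit false
set_option linter.unusedSectionVars false

namespace Fermat.Agent.S55.CycloRecip37.DescendK

open groupCohomology Fermat.Agent.S55.GlobalInv91

universe u

variable {k Γ : Type u} [CommRing k] [Group Γ] {C : Rep k Γ} {n : ℕ} [NeZero n]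

open Classical in
/-- the relative norm is a sum of conjugates of `a` over a finite set of group elements. -/
lemma relNorm_eq_sum_image [Fintype Γ] (H : Subgroup Γ) (a : C) :
    relNorm C H a = ∑ g ∈ (Finset.univ : Finset (Γ ⧸ H)).image (fun q => q.out), C.ρ g a := by
  rw [Finset.sum_image (fun x _ y _ h => by
    have := congrArg (fun g : Γ => (g : Γ ⧸ H)) h
    simpa using this)]
  rfl

/-- **Step (II), refined:** only the base sum formula at `N_{K/ℚ} a` is used. -/
theorem index_nsmul_eq_zero' [Fintype Γ] {T : Type*} [AddCommGroup T] (Sys : SumSystem C T)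
    (χ : Γ →* Multiplicative (ZMod n)) (H : Subgroup Γ) (a : C) (ha : ∀ h ∈ H, C.ρ h a = a)
    (hbase : Sys.S ⊤ (carryH C χ ⊤ (relNorm C H a)) = 0) :
    H.normalCore.index • Sys.S H (carryH C χ H a) = 0 := by
  classical
  set N := H.normalCore with hN
  have hNH : N ≤ H := Subgroup.normalCore_le H
  have haN : ∀ σ : Γ, ∀ h ∈ N, C.ρ h (C.ρ σ a) = C.ρ σ a := by
    intro σ h hh
    have hconj : σ⁻¹ * h * σ ∈ N := by
      have := (inferInstance : N.Normal).conj_mem h hh σ⁻¹
      rwa [inv_inv] at this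
    rw [← Module.End.mul_apply, ← map_mul]
    have : h * σ = σ * (σ⁻¹ * h * σ) := by group
    rw [this, map_mul, Module.End.mul_apply, ha _ (hNH hconj)]
  set b := relNorm C H a with hb
  have hbinv : ∀ g, C.ρ g b = b := relNorm_invariant H a ha
  have h1 : Sys.S N (carryH C χ N b) = 0 := by
    have := Sys.res N ⊤ le_top (carryH C χ ⊤ b) (carryH_mem χ ⊤ b (fun g _ => hbinv g))
    rw [resCochain_carryH, hbase, smul_zero] at this
    exact this
  have h2 : carryH C χ N b = ∑ q : Γ ⧸ H, carryH C χ N (C.ρ q.out a) := by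
    rw [hb, relNorm]
    have : ∀ (s : Finset (Γ ⧸ H)), carryH C χ N (∑ q ∈ s, C.ρ q.out a) =
        ∑ q ∈ s, carryH C χ N (C.ρ q.out a) := by
      intro s
      induction s using Finset.induction_on with
      | empty => simpa using carry_zero (resH C N) (χ.comp N.subtype)
      | insert i s hi ih =>
        rw [Finset.sum_insert hi, Finset.sum_insert hi, ← ih]
        exact carry_add (resH C N) (χ.comp N.subtype) _ _
    exact this Finset.univ
  have h3 : ∀ q : Γ ⧸ H, Sys.S N (carryH C χ N (C.ρ q.out a)) = Sys.S N (carryH C χ N a) := by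
    intro q
    rw [← conjCochain_carryH χ N q.out a]
    exact Sys.conj N q.out _ (carryH_mem χ N a (fun h hh => ha h (hNH hh)))
  rw [h2, Sys.sum N Finset.univ _ (fun q _ => carryH_mem χ N _ (haN q.out)),
    Finset.sum_congr rfl (fun q _ => h3 q), Finset.sum_const, Finset.card_univ] at h1
  have h4 := Sys.res N H hNH (carryH C χ H a) (carryH_mem χ H a ha)
  rw [resCochain_carryH] at h4
  rw [h4, ← mul_nsmul', ← Nat.card_eq_fintype_card] at h1
  have hidx : N.relIndex H * Nat.card (Γ ⧸ H) = N.index := by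
    rw [← Subgroup.index_eq_card]
    exact Subgroup.relIndex_mul_index hNH
  rw [mul_comm, hidx] at h1
  exact h1

/-- **Steps (II)+(III), refined.** -/
theorem S_carry_eq_zero' [Fintype Γ] {T : Type*} [AddCommGroup T] (Sys : SumSystem C T)
    (p : ℕ) [hp : Fact p.Prime] {m s : ℕ}
    (χ : Γ →* Multiplicative (ZMod (p ^ m))) (χt : Γ →* Multiplicative (ZMod (p ^ m * p ^ s)))
    (hlift : ∀ g : Γ, (chiVal χ g).val = (chiVal χt g).val % p ^ m)
    (H : Subgroup Γ) (hs : ∀ j, p ^ j ∣ H.normalCore.index → j ≤ s)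
    (a : C) (ha : ∀ h ∈ H, C.ρ h a = a)
    (hbase : Sys.S ⊤ (carryH C χt ⊤ (relNorm C H a)) = 0) :
    Sys.S H (carryH C χ H a) = 0 := by
  have hne : NeZero (p ^ m) := ⟨pow_ne_zero _ hp.out.ne_zero⟩
  have hne' : NeZero (p ^ m * p ^ s) :=
    ⟨mul_ne_zero (pow_ne_zero _ hp.out.ne_zero) (pow_ne_zero _ hp.out.ne_zero)⟩
  rw [S_carry_eq_nsmul_lift Sys χ χt hlift H a ha]
  have hM := index_nsmul_eq_zero' Sys χt H a ha hbase
  have ht := level_nsmul_S_carry Sys χt H a ha
  have ht' : p ^ (m + s) • Sys.S H (carryH C χt H a) = 0 := by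
    rw [pow_add]; exact ht
  exact pow_nsmul_eq_zero_of p hM ht' hs

end Fermat.Agent.S55.CycloRecip37.DescendK
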