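/-
S55 / leaf 34-CYCLO-RECIP, Track T, step (I), abstract algebra.  helper37.  Mathlib only.

`kap n : U →* ℤ/pⁿ` = the tower bracket `u ↦ χ_n(σ_u)` (onto, compatible in `n`);
`lam n : U →* ℤ/pⁿ` = the local symbol `u ↦ inv_p (δχ_n ∪ u)` (compatible in `n`, killing
`ker (kap n)`, nontrivial for `n = 1`).  Then `lam n = c_n · kap n` for a COMPATIBLE family of
UNITS `c_n ∈ (ℤ/pⁿ)ˣ`; `eps n := -c_n⁻¹` is the renormalisation constant of the sum formula.
-/
import Mathlib

namespace Fermat.Agent.S55.CycloRecip37.ThetaUnit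

open Multiplicative

variable (p : ℕ) [hp : Fact p.Prime]

/-- reduction `ℤ/p^(n+1) → ℤ/pⁿ`. -/
noncomputable abbrev red (n : ℕ) : ZMod (p ^ (n + 1)) →+* ZMod (p ^ n) :=
  ZMod.castHom (pow_dvd_pow p n.le_succ) (ZMod (p ^ n))

/-- reduction `ℤ/p^m → ℤ/pⁿ` for `n ≤ m`. -/
noncomputable abbrev redLE {n m : ℕ} (h : n ≤ m) : ZMod (p ^ m) →+* ZMod (p ^ n) :=
  ZMod.castHom (pow_dvd_pow p h) (ZMod (p ^ n))

/-- An additive endomorphism-like map out of `ZMod m` is multiplication by the image of `1`. -/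
theorem addHom_zmod_apply {m : ℕ} [NeZero m] {B : Type*} [AddCommGroup B] (f : ZMod m →+ B)
    (x : ZMod m) : f x = x.val • f 1 := by
  conv_lhs => rw [← ZMod.natCast_zmod_val x]
  rw [← nsmul_one (x.val : ℕ), map_nsmul]

section one

variable {p} {U : Type*} [CommGroup U] {n : ℕ}

/-- One level: if `kap` is onto and `lam` kills `ker kap` then `lam = c · kap`. -/
theorem exists_mul (kap lam : U →* Multiplicative (ZMod (p ^ n)))
    (hsurj : Function.Surjective kap) (hker : ∀ u, kap u = 1 → lam u = 1) :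
    ∃ c : ZMod (p ^ n), ∀ u, toAdd (lam u) = c * toAdd (kap u) := by
  have : NeZero (p ^ n) := ⟨pow_ne_zero _ hp.out.ne_zero⟩
  have hle : kap.ker ≤ lam.ker := fun u hu => hker u hu
  let φ : Multiplicative (ZMod (p ^ n)) →* Multiplicative (ZMod (p ^ n)) :=
    kap.liftOfSurjective hsurj ⟨lam, hle⟩
  have hφ : ∀ u, φ (kap u) = lam u := fun u =>
    MonoidHom.liftOfRightInverse_comp_apply _ _ _ _ u
  let f : ZMod (p ^ n) →+ ZMod (p ^ n) := MonoidHom.toAdditive φ
  refine ⟨f 1, fun u => ?_⟩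
  have h1 : toAdd (lam u) = f (toAdd (kap u)) := by
    rw [← hφ u]; rfl
  rw [h1, addHom_zmod_apply f (toAdd (kap u)), nsmul_eq_mul, ZMod.natCast_zmod_val, mul_comm]

end one

section family

variable {p} {U : Type*} [CommGroup U]
  (kap lam : ∀ n : ℕ, U →* Multiplicative (ZMod (p ^ n)))

/-- unit criterion in `ℤ/p^(n+1)`: the reduction mod `p` is non-zero. -/
theorem isUnit_of_redLE_ne_zero {n : ℕ} (hn : 1 ≤ n) (c : ZMod (p ^ n))
    (h : redLE p hn c ≠ 0) : IsUnit c := by
  have : NeZero (p ^ n) := ⟨pow_ne_zero _ hp.out.ne_zero⟩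
  rw [← ZMod.natCast_zmod_val c] at h ⊢
  rw [ZMod.isUnit_iff_coprime]
  apply Nat.Coprime.pow_right
  rw [Nat.coprime_comm, Nat.Prime.coprime_iff_not_dvd hp.out]
  intro hdvd
  apply h
  rw [map_natCast, ZMod.natCast_eq_zero_iff]
  exact (pow_one p).symm ▸ hdvd

/-- **The unit family.** -/
theorem exists_unit_family
    (hsurj : ∀ n, Function.Surjective (kap n))
    (hker : ∀ n u, kap n u = 1 → lam n u = 1)
    (hkap : ∀ n u, red p n (toAdd (kap (n + 1) u)) = toAdd (kap n u))
    (hlam : ∀ n u, red p n (toAdd (lam (n + 1) u)) = toAdd (lam n u))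
    (h1 : ∃ u, lam 1 u ≠ 1) :
    ∃ c : ∀ n, (ZMod (p ^ n))ˣ, (∀ n, red p n (c (n + 1) : ZMod (p ^ (n + 1))) = c n) ∧
      ∀ n u, toAdd (lam n u) = (c n : ZMod (p ^ n)) * toAdd (kap n u) := by
  classical
  choose c hc using fun n => exists_mul (kap n) (lam n) (hsurj n) (hker n)
  -- compatibility
  have hcompat : ∀ n, red p n (c (n + 1)) = c n := by
    intro n
    obtain ⟨u, hu⟩ := hsurj (n + 1) (ofAdd 1)
    have h2 := hc (n + 1) u
    rw [hu, toAdd_ofAdd, mul_one] at h2
    have h3 := hc n u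
    rw [← hkap n u, hu, toAdd_ofAdd, map_one, mul_one, ← hlam n u, h2] at h3
    exact h3
  -- iterated compatibility down to level 1
  have hdown : ∀ n (hn : 1 ≤ n), redLE p hn (c n) = redLE p le_rfl (c 1) := by
    intro n hn
    induction n, hn using Nat.le_induction with
    | base => rfl
    | succ m hm ih =>
      rw [← ih, ← hcompat m]
      change _ = ((redLE p hm).comp (red p m)) (c (m + 1))
      congr 1
      exact Subsingleton.elim _ _
  -- `c 1 ≠ 0`
  have hc1 : redLE p (le_refl 1) (c 1) ≠ 0 := by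
    obtain ⟨u, hu⟩ := h1
    intro h0
    apply hu
    have h2 := hc 1 u
    have h3 : c 1 = 0 := by
      have : redLE p (le_refl 1) (c 1) = c 1 := by
        simp [redLE]
      rw [← this]; exact h0
    rw [h3, zero_mul] at h2
    exact toAdd.injective h2
  have hunit : ∀ n, IsUnit (c n) := by
    intro n
    rcases Nat.eq_zero_or_pos n with h0 | hpos
    · subst h0
      have : Subsingleton (ZMod (p ^ 0)) := by
        rw [pow_zero]; infer_instance
      exact isUnit_of_subsingleton _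
    · apply isUnit_of_redLE_ne_zero hpos
      rw [hdown n hpos]
      exact hc1
  refine ⟨fun n => (hunit n).unit, fun n => ?_, fun n u => ?_⟩
  · simp only [IsUnit.unit_spec]
    exact hcompat n
  · simp only [IsUnit.unit_spec]
    exact hc n u

/-- **The renormalisation constants** `eps n = -c_n⁻¹`, a compatible family of units with
`toAdd (kap n u) + eps n * toAdd (lam n u) = 0`. -/
theorem exists_eps_family
    (hsurj : ∀ n, Function.Surjective (kap n))
    (hker : ∀ n u, kap n u = 1 → lam n u = 1)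
    (hkap : ∀ n u, red p n (toAdd (kap (n + 1) u)) = toAdd (kap n u))
    (hlam : ∀ n u, red p n (toAdd (lam (n + 1) u)) = toAdd (lam n u))
    (h1 : ∃ u, lam 1 u ≠ 1) :
    ∃ eps : ∀ n, (ZMod (p ^ n))ˣ,
      (∀ n, red p n (eps (n + 1) : ZMod (p ^ (n + 1))) = eps n) ∧
      ∀ n u, toAdd (kap n u) + (eps n : ZMod (p ^ n)) * toAdd (lam n u) = 0 := by
  obtain ⟨c, hcc, hc⟩ := exists_unit_family kap lam hsurj hker hkap hlam h1
  refine ⟨fun n => -(c n)⁻¹, fun n => ?_, fun n u => ?_⟩
  · -- inverses are compatible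
    have h1' : red p n ((c (n + 1))⁻¹ : (ZMod (p ^ (n + 1)))ˣ) = ((c n)⁻¹ : (ZMod (p ^ n))ˣ) := by
      have hmul : red p n ((c (n + 1))⁻¹ : (ZMod (p ^ (n + 1)))ˣ) * (c n : ZMod (p ^ n)) = 1 := by
        rw [← hcc n, ← map_mul, Units.inv_mul, map_one]
      exact (Units.eq_inv_of_mul_eq_one_right hmul)
    rw [Units.val_neg, Units.val_neg, map_neg, h1']
  · rw [hc n u, Units.val_neg, neg_mul, ← mul_assoc, Units.inv_mul, one_mul, add_neg_cancel]

end family

end Fermat.Agent.S55.CycloRecip37.ThetaUnit
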