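/-
S55 / leaf 34-CYCLO-RECIP (helper37): THE ASSEMBLY.  Reciprocity for the classes `δχ_m ∪ a` of the
cyclotomic `ℤ_p`-tower over an arbitrary number field `K = L^H`, in the Idele73 model, from
* a family `F` of local systems at `p` on `(Gal(E/ℚ_p), Eˣ)`, `E = ℚ_p(ι L)`, for all levels `L`,
  with inflation invariance over the base and injectivity (22b: `inv_p`),
* ANY systems `Qt q` on `Lˣ` for the primes `q ≠ p` whose value over the base on `δχ ∪ b`,
  `b ∈ ℚˣ`, is the unramified formula `v_q(b) χ(Frob_q)/p^n` (22b at `q ∈ S`; the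
  Frobenius-evaluation systems of FrobSys98 at `q ∉ S`),
by step (I) (helper90 `stepI_QZ_finset`, helper78 wild case, helper87 tower characters) and steps
(II)+(III) (`DescendK`).
-/
import Mathlib
import Fermat.Agent.S55.CycloRecip37.IdeleSys
import Fermat.Agent.S55.CycloRecip37.DescendK2
import Fermat.Agent.S55.CycloRecip78.ElevInst
import Fermat.Agent.S55.CycloRecip90.StepIQZ
import Fermat.Agent.S55.QZ33

set_option autoImplicit false
set_option linter.unusedSectionVars false

namespace Fermat.Agent.S55.CycloRecip37.TowerRecip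

open Fermat.Agent.S55.Idele73.Basic Fermat.Agent.S55.Idele73.Local
  Fermat.Agent.S55.Idele73.Mackey Fermat.Agent.S55.CycloRecip37.GSys
  Fermat.Agent.S55.CycloRecip37.CoindSys Fermat.Agent.S55.CycloRecip37.SysMore
  Fermat.Agent.S55.CycloRecip37.IdeleSys
  Fermat.Agent.S55.GlobalInv91 Fermat.Agent.S55.CycloGlobal87 Fermat.Agent.S55.CycloRecip78
  Fermat.Agent.S55.CycloRecip90 Fermat.Agent.S55.QZ33

/-! ### generalities on systems and carry cochains -/

section general

universe u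

variable {k G : Type u} [CommRing k] [Group G] {C : Rep k G} {T : Type*} [AddCommGroup T]

lemma isCobOn_top_of_isCob₂ {f : G × G → C} (h : IsCob₂ C f) : IsCobOn C ⊤ f := by
  obtain ⟨x, hx⟩ := h
  exact ⟨x, fun g _ a _ => hx g a⟩

lemma isCob₂_of_isCobOn_top {f : G × G → C} (h : IsCobOn C ⊤ f) : IsCob₂ C f := by
  obtain ⟨x, hx⟩ := h
  exact ⟨x, fun g a => hx g (Subgroup.mem_top g) a (Subgroup.mem_top a)⟩

variable {n : ℕ} [NeZero n]

/-- `S ⊤ (δχ ∪ (m • b)) = m • S ⊤ (δχ ∪ b)`. -/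
lemma S_top_carry_nsmul (I : Sys C T) (χ : G →* Multiplicative (ZMod n)) (b : C)
    (hb : ∀ g, C.ρ g b = b) (m : ℕ) :
    I.S ⊤ (carry C χ (m • b)) = m • I.S ⊤ (carry C χ b) := by
  have hsum : carry C χ (m • b) = ∑ _i ∈ Finset.range m, carry C χ b := by
    rw [Finset.sum_const, Finset.card_range]
    exact carry_nsmul C χ m b
  rw [hsum, I.sum ⊤ _ _ (fun _ _ => isCocOn_carry C χ ⊤ b (fun g _ => hb g)), Finset.sum_const,
    Finset.card_range]

/-- the value on a carry cochain is killed by the level. -/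
lemma level_nsmul_S_top_carry (I : Sys C T) (χ : G →* Multiplicative (ZMod n)) (b : C)
    (hb : ∀ g, C.ρ g b = b) : n • I.S ⊤ (carry C χ b) = 0 := by
  rw [← S_top_carry_nsmul I χ b hb, carry_nsmul]
  exact I.cob ⊤ _ (isCobOn_top_of_isCob₂ (DescendK.nsmul_carry_isCob₂ C χ b hb))

/-- additivity in `b`. -/
lemma S_top_carry_add (I : Sys C T) (χ : G →* Multiplicative (ZMod n)) (b b' : C)
    (hb : ∀ g, C.ρ g b = b) (hb' : ∀ g, C.ρ g b' = b') :
    I.S ⊤ (carry C χ (b + b')) = I.S ⊤ (carry C χ b) + I.S ⊤ (carry C χ b') := by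
  rw [carry_add]
  exact I.add ⊤ _ _ (isCocOn_carry C χ ⊤ b (fun g _ => hb g))
    (isCocOn_carry C χ ⊤ b' (fun g _ => hb' g))

/-- carry cochains only depend on the values `(chiVal χ g).val` and the modulus as a number. -/
lemma carry_congr {n' : ℕ} [NeZero n'] (hnn : n = n') (χ : G →* Multiplicative (ZMod n))
    (χ' : G →* Multiplicative (ZMod n')) (h : ∀ g, (chiVal χ g).val = (chiVal χ' g).val) (b : C) :
    carry C χ b = carry C χ' b := by
  funext ⟨g, a⟩
  simp only [carry_apply, carryNat, h g, h a, hnn]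

/-- the tower trick over the base, for a system: `S ⊤ (δχ ∪ b) = n' • S ⊤ (δχ' ∪ b)`. -/
lemma S_top_carry_lift (I : Sys C T) {n' : ℕ} [NeZero (n * n')]
    (χ : G →* Multiplicative (ZMod n)) (χt : G →* Multiplicative (ZMod (n * n')))
    (hlift : ∀ g : G, (chiVal χ g).val = (chiVal χt g).val % n) (b : C) (hb : ∀ g, C.ρ g b = b) :
    I.S ⊤ (carry C χ b) = n' • I.S ⊤ (carry C χt b) := by
  have hcob := carry_lift_sub_carry_isCob₂ C χ χt hlift b hb
  rw [← S_top_carry_nsmul I χt b hb]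
  exact (I.eq_of_sub_isCobOn ⊤ _ _ (isCocOn_carry C χ ⊤ b (fun g _ => hb g))
    (isCobOn_top_of_isCob₂ hcob)).symm

end general

/-! ### the wild family and its symbols -/

section wild

variable (p : ℕ) [hp : Fact p.Prime]

/-- **the local input at `p`** (22b): local systems on `(Gal(E/ℚ_p), Eˣ)`, `E = ℚ_p(ι L)`, for all
levels `L`, whose value over the base only depends on the inflation to `Gal(ℚ̄_p/ℚ_p)`, and is
injective on `H²(Gal(E/ℚ_p), Eˣ)`. -/
structure WildFamily (T : Type*) [AddCommGroup T] where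
  /-- the local system at the level `L`. -/
  sys : ∀ (L : IntermediateField ℚ Qbar) [Normal ℚ L] [FiniteDimensional ℚ L],
    Sys (EUnits p L) T
  infl : ∀ (L L' : IntermediateField ℚ Qbar) [Normal ℚ L] [FiniteDimensional ℚ L] [Normal ℚ L']
    [FiniteDimensional ℚ L'] (f : DE p L × DE p L → EUnits p L)
    (f' : DE p L' × DE p L' → EUnits p L'),
    IsCocOn (EUnits p L) ⊤ f → IsCocOn (EUnits p L') ⊤ f' →
    (∀ g h : Gq p, eLin p L (f (resE p L g, resE p L h)) =
      eLin p L' (f' (resE p L' g, resE p L' h))) →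
    (sys L).S ⊤ f = (sys L').S ⊤ f'
  inj : ∀ (L : IntermediateField ℚ Qbar) [Normal ℚ L] [FiniteDimensional ℚ L]
    (f : DE p L × DE p L → EUnits p L), IsCocOn (EUnits p L) ⊤ f → (sys L).S ⊤ f = 0 →
    IsCobOn (EUnits p L) ⊤ f

variable {p}
variable (L : IntermediateField ℚ Qbar) [Normal ℚ L]

/-- the image of `x ∈ ℚ_pˣ` in `Eˣ`, additively. -/
noncomputable def baseUnit (x : ℚ_[p]ˣ) : EUnits p L :=
  Additive.ofMul (Units.map (algebraMap ℚ_[p] (Elev p L) : ℚ_[p] →* Elev p L) x)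

lemma baseUnit_mul (x y : ℚ_[p]ˣ) : baseUnit L (x * y) = baseUnit L x + baseUnit L y := by
  unfold baseUnit
  rw [map_mul]
  rfl

lemma baseUnit_one : baseUnit (p := p) L 1 = 0 := by
  unfold baseUnit
  rw [map_one]
  rfl

lemma baseUnit_invariant (x : ℚ_[p]ˣ) (g : DE p L) : (EUnits p L).ρ g (baseUnit L x) = baseUnit L x := by
  apply Additive.toMul.injective
  apply Units.ext
  exact g.commutes (x : ℚ_[p])

lemma eLin_baseUnit (x : ℚ_[p]ˣ) :
    eLin p L (baseUnit L x) =
      Additive.ofMul (Units.map (algebraMap ℚ_[p] (PadicAlgCl p) : ℚ_[p] →* PadicAlgCl p) x) := by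
  apply Additive.toMul.injective
  apply Units.ext
  rfl

end wild

/-! ### the wild symbols `μP n` and the hypotheses (H0)-(H4) of step (I) -/

section symbols

variable {p : ℕ} [hp : Fact p.Prime] (hp2 : p ≠ 2) (F : WildFamily p QZ)

instance neZeroPow (n : ℕ) : NeZero (p ^ n) := ⟨pow_ne_zero _ hp.out.ne_zero⟩

/-- the wild symbol computed at a level `L ⊇ ℚ_n`. -/
noncomputable def wildVal (L : IntermediateField ℚ Qbar) [Normal ℚ L] [FiniteDimensional ℚ L]
    (n : ℕ) (h : towerField p n ≤ L) (x : ℚ_[p]ˣ) : QZ :=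
  (F.sys L).S ⊤ (carry (EUnits p L) (towerCharE p hp2 n L h) (baseUnit L x))

/-- the wild symbol does not depend on the level (inflation invariance). -/
theorem wildVal_eq (L L' : IntermediateField ℚ Qbar) [Normal ℚ L] [FiniteDimensional ℚ L]
    [Normal ℚ L'] [FiniteDimensional ℚ L'] (n : ℕ) (h : towerField p n ≤ L)
    (h' : towerField p n ≤ L') (x : ℚ_[p]ˣ) :
    wildVal hp2 F L n h x = wildVal hp2 F L' n h' x := by
  unfold wildVal
  refine F.infl L L' _ _
    (isCocOn_carry _ _ ⊤ _ (fun g _ => baseUnit_invariant L x g))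
    (isCocOn_carry _ _ ⊤ _ (fun g _ => baseUnit_invariant L' x g)) ?_
  intro g a
  rw [carry_apply, carry_apply, map_nsmul, map_nsmul, eLin_baseUnit, eLin_baseUnit]
  simp only [chiVal, towerCharE_resE]

/-- the wild symbol `μP n` of step (I), computed at the level `ℚ_n`. -/
noncomputable def muP (n : ℕ) : Additive ℚ_[p]ˣ →+ QZ where
  toFun x := wildVal hp2 F (towerField p n) n le_rfl (Additive.toMul x)
  map_zero' := by
    change wildVal hp2 F (towerField p n) n le_rfl 1 = 0
    unfold wildVal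
    rw [baseUnit_one, carry_zero]
    exact (F.sys (towerField p n)).zero ⊤
  map_add' x y := by
    change wildVal hp2 F (towerField p n) n le_rfl (Additive.toMul x * Additive.toMul y) = _
    unfold wildVal
    rw [baseUnit_mul]
    exact S_top_carry_add _ _ _ _ (baseUnit_invariant _ _) (baseUnit_invariant _ _)

lemma muP_apply (n : ℕ) (x : ℚ_[p]ˣ) :
    muP hp2 F n (Additive.ofMul x) = wildVal hp2 F (towerField p n) n le_rfl x := rfl

/-- the wild symbol at any level `L ⊇ ℚ_n` is `μP n`. -/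
theorem wildVal_eq_muP (L : IntermediateField ℚ Qbar) [Normal ℚ L] [FiniteDimensional ℚ L]
    (n : ℕ) (h : towerField p n ≤ L) (x : ℚ_[p]ˣ) :
    wildVal hp2 F L n h x = muP hp2 F n (Additive.ofMul x) :=
  wildVal_eq hp2 F L (towerField p n) n h le_rfl x

/-- (H0) -/
theorem muP_H0 (n : ℕ) (x : Additive ℚ_[p]ˣ) : (p ^ n) • muP hp2 F n x = 0 :=
  level_nsmul_S_top_carry _ _ _ (baseUnit_invariant _ _)

/-- (H2): `p` is a norm from every layer of the local tower. -/
theorem muP_H2 (n : ℕ) : muP hp2 F n (Additive.ofMul pUnit) = 0 :=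
  (F.sys (towerField p n)).cob ⊤ _
    (isCobOn_top_of_isCob₂ (carry_prime_isCob₂_Elev p hp2 n (towerField p n) le_rfl))

/-- (H3): compatibility in the tower. -/
theorem muP_H3 (n : ℕ) (x : Additive ℚ_[p]ˣ) : p • muP hp2 F (n + 1) x = muP hp2 F n x := by
  set L' := towerField p (n + 1) with hL'
  have h : towerField p n ≤ L' := towerField_mono p (Nat.le_succ n)
  have h' : towerField p (n + 1) ≤ L' := le_rfl
  have e1 : muP hp2 F n x = wildVal hp2 F L' n h (Additive.toMul x) :=
    (wildVal_eq_muP hp2 F L' n h (Additive.toMul x)).symm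
  rw [e1]
  unfold wildVal
  have hne : NeZero (p ^ n * p ^ 1) := ⟨mul_ne_zero (pow_ne_zero _ hp.out.ne_zero)
    (pow_ne_zero _ hp.out.ne_zero)⟩
  have hl := S_top_carry_lift (F.sys L') (n := p ^ n) (n' := p ^ 1) (towerCharE p hp2 n L' h)
    ((towerCharMulL p L' hp2 n 1 h').comp (jE p L'))
    (fun g => towerCharMulL_lift p L' hp2 n h 1 h' (jE p L' g))
    (baseUnit L' (Additive.toMul x)) (baseUnit_invariant L' _)
  rw [hl]
  have hp1 : ∀ t : QZ, p ^ 1 • t = p • t := fun t => by rw [pow_one]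
  rw [hp1]
  congr 1
  change (F.sys L').S ⊤ (carry (EUnits p L') (towerCharE p hp2 (n + 1) L' le_rfl)
    (baseUnit L' (Additive.toMul x))) = _
  congr 1
  refine carry_congr (C := EUnits p L') (by rw [pow_one, pow_succ])
    (towerCharE p hp2 (n + 1) L' le_rfl) ((towerCharMulL p L' hp2 n 1 h').comp (jE p L'))
    (fun g => ?_) _
  change (chiVal (towerCharL p L' hp2 (n + 1) h') (jE p L' g)).val =
    (ZMod.ringEquivCongr (pow_add p n 1) (chiVal (towerCharL p L' hp2 (n + 1) h') (jE p L' g))).val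
  exact (ZMod.ringEquivCongr_val _ _).symm

/-- (H4): the first layer is not split. -/
theorem muP_H4 : ∃ x, muP hp2 F 1 x ≠ 0 := by
  obtain ⟨u, hu⟩ := exists_unit_carry_not_isCob₂_Elev p hp2 1 (towerField p 1) le_rfl one_ne_zero
  refine ⟨Additive.ofMul (Units.map (PadicInt.Coe.ringHom (p := p)).toMonoidHom u), fun h0 => hu ?_⟩
  exact isCob₂_of_isCobOn_top (F.inj (towerField p 1) _
    (isCocOn_carry _ _ ⊤ _ (fun g _ => baseUnit_invariant _ _ g)) h0)

end symbols

/-! ### step (I): the unit `ε` -/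

section stepI

variable {p : ℕ} [hp : Fact p.Prime] (hp2 : p ≠ 2)

/-- the tame term `v_q(b) · χ_n(Frob_q) / p^n` of the sum formula (`0` at `q = p`). -/
noncomputable def tameVal (q : Nat.Primes) (n : ℕ) (b : ℚˣ) : QZ :=
  if hq : (q : ℕ) = p then 0 else
    QZ.frac (((Multiplicative.toAdd (CycloGlobal87.dlog p hp2 n ⟨angle (p := p) n q
      ((Nat.coprime_primes q.2 hp.out).2 hq), angle_mem_Gamma _ _ _⟩)).val : ℤ) *
        padicValRat q (b : ℚ)) (p ^ n)

/-- **step (I) over `ℚ`:** one compatible unit family `ε` such that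
`∑_{q ≠ p} v_q(b) χ_n(Frob_q)/p^n + ε_n · μP n b = 0` for all `n` and `b ∈ ℚˣ`. -/
theorem exists_eps (F : WildFamily p QZ) :
    ∃ eps : ∀ n, (ZMod (p ^ n))ˣ,
      (∀ n, ThetaUnit.red p n (eps (n + 1) : ZMod (p ^ (n + 1))) = eps n) ∧
      ∀ (n : ℕ) (b : ℚˣ) (T : Finset Nat.Primes), (∀ q ∈ T, (q : ℕ) ≠ p) →
        (∀ q : Nat.Primes, (q : ℕ) ≠ p → padicValRat q (b : ℚ) ≠ 0 → q ∈ T) →
        ∑ q ∈ T, tameVal hp2 q n b +
          ((eps n : ZMod (p ^ n)).val) • muP hp2 F n (Additive.ofMul (ratUnitsToPadic p b)) = 0 :=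
  stepI_QZ_finset hp2 (CycloGlobal87.dlog p hp2) (dlog87_compat hp2) (tameVal hp2) (muP hp2 F)
    (muP_H0 hp2 F) (fun q n hq b => by rw [tameVal, dif_neg hq]) (muP_H2 hp2 F) (muP_H3 hp2 F)
    (muP_H4 hp2 F)

/-- a compatible family is compatible over several steps. -/
lemma eps_val_modEq (eps : ∀ n, (ZMod (p ^ n))ˣ)
    (heps : ∀ n, ThetaUnit.red p n (eps (n + 1) : ZMod (p ^ (n + 1))) = eps n) {M N : ℕ}
    (h : M ≤ N) : ((eps N : ZMod (p ^ N)).val) ≡ ((eps M : ZMod (p ^ M)).val) [MOD p ^ M] := by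
  induction N, h using Nat.le_induction with
  | base => rfl
  | succ N hMN ih =>
    have h1 : ((eps N : ZMod (p ^ N)).val) = ((eps (N + 1) : ZMod (p ^ (N + 1))).val) % p ^ N := by
      rw [← heps N, ThetaUnit.red, ZMod.castHom_apply, ZMod.cast_eq_val, ZMod.val_natCast]
    have h2 : ((eps (N + 1) : ZMod (p ^ (N + 1))).val) ≡ ((eps N : ZMod (p ^ N)).val)
        [MOD p ^ N] := by
      rw [h1]; exact (Nat.mod_modEq _ _).symm
    exact (h2.of_dvd (pow_dvd_pow p hMN)).trans ih

lemma nsmul_eq_of_modEq {t : QZ} {M a b : ℕ} (ht : M • t = 0) (h : a ≡ b [MOD M]) :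
    a • t = b • t := by
  have h1 : addOrderOf t ∣ M := addOrderOf_dvd_of_nsmul_eq_zero ht
  have h2 : a ≡ b [MOD addOrderOf t] := h.of_dvd h1
  exact (nsmul_eq_nsmul_iff_modEq (x := t)).2 h2

end stepI

/-! ### rational elements of `Lˣ` -/

section rational

variable (L : IntermediateField ℚ Qbar) [Normal ℚ L]

/-- the image of `b ∈ ℚˣ` in `Lˣ`, additively. -/
noncomputable def ratUnit (b : ℚˣ) : Lx L :=
  Additive.ofMul (Units.map (algebraMap ℚ L : ℚ →* L) b)

lemma ratUnit_invariant (b : ℚˣ) (g : GalL L) : (Lx L).ρ g (ratUnit L b) = ratUnit L b := by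
  apply Additive.toMul.injective
  apply Units.ext
  exact g.commutes (b : ℚ)

/-- Galois descent: the `Gal(L/ℚ)`-invariant elements of `Lˣ` are the rational ones. -/
theorem exists_ratUnit_of_invariant [FiniteDimensional ℚ L] (b : Lx L)
    (hb : ∀ g : GalL L, (Lx L).ρ g b = b) : ∃ b₀ : ℚˣ, b = ratUnit L b₀ := by
  have : IsGalois ℚ L := ⟨⟩
  set u : Lˣ := Additive.toMul b with hu
  have hfix : ∀ g : GalL L, g (u : L) = u := by
    intro g
    have := congrArg (fun y : Lx L => ((Additive.toMul y : Lˣ) : L)) (hb g)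
    exact this
  obtain ⟨r, hr⟩ := IntermediateField.mem_bot.1 ((IsGalois.mem_bot_iff_fixed (u : L)).2 hfix)
  have hr0 : r ≠ 0 := by
    rintro rfl
    rw [map_zero] at hr
    exact u.ne_zero hr.symm
  refine ⟨Units.mk0 r hr0, ?_⟩
  apply Additive.toMul.injective
  apply Units.ext
  exact hr.symm

variable {p : ℕ} [hp : Fact p.Prime]

/-- the local diagonal at `p` of a rational element. -/
lemma diagLocE_ratUnit (b : ℚˣ) :
    (diagLocE p L).hom (ratUnit L b) = baseUnit L (ratUnitsToPadic p b) := by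
  apply Additive.toMul.injective
  apply Units.ext
  change iotaE p L (algebraMap ℚ L (b : ℚ)) = algebraMap ℚ_[p] (Elev p L) (((b : ℚ) : ℚ_[p]))
  rw [eq_ratCast, map_ratCast]
  exact (map_ratCast (algebraMap ℚ_[p] (Elev p L)) (b : ℚ)).symm

end rational

/-! ### the reciprocity law for the tower classes over `K = L^H` -/

section main

universe u

/-- the sum of two systems. -/
noncomputable def add2 {k G : Type u} [CommRing k] [Group G] {C : Rep k G} {T : Type*}
    [AddCommGroup T] (I I' : Sys C T) : Sys C T :=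
  Sys.finsum (Finset.univ : Finset Bool) (fun b => cond b I I')

lemma add2_S {k G : Type u} [CommRing k] [Group G] {C : Rep k G} {T : Type*}
    [AddCommGroup T] (I I' : Sys C T) (H : Subgroup G) (f : G × G → C) :
    (add2 I I').S H f = I.S H f + I'.S H f := by
  rw [add2, Sys.finsum_S, Fintype.sum_bool]
  rfl

variable {p : ℕ} [hp : Fact p.Prime] (hp2 : p ≠ 2) (F : WildFamily p QZ)

/-- the prime `p` as an element of `Nat.Primes`. -/
abbrev pp (p : ℕ) [hp : Fact p.Prime] : Nat.Primes := ⟨p, hp.out⟩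

/-- **RECIPROCITY FOR THE TOWER CLASSES (leaf 34, model form).**  There is ONE compatible family
of units `ε_n ∈ (ℤ/p^n)ˣ` (a `p`-adic unit) such that for every level `L ⊇ ℚ_{m+s}`, every
subgroup `H ≤ Gal(L/ℚ)` (`K = L^H`) with `p^s ≥` the `p`-part of the degree of the Galois closure
of `K`, every `a ∈ Kˣ`, every finite set `T` of primes `≠ p` containing the support of the norm of
`a`, and ANY systems `Qt q` (`q ∈ T`) computing the unramified local terms over `ℚ`:
`∑_{q ∈ T} (Qt q)_K (δχ_m ∪ a) + ε · ∑_{v | p} inv_v (δχ_m ∪ a) = 0`. -/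
theorem tower_reciprocity :
    ∃ eps : ∀ n, (ZMod (p ^ n))ˣ,
      (∀ n, ThetaUnit.red p n (eps (n + 1) : ZMod (p ^ (n + 1))) = eps n) ∧
      ∀ (L : IntermediateField ℚ Qbar) [Normal ℚ L] [FiniteDimensional ℚ L] (m s : ℕ)
        (h' : towerField p (m + s) ≤ L) (N : ℕ) (_hN : m + s ≤ N)
        (T : Finset Nat.Primes) (_hT : ∀ q ∈ T, (q : ℕ) ≠ p)
        (Qt : Nat.Primes → Sys (Lx L) QZ)
        (_hQt : ∀ q ∈ T, ∀ b₀ : ℚˣ,
          (Qt q).S ⊤ (carry (Lx L) (towerCharL p L hp2 (m + s) h') (ratUnit L b₀)) =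
            tameVal hp2 q (m + s) b₀)
        (H : Subgroup (GalL L)) (_hs : ∀ i, p ^ i ∣ H.normalCore.index → i ≤ s)
        (a : Lx L) (_ha : ∀ g ∈ H, (Lx L).ρ g a = a)
        (_hsupp : ∀ (b₀ : ℚˣ) (c : Finset (GalL L)), ratUnit L b₀ = ∑ g ∈ c, (Lx L).ρ g a →
          ∀ q : Nat.Primes, (q : ℕ) ≠ p → padicValRat q (b₀ : ℚ) ≠ 0 → q ∈ T),
        ∑ q ∈ T, (Qt q).S H (carry (Lx L)
            (towerCharL p L hp2 m ((towerField_mono p (Nat.le_add_right m s)).trans h')) a) +
          ((eps N : ZMod (p ^ N)).val) •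
            (qSys L (pp p) (F.sys L) (AddMonoidHom.id QZ)).S H (carry (Lx L)
              (towerCharL p L hp2 m ((towerField_mono p (Nat.le_add_right m s)).trans h')) a)
          = 0 := by
  obtain ⟨eps, heps, hsum⟩ := exists_eps hp2 F
  refine ⟨eps, heps, ?_⟩
  intro L _ _ m s h' N hN T hT Qt hQt H hs a ha hsupp
  classical
  have := Fintype.ofFinite (GalL L)
  set h : towerField p m ≤ L := (towerField_mono p (Nat.le_add_right m s)).trans h' with hh
  -- the total system
  set W : Sys (Lx L) QZ :=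
    (qSys L (pp p) (F.sys L) (AddMonoidHom.id QZ)).map
      (nsmulAddMonoidHom ((eps N : ZMod (p ^ N)).val)) with hW
  set Tot : Sys (Lx L) QZ := add2 (Sys.finsum T Qt) W with hTot
  have hgoal : Tot.S H (carry (Lx L) (towerCharL p L hp2 m h) a) =
      ∑ q ∈ T, (Qt q).S H (carry (Lx L) (towerCharL p L hp2 m h) a) +
        ((eps N : ZMod (p ^ N)).val) •
          (qSys L (pp p) (F.sys L) (AddMonoidHom.id QZ)).S H
            (carry (Lx L) (towerCharL p L hp2 m h) a) := by
    rw [hTot, add2_S, Sys.finsum_S, hW, Sys.map_S]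
    rfl
  rw [← hgoal, ← toSumSystem_carryH]
  have hne' : NeZero (p ^ m * p ^ s) := ⟨mul_ne_zero (pow_ne_zero _ hp.out.ne_zero)
    (pow_ne_zero _ hp.out.ne_zero)⟩
  refine DescendK.S_carry_eq_zero' Tot.toSumSystem p (towerCharL p L hp2 m h)
    (towerCharMulL p L hp2 m s h') (towerCharMulL_lift p L hp2 m h s h') H hs a ha ?_
  -- the base formula at the norm of `a`
  set b := DescendK.relNorm (Lx L) H a with hb
  have hbinv : ∀ g, (Lx L).ρ g b = b := DescendK.relNorm_invariant H a ha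
  obtain ⟨b₀, hb₀⟩ := exists_ratUnit_of_invariant L b hbinv
  have hsuppT : ∀ q : Nat.Primes, (q : ℕ) ≠ p → padicValRat q (b₀ : ℚ) ≠ 0 → q ∈ T := by
    have hc := DescendK.relNorm_eq_sum_image H a
    rw [← hb, hb₀] at hc
    exact hsupp b₀ _ hc
  rw [toSumSystem_carryH]
  -- replace the `p^m * p^s`-valued character by the `p^(m+s)`-valued one
  have hcarry : carry (Lx L) (towerCharMulL p L hp2 m s h') b =
      carry (Lx L) (towerCharL p L hp2 (m + s) h') b := by
    refine carry_congr (C := Lx L) (pow_add p m s).symm _ _ (fun g => ?_) _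
    change (ZMod.ringEquivCongr (pow_add p m s) (chiVal (towerCharL p L hp2 (m + s) h') g)).val = _
    exact ZMod.ringEquivCongr_val _ _
  rw [hcarry, hTot, add2_S, Sys.finsum_S, hW, Sys.map_S, hb₀]
  -- the tame terms
  have htame : ∑ q ∈ T, (Qt q).S ⊤ (carry (Lx L) (towerCharL p L hp2 (m + s) h') (ratUnit L b₀)) =
      ∑ q ∈ T, tameVal hp2 q (m + s) b₀ := Finset.sum_congr rfl (fun q hq => hQt q hq b₀)
  -- the wild term
  have hwild : (qSys L (pp p) (F.sys L) (AddMonoidHom.id QZ)).S ⊤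
      (carry (Lx L) (towerCharL p L hp2 (m + s) h') (ratUnit L b₀)) =
      muP hp2 F (m + s) (Additive.ofMul (ratUnitsToPadic p b₀)) := by
    have h1 := comap_coindSys_carry_top (F.sys L) (diagE p L) (towerCharL p L hp2 (m + s) h')
      (ratUnit L b₀) (ratUnit_invariant L b₀)
    rw [diagE_apply, map_one, Module.End.one_apply, diagLocE_ratUnit] at h1
    rw [← wildVal_eq_muP hp2 F L (m + s) h']
    change AddMonoidHom.id QZ (((coindSys (j := jE p L) (F.sys L)).comap (diagE p L)).S ⊤ _) = _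
    rw [AddMonoidHom.id_apply, h1]
    rfl
  rw [htame, hwild, nsmulAddMonoidHom_apply]
  rw [nsmul_eq_of_modEq (muP_H0 hp2 F (m + s) _) (eps_val_modEq eps heps hN)]
  exact hsum (m + s) b₀ T hT hsuppT

end main

end Fermat.Agent.S55.CycloRecip37.TowerRecip
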