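/-
S55 / leaf 34 → 35 (helper37): THE FIELD `recT` OF THE TOWER LAYER FOR THE D2 SEQUENCE,
unconditionally.

* `epsU hp2` : the `p`-adic unit of the reciprocity law (chosen once and for all from helper98's
  `tower_reciprocity_ideal` applied to the unconditional wild family), `twistU hp2 q` the twist
  (helper71's `epsHom` at `q = p`, the identity elsewhere; helper72's `epsAt`).
* `totalSysU hp2 L S : GSys.Sys (JIS L S) QZ` : THE total system of sums of local invariants on the
  finite-level ideles `J_S(L) × I^S(L)`: helper28's local invariants (through helper93's `locSys`)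
  at `q ∈ S`, twisted by `ε` at `p`, Frobenius evaluation (helper54's `idealSys`) outside `S`.
* `totalSysU_carry_eq_zero` : RECIPROCITY: the total system vanishes on the tower classes `δχ_m ∪ a`
  of principal ideles, over every `K = L^H`.
* `recT_D2` : the literal field `recT` of `GlobalInv91.FinLayerHyp (sesRes h H) p m χ invJ` /
  `LimDesc99.TowerModelHyp` / helper54's `finLayerHyp_towerCharK`, with
  `invJ := SysH2.toH2top (SysH2.restrict H (totalSysU hp2 L S))`, `χ := towerCharK`.
-/
import Mathlib
import Fermat.Agent.S55.CycloRecip37.Uncond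
import Fermat.Agent.S55.CycloRecip37.TotalSys
import Fermat.Agent.S55.CycloRecip37.SysH2
import Fermat.Agent.S55.FrobSys98.TameRecip
import Fermat.Agent.S55.CycloRecip78.TameRam
import Fermat.Agent.S55.TwistFamily72
import Fermat.Agent.S55.CycloGlobal87.CarrySeam
import Fermat.Agent.S55.CLDescent35.Hilbert90

set_option autoImplicit false
set_option linter.unusedSectionVars false

namespace Fermat.Agent.S55.CycloRecip37.RecT

open Fermat.Agent.S55.Idele73.Basic Fermat.Agent.S55.Idele73.Local
  Fermat.Agent.S55.CycloRecip37.GSys Fermat.Agent.S55.CycloRecip37.IdeleSys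
  Fermat.Agent.S55.CycloRecip37.TowerRecip Fermat.Agent.S55.CycloRecip37.Uncond
  Fermat.Agent.S55.CycloRecip37.TotalSys Fermat.Agent.S55.CycloRecip37.SysH2
  Fermat.Agent.S55.CycloRecip37.SysMore
  Fermat.Agent.S55.GlobalInv91 Fermat.Agent.S55.CycloGlobal87 Fermat.Agent.S55.QZ33
  Fermat.Agent.S55.IdeleVal44 Fermat.Agent.S55.IdeleCoh54.IdealSys
  Fermat.Agent.S55.FrobSys98.Tame Fermat.Agent.S55.FrobSys98.TameRecip

variable {p : ℕ} [hp : Fact p.Prime] (hp2 : p ≠ 2)

/-! ### the `p`-adic unit and the twist -/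

/-- **the `p`-adic unit of the reciprocity law**, as a compatible family `ε_n ∈ (ℤ/p^n)ˣ`. -/
noncomputable def epsU : ∀ n, (ZMod (p ^ n))ˣ :=
  Classical.choose (tower_reciprocity_ideal hp2 (wildFamilyU p))

lemma epsU_compat (n : ℕ) :
    ThetaUnit.red p n (epsU hp2 (n + 1) : ZMod (p ^ (n + 1))) = epsU hp2 n :=
  (Classical.choose_spec (tower_reciprocity_ideal hp2 (wildFamilyU p))).1 n

/-- the twist of `ℚ/ℤ` at the prime `q`: multiplication by `ε` for `q = p`, the identity
otherwise. -/
noncomputable def twistU (q : Nat.Primes) : QZ →+ QZ :=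
  TwistFamily72.epsAt p (epsU hp2) (epsU_compat hp2) q (pp p)

lemma twistU_self : twistU hp2 (pp p) = EpsHom71.epsHom p (epsU hp2) (epsU_compat hp2) :=
  TwistFamily72.epsAt_self p (epsU hp2) (epsU_compat hp2) (pp p)

lemma twistU_of_ne {q : Nat.Primes} (h : q ≠ pp p) : twistU hp2 q = AddMonoidHom.id QZ :=
  TwistFamily72.epsAt_of_ne p (epsU hp2) (epsU_compat hp2) h

lemma twistU_injective (q : Nat.Primes) : Function.Injective (twistU hp2 q) :=
  TwistFamily72.epsAt_injective p (epsU hp2) (epsU_compat hp2) q (pp p)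

/-! ### the total system -/

section Total

variable (L : IntermediateField ℚ Qbar) [Normal ℚ L] [FiniteDimensional ℚ L]
  (S : Finset Nat.Primes)

/-- **THE total system of sums of local invariants** on `J_S(L) × I^S(L)`. -/
noncomputable def totalSysU : Sys (JIS L S) QZ :=
  totalSys L S (fun q => locSysU q L) (twistU hp2) qzProj qzProj_one

variable {L S}

/-- a rescaled `q`-system is the rescaling of the plain one. -/
lemma qSys_S_eq {T : Type*} [AddCommGroup T] (q : Nat.Primes) (I : Sys (EUnits (q : ℕ) L) T)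
    (e : T →+ T) (H : Subgroup (GalL L)) (f : GalL L × GalL L → Lx L) :
    (qSys L q I e).S H f = e ((qSys L q I (AddMonoidHom.id T)).S H f) := rfl

/-- the value of a system on a carry cochain of level `n` is `n`-torsion. -/
lemma level_nsmul_S_carry {T : Type*} [AddCommGroup T] (I : Sys (Lx L) T) {n : ℕ} [NeZero n]
    (χ : GalL L →* Multiplicative (ZMod n)) (H : Subgroup (GalL L)) (a : Lx L)
    (ha : ∀ g ∈ H, (Lx L).ρ g a = a) : n • I.S H (carry (Lx L) χ a) = 0 := by
  rw [← toSumSystem_carryH]
  exact DescendK.level_nsmul_S_carry I.toSumSystem χ H a ha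

/-- the ideal part of the total system pulled back to `Lˣ`. -/
lemma idealSys_comap_idealMap_S {T : Type*} [AddCommGroup T] (θ : ℚ →+ T) (hθ : θ 1 = 0)
    (h : UnrOutside L S) (H : Subgroup (GalL L)) (f : GalL L × GalL L → Lx L) :
    ((idealSys L S θ hθ).comap (idealMap h)).S H f = ∑ᶠ ℓ : OutS S, (unrSys θ hθ h ℓ).S H f := by
  rw [Sys.comap_S, idealSys_S]
  refine finsum_congr fun ℓ => ?_
  rw [unrSys, Sys.comap_S]
  congr 1
  funext x
  exact idealMap_hom_apply h (f x) ℓ

/-- **RECIPROCITY FOR THE TOTAL SYSTEM** (leaf 34 in the D2 model, unconditional): for every level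
`L ⊇ ℚ_{m+s}` unramified outside `S ∋ p`, every `H ≤ Gal(L/ℚ)` (`K = L^H`) with `p^s ≥` the
`p`-part of the degree of the Galois closure of `K`, and every `a ∈ Kˣ`, the total system
vanishes on the principal idele class `δχ_m ∪ a`. -/
theorem totalSysU_carry_eq_zero (h : UnrOutside L S) (hpS : pp p ∈ S) (m s : ℕ)
    (h' : towerField p (m + s) ≤ L) (H : Subgroup (GalL L))
    (hs : ∀ i, p ^ i ∣ H.normalCore.index → i ≤ s) (a : Lx L)
    (ha : ∀ g ∈ H, (Lx L).ρ g a = a) :
    ((totalSysU hp2 L S).comap (deltaS h)).S H (carry (Lx L)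
      (towerCharL p L hp2 m ((towerField_mono p (Nat.le_add_right m s)).trans h')) a) = 0 := by
  classical
  have hne : NeZero (p ^ m) := ⟨pow_ne_zero _ hp.out.ne_zero⟩
  have hmain : ∑ q ∈ S.erase (pp p), (qSys L q (locSysU q L) (AddMonoidHom.id QZ)).S H
        (carry (Lx L)
          (towerCharL p L hp2 m ((towerField_mono p (Nat.le_add_right m s)).trans h')) a) +
      ((idealSys L S qzProj qzProj_one).comap (idealMap h)).S H (carry (Lx L)
          (towerCharL p L hp2 m ((towerField_mono p (Nat.le_add_right m s)).trans h')) a) +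
      ((epsU hp2 (m + s) : ZMod (p ^ (m + s))).val) •
        (qSys L (pp p) (locSysU (pp p) L) (AddMonoidHom.id QZ)).S H (carry (Lx L)
          (towerCharL p L hp2 m ((towerField_mono p (Nat.le_add_right m s)).trans h')) a) = 0 :=
    (Classical.choose_spec (tower_reciprocity_ideal hp2 (wildFamilyU p))).2 L S h hpS
      (fun q => qSys L q (locSysU q L) (AddMonoidHom.id QZ))
      (fun q _ hqp n hn b₀ =>
        Fermat.Agent.S55.CycloRecip78.qSys_top_carry_tame hp2 L q (KummerBr95.localPres q) hqp n hn
          b₀)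
      m s h' (m + s) le_rfl H hs a ha
  rw [totalSysU, totalSys_comap_deltaS_S, ← idealSys_comap_idealMap_S]
  rw [Finset.sum_coe_sort S (fun q => (qSys L q (locSysU q L) (twistU hp2 q)).S H (carry (Lx L)
      (towerCharL p L hp2 m ((towerField_mono p (Nat.le_add_right m s)).trans h')) a)),
    ← Finset.add_sum_erase S _ hpS]
  have h1 : ∑ q ∈ S.erase (pp p), (qSys L q (locSysU q L) (twistU hp2 q)).S H (carry (Lx L)
        (towerCharL p L hp2 m ((towerField_mono p (Nat.le_add_right m s)).trans h')) a) =
      ∑ q ∈ S.erase (pp p),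
        (qSys L q (locSysU q L) (AddMonoidHom.id QZ)).S H (carry (Lx L)
          (towerCharL p L hp2 m ((towerField_mono p (Nat.le_add_right m s)).trans h')) a) := by
    refine Finset.sum_congr rfl fun q hq => ?_
    rw [twistU_of_ne hp2 (Finset.ne_of_mem_erase hq)]
  have h2 : (qSys L (pp p) (locSysU (pp p) L) (twistU hp2 (pp p))).S H (carry (Lx L)
        (towerCharL p L hp2 m ((towerField_mono p (Nat.le_add_right m s)).trans h')) a) =
      ((epsU hp2 (m + s) : ZMod (p ^ (m + s))).val) •
        (qSys L (pp p) (locSysU (pp p) L) (AddMonoidHom.id QZ)).S H (carry (Lx L)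
          (towerCharL p L hp2 m ((towerField_mono p (Nat.le_add_right m s)).trans h')) a) := by
    rw [qSys_S_eq, twistU_self]
    exact EpsHom71.epsHom_apply_of_pow_le p (epsU hp2) (epsU_compat hp2) _ (Nat.le_add_right m s)
      (level_nsmul_S_carry _ _ H a ha)
  rw [h1, h2]
  refine Eq.trans ?_ hmain
  abel

end Total

/-! ### the field `recT` -/

section RecT

open Fermat.Agent.S55.CLDescent35.Hilbert90

variable {L : IntermediateField ℚ Qbar} [Normal ℚ L] [FiniteDimensional ℚ L]
  {S : Finset Nat.Primes}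

/-- **the field `recT` of the tower layer of the D2 sequence**, for the level `j + m` tower
character over `K = L^H` (`towerCharK`, onto `ℤ/p^m` when `K ∩ ℚ_∞ = ℚ_j`), as soon as `L` contains
`ℚ_{j+m+s}` with `p^s ≥` the `p`-part of the degree of the Galois closure of `K`:
`invJ (i_* (δχ ∪ b)) = 0` for all `b ∈ Kˣ`, with
`invJ := toH2top (restrict H (totalSysU hp2 L S))`. -/
theorem recT_D2 (h : UnrOutside L S) (hpS : pp p ∈ S) (H : Subgroup (GalL L)) (j m s : ℕ)
    (h' : towerField p (j + m + s) ≤ L)
    (hj : ∀ g ∈ H, towerCharL p L hp2 j ((towerField_mono p (Nat.le_add_right j m)).trans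
      ((towerField_mono p (Nat.le_add_right (j + m) s)).trans h')) g = 1)
    (hs : ∀ i, p ^ i ∣ H.normalCore.index → i ≤ s)
    (b : (sesRes h H).X₁.ρ.invariants) :
    toH2top (restrict H (totalSysU hp2 L S)) ((push₂ (sesRes h H).f).hom
      (carryH2 (sesRes h H).X₁ (towerCharK p hp2 L H j m
        ((towerField_mono p (Nat.le_add_right (j + m) s)).trans h') hj) b)) = 0 := by
  have hne : NeZero (p ^ (j + m)) := ⟨pow_ne_zero _ hp.out.ne_zero⟩
  rw [← carryH2_towerCharL_comp_subtype p hp2 L H j m
    ((towerField_mono p (Nat.le_add_right (j + m) s)).trans h') hj]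
  have key := invJ_push₂_carryH2 (H := H) (totalSysU hp2 L S) (deltaS h)
    (towerCharL p L hp2 (j + m) ((towerField_mono p (Nat.le_add_right (j + m) s)).trans h')) b
  refine Eq.trans key ?_
  exact totalSysU_carry_eq_zero hp2 h hpS (j + m) s h' H hs b.1 (fun g hg => b.2 ⟨g, hg⟩)

end RecT

end Fermat.Agent.S55.CycloRecip37.RecT
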