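/-
S55 / leaf 34 → 35 (helper37): SEAM TEST + the whole tower-layer structure of InstD2 in one
theorem: helper54's `FullDegSeam.finLayerHyp_towerCharK` (all cohomological fields by helper35,
`fullDeg` by helper54/helper6) with its last open field `recT` discharged by `RecT.recT_D2`, for
`invJ := toH2top (restrict H (totalSysU hp2 L S))`.
-/
import Mathlib
import Fermat.Agent.S55.CycloRecip37.RecT
import Fermat.Agent.S55.IdeleCoh54.FullDegSeam

set_option autoImplicit false
set_option linter.unusedSectionVars false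

namespace Fermat.Agent.S55.CycloRecip37.RecTSeam

open Fermat.Agent.S55.Idele73.Basic Fermat.Agent.S55.CycloRecip37.GSys
  Fermat.Agent.S55.CycloRecip37.SysH2 Fermat.Agent.S55.CycloRecip37.RecT
  Fermat.Agent.S55.CycloRecip37.TotalSys Fermat.Agent.S55.CycloRecip37.TowerRecip
  Fermat.Agent.S55.GlobalInv91 Fermat.Agent.S55.CycloGlobal87 Fermat.Agent.S55.QZ33
  Fermat.Agent.S55.IdeleVal44 Fermat.Agent.S55.IdeleCoh54.IdealSys
  Fermat.Agent.S55.FrobSys98.Tame Fermat.Agent.S55.CLDescent35.Hilbert90
  Fermat.Agent.S55.CLDescent35.FinFields Fermat.Agent.S55.Adapt77.HcycGlue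

attribute [local instance] factPrimes44
attribute [local instance 2000] Fermat.Agent.S55.IdeleCoh54.IdealSys.fintypeGalL

variable {p : ℕ} [hp : Fact p.Prime] (hp2 : p ≠ 2)
  {L : IntermediateField ℚ Qbar} [Normal ℚ L] [FiniteDimensional ℚ L] {S : Finset Nat.Primes}

/-- the ideal part of the total system is helper54's `idealSys` (the binder `hI` of
`FullDeg.exists_fullDeg` / `finLayerHyp_towerCharK`). -/
theorem totalSysU_comap_inr (H' : Subgroup (GalL L)) (f : GalL L × GalL L → IS L S) :
    ((totalSysU hp2 L S).comap (prodRep.inr (JS L S) (IS L S))).S H' f =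
      (idealSys L S qzProj qzProj_one).S H' f :=
  Fermat.Agent.S55.IdeleCoh54.FullDeg.sysAdd_comap_inr _ _ _ _ H' f

/-- **THE TOWER LAYER OF InstD2, ALL FIELDS**: `FinLayerHyp` for the D2 idele sequence over
`K = L^H`, the onto tower character `χ = towerCharK` of level `p^m` over `K` (`K ∩ ℚ_∞ = ℚ_j`), and
`invJ := toH2top (restrict H (totalSysU hp2 L S))`, as soon as `L ⊇ ℚ_{j+m+s}` with `p^s ≥` the
`p`-part of the degree of the Galois closure of `K`.  Inputs: the two inequalities (31-OUT, 32-OUT,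
both unconditional on main) as in helper35's `finLayerHyp_of`. -/
theorem finLayerHyp_D2 (hL : L.IsUnramifiedOutside S) (h : UnrOutside L S) (hpS : pp p ∈ S)
    (H : Subgroup (GalL L)) (h31 : FirstIneqOut (CS h) ⊤ p) {H₁ : Subgroup (GalL L)}
    (hH : Fermat.Agent.S55.CLDescent35.OutTop.H0 p L ≤ H₁) (h32 : SecondIneqOut (CS h) H₁ p)
    (j m s : ℕ) (h' : towerField p (j + m + s) ≤ L)
    (hj : ∀ g ∈ H, towerCharL p L hp2 j ((towerField_mono p (Nat.le_add_right j m)).trans
      ((towerField_mono p (Nat.le_add_right (j + m) s)).trans h')) g = 1)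
    (hm : 1 ≤ m)
    (hex : ∃ g ∈ H, towerCharL p L hp2 (j + 1) ((towerField_mono p (Nat.add_le_add_left hm j)).trans
      ((towerField_mono p (Nat.le_add_right (j + m) s)).trans h')) g ≠ 1)
    (hs : ∀ i, p ^ i ∣ H.normalCore.index → i ≤ s) :
    FinLayerHyp (sesRes h H) p m
      (towerCharK p hp2 L H j m ((towerField_mono p (Nat.le_add_right (j + m) s)).trans h') hj)
      (toH2top (restrict H (totalSysU hp2 L S))) :=
  Fermat.Agent.S55.IdeleCoh54.FullDegSeam.finLayerHyp_towerCharK hp2 hL h ⟨pp p, hpS⟩ H h31 hH h32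
    qzProj qzProj_one (fun _ => rfl) (totalSysU hp2 L S) (totalSysU_comap_inr hp2) j m
    ((towerField_mono p (Nat.le_add_right (j + m) s)).trans h') hj hm hex
    (recT_D2 hp2 h hpS H j m s h' hj hs)

end Fermat.Agent.S55.CycloRecip37.RecTSeam
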