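/-
S55 / leaf 34 → 35 (helper37): RECIPROCITY FOR THE TOTAL SYSTEM WITHOUT THE LEVEL CONDITION.

`RecT.totalSysU_carry_eq_zero` needs `L ⊇ ℚ_{m+s}` with `p^s ≥` the `p`-part of the degree of the
Galois closure of `K = L^H`.  Here the condition is removed by inflating the `Lˣ`-valued carry
cocycle to the level `L·ℚ_{m+s}`:

* `tot_infl` : INFLATION INVARIANCE of the total system pulled back to `Lˣ`
  (`q ∈ S`: helper54's `CoindInfl.coindSys_infl` + `LocInfl.locSysU_infl`; `ℓ ∉ S`: helper54's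
  `UnrInfl.unrGSys_coind_infl`; compatibility of the diagonal embeddings: helper35's
  `CLDescent35.Level`);
* `totalSysU_carry_eq_zero'` : for EVERY level `L ⊇ ℚ_M` unramified outside `S ∋ p`, every
  `N ≤ Gal(L/ℚ)` and every `a ∈ (L^N)ˣ`: the total system vanishes on `δχ_M ∪ a`;
* `recT_D2'`, `finLayerHyp_D2'` : the twins of `RecT.recT_D2`, `RecTSeam.finLayerHyp_D2` without
  `s`.
-/
import Mathlib
import Fermat.Agent.S55.CycloRecip37.RecTSeam
import Fermat.Agent.S55.CycloRecip37.LocInfl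
import Fermat.Agent.S55.IdeleCoh54.CoindInfl
import Fermat.Agent.S55.IdeleCoh54.IdealInfl
import Fermat.Agent.S55.CLDescent35.Level
import Fermat.Agent.S55.IdeleVal44.Inst

set_option autoImplicit false
set_option linter.unusedSectionVars false

namespace Fermat.Agent.S55.CycloRecip37.RecTInfl

open Fermat.Agent.S55.Idele73.Basic Fermat.Agent.S55.Idele73.Local
  Fermat.Agent.S55.CycloRecip37.GSys Fermat.Agent.S55.CycloRecip37.IdeleSys
  Fermat.Agent.S55.CycloRecip37.CoindSys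
  Fermat.Agent.S55.CycloRecip37.TowerRecip Fermat.Agent.S55.CycloRecip37.Uncond
  Fermat.Agent.S55.CycloRecip37.TotalSys Fermat.Agent.S55.CycloRecip37.SysH2
  Fermat.Agent.S55.CycloRecip37.SysMore Fermat.Agent.S55.CycloRecip37.RecT
  Fermat.Agent.S55.CycloRecip37.LocInfl
  Fermat.Agent.S55.GlobalInv91 Fermat.Agent.S55.CycloGlobal87 Fermat.Agent.S55.QZ33
  Fermat.Agent.S55.IdeleVal44 Fermat.Agent.S55.IdeleCoh54.IdealSys
  Fermat.Agent.S55.IdeleCoh54.UnrGSys Fermat.Agent.S55.IdeleCoh54.UnrSum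
  Fermat.Agent.S55.IdeleCoh54.UnrInfl Fermat.Agent.S55.IdeleCoh54.CoindInfl
  Fermat.Agent.S55.FrobFin98 Fermat.Agent.S55.FrobSys98.Tame
  Fermat.Agent.S55.CLDescent35.Level

attribute [local instance] factPrimes44
attribute [local instance 2000] Fermat.Agent.S55.IdeleCoh54.IdealSys.fintypeGalL

/-! ### group theory: the normal core of a preimage -/

section Core

variable {G G' : Type*} [Group G] [Group G']

lemma normalCore_comap (r : G' →* G) (hr : Function.Surjective r) (N : Subgroup G) :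
    (N.comap r).normalCore = N.normalCore.comap r := by
  apply le_antisymm
  · intro x hx
    rw [Subgroup.mem_comap]
    intro g
    obtain ⟨g', rfl⟩ := hr g
    have := hx g'
    rw [Subgroup.mem_comap, map_mul, map_mul, map_inv] at this
    exact this
  · have : (N.normalCore.comap r).Normal := inferInstance
    rw [Subgroup.normal_le_normalCore]
    exact Subgroup.comap_mono (Subgroup.normalCore_le N)

lemma normalCore_comap_index (r : G' →* G) (hr : Function.Surjective r) (N : Subgroup G) :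
    (N.comap r).normalCore.index = N.normalCore.index := by
  rw [normalCore_comap r hr, Subgroup.index_comap_of_surjective _ hr]

end Core

/-! ### change of level on `Lˣ` -/

section Level

variable {p : ℕ} [hp : Fact p.Prime] (hp2 : p ≠ 2)
variable {L₀ L₁ : IntermediateField ℚ Qbar} [Normal ℚ L₀] [Normal ℚ L₁]
  [FiniteDimensional ℚ L₀] [FiniteDimensional ℚ L₁] (hle : L₀ ≤ L₁)

/-- inflation of `L₀ˣ`-valued cochains to the level `L₁ ⊇ L₀`. -/
noncomputable def inflLx (f : GalL L₀ × GalL L₀ → Lx L₀) : GalL L₁ × GalL L₁ → Lx L₁ :=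
  fun x => inclUnitsAdd hle (f (resLev hle x.1, resLev hle x.2))

lemma inflLx_apply (f : GalL L₀ × GalL L₀ → Lx L₀) (x : GalL L₁ × GalL L₁) :
    inflLx hle f x = inclUnitsAdd hle (f (resLev hle x.1, resLev hle x.2)) := rfl

/-- the tower character is compatible with restriction. -/
lemma towerCharL_comp_resLev (M : ℕ) (hM : towerField p M ≤ L₀) :
    towerCharL p L₁ hp2 M (hM.trans hle) = (towerCharL p L₀ hp2 M hM).comp (resLev hle) := by
  ext g
  obtain ⟨σ, rfl⟩ := resL_surjective L₁ g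
  rw [towerCharL_resL, MonoidHom.comp_apply, resLev_resL, towerCharL_resL]

/-- the inflation of a carry cochain is the carry cochain of the inflated character. -/
lemma inflLx_carry {n : ℕ} [NeZero n] (χ : GalL L₀ →* Multiplicative (ZMod n)) (a : Lx L₀) :
    inflLx hle (carry (Lx L₀) χ a) =
      carry (Lx L₁) (χ.comp (resLev hle)) (inclUnitsAdd hle a) := by
  funext x
  rw [inflLx_apply, carry_apply, carry_apply, map_nsmul]
  rfl

/-- the local diagonals are compatible with the inclusions. -/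
lemma diagLocE_incl (q : ℕ) [Fact q.Prime] (b : Lx L₀) :
    (diagLocE q L₁).hom (inclUnitsAdd hle b) = inclEU q hle ((diagLocE q L₀).hom b) := by
  apply Additive.toMul.injective
  apply Units.ext
  apply Subtype.ext
  rfl

/-- the diagonal embeddings `Lˣ → Coind Eˣ` are compatible with inflation. -/
lemma diagE_incl (q : ℕ) [Fact q.Prime] (b : Lx L₀) :
    (diagE q L₁).hom (inclUnitsAdd hle b) =
      inflM (jE q L₀) (EUnits q L₀) (jE q L₁) (EUnits q L₁) (resLev hle) (resDE q hle)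
        (jE_resDE q hle (resLev hle) (resLev_comp_resL hle)) (inclEU q hle) (inclEU_rho q hle)
        ((diagE q L₀).hom b) := by
  apply Subtype.ext
  funext g
  rw [diagE_apply, inflM_apply, diagE_apply, ← inclUnitsAdd_rho, diagLocE_incl]

/-- the divisor maps are compatible with the inclusions. -/
lemma divAt_incl {S : Finset Nat.Primes} (h₀ : UnrOutside L₀ S) (h₁ : UnrOutside L₁ S)
    (ℓ : OutS S) (b : Lx L₀) :
    (divAt h₁ ℓ).hom (inclUnitsAdd hle b) =
      pullInt (resLev hle) (locHom ℓ.1.1 L₁) (locHom ℓ.1.1 L₀)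
        (fun τ => (resLev_locHom hle ℓ.1.1 τ).symm) ((divAt h₀ ℓ).hom b) := by
  apply Subtype.ext
  funext g
  have key : ((diag ℓ.1.1 L₁).hom (inclUnitsAdd hle b)).1 g =
      ((diag ℓ.1.1 L₀).hom b).1 (resLev hle g) := diag_inclLx hle ℓ.1.1 b g
  show ⌊valAdd ℓ.1.1 (Rep.toAdditive (((diag ℓ.1.1 L₁).hom (inclUnitsAdd hle b)).1 g))⌋ =
    ⌊valAdd ℓ.1.1 (Rep.toAdditive (((diag ℓ.1.1 L₀).hom b).1 (resLev hle g)))⌋
  rw [key]

variable {T : Type*} [AddCommGroup T]

/-- **inflation invariance of the unramified systems on `Lˣ`.** -/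
lemma unrSys_infl (θ : ℚ →+ T) (hθ : θ 1 = 0) {S : Finset Nat.Primes} (h₀ : UnrOutside L₀ S)
    (h₁ : UnrOutside L₁ S) (ℓ : OutS S) (N : Subgroup (GalL L₀))
    (f : GalL L₀ × GalL L₀ → Lx L₀) (hf : IsCocOn (Lx L₀) N f) :
    (unrSys θ hθ h₁ ℓ).S (N.comap (resLev hle)) (inflLx hle f) = (unrSys θ hθ h₀ ℓ).S N f := by
  rw [unrSys, unrSys, Sys.comap_S, Sys.comap_S]
  have hcomp : (fun x => (divAt h₁ ℓ).hom (inflLx hle f x)) =
      fun x : GalL L₁ × GalL L₁ => pullInt (resLev hle) (locHom ℓ.1.1 L₁) (locHom ℓ.1.1 L₀)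
        (fun τ => (resLev_locHom hle ℓ.1.1 τ).symm)
        ((fun y => (divAt h₀ ℓ).hom (f y)) (resLev hle x.1, resLev hle x.2)) := by
    funext x
    exact divAt_incl hle h₀ h₁ ℓ _
  rw [hcomp]
  have h := unrGSys_coind_infl (resLev hle) (locHom ℓ.1.1 L₁) (locHom ℓ.1.1 L₀)
    (fun τ => (resLev_locHom hle ℓ.1.1 τ).symm) (resLev_surjective hle) θ hθ
    (frobL_mem_range ℓ.1.1 L₁) N (hom_isCocOn (divAt h₀ ℓ) hf)
  rw [evalL, evalL, h]
  exact Fermat.Agent.S55.IdeleCoh54.IdealInfl.unrGSys_coindEval_congr (locHom ℓ.1.1 L₀) θ hθ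
    (map_frobL ℓ.1.1 L₁ (resLev hle) (resLev_comp_resL hle)) _ _ N _

/-- **inflation invariance of the `q`-systems on `Lˣ`**, from the inflation invariance of the
local systems. -/
lemma qSys_infl (q : Nat.Primes) (I₀ : Sys (EUnits (q : ℕ) L₀) T) (I₁ : Sys (EUnits (q : ℕ) L₁) T)
    (hloc : ∀ (N : Subgroup (DE (q : ℕ) L₀)) (c : DE (q : ℕ) L₀ × DE (q : ℕ) L₀ → EUnits (q : ℕ) L₀),
      IsCocOn (EUnits (q : ℕ) L₀) N c →
      I₁.S (N.comap (resDE (q : ℕ) hle))
        (inflLoc (EUnits (q : ℕ) L₀) (EUnits (q : ℕ) L₁) (resDE (q : ℕ) hle) (inclEU (q : ℕ) hle) c) =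
        I₀.S N c)
    (e : T →+ T) (N : Subgroup (GalL L₀)) (f : GalL L₀ × GalL L₀ → Lx L₀)
    (hf : IsCocOn (Lx L₀) N f) :
    (qSys L₁ q I₁ e).S (N.comap (resLev hle)) (inflLx hle f) = (qSys L₀ q I₀ e).S N f := by
  rw [qSys, qSys, Sys.comap_S, Sys.comap_S, Sys.map_S, Sys.map_S]
  congr 1
  have hcomp : (fun x => (diagE (q : ℕ) L₁).hom (inflLx hle f x)) =
      inflCo (jE (q : ℕ) L₀) (EUnits (q : ℕ) L₀) (jE (q : ℕ) L₁) (EUnits (q : ℕ) L₁) (resLev hle)
        (resDE (q : ℕ) hle) (jE_resDE (q : ℕ) hle (resLev hle) (resLev_comp_resL hle))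
        (inclEU (q : ℕ) hle) (inclEU_rho (q : ℕ) hle) (fun y => (diagE (q : ℕ) L₀).hom (f y)) := by
    funext x
    exact diagE_incl hle (q : ℕ) _
  rw [hcomp]
  exact coindSys_infl (jE (q : ℕ) L₀) (EUnits (q : ℕ) L₀) (jE (q : ℕ) L₁) (EUnits (q : ℕ) L₁)
    (resLev hle) (resDE (q : ℕ) hle) (jE_resDE (q : ℕ) hle (resLev hle) (resLev_comp_resL hle))
    (inclEU (q : ℕ) hle) (inclEU_rho (q : ℕ) hle) (resLev_surjective hle)
    (resDE_surjective (q : ℕ) hle) I₀ I₁ hloc N _ (hom_isCocOn (diagE (q : ℕ) L₀) hf)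

/-- **INFLATION INVARIANCE OF THE TOTAL SYSTEM ON `Lˣ`** (general local systems `I` with
inflation-invariant components). -/
theorem totalSys_infl {S : Finset Nat.Primes}
    (I₀ : ∀ q : Nat.Primes, Sys (EUnits (q : ℕ) L₀) T)
    (I₁ : ∀ q : Nat.Primes, Sys (EUnits (q : ℕ) L₁) T)
    (hloc : ∀ (q : Nat.Primes) (N : Subgroup (DE (q : ℕ) L₀))
      (c : DE (q : ℕ) L₀ × DE (q : ℕ) L₀ → EUnits (q : ℕ) L₀),
      IsCocOn (EUnits (q : ℕ) L₀) N c →
      (I₁ q).S (N.comap (resDE (q : ℕ) hle))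
        (inflLoc (EUnits (q : ℕ) L₀) (EUnits (q : ℕ) L₁) (resDE (q : ℕ) hle) (inclEU (q : ℕ) hle) c) =
        (I₀ q).S N c)
    (e : Nat.Primes → (T →+ T)) (θ : ℚ →+ T) (hθ : θ 1 = 0)
    (h₀ : UnrOutside L₀ S) (h₁ : UnrOutside L₁ S) (N : Subgroup (GalL L₀))
    (f : GalL L₀ × GalL L₀ → Lx L₀) (hf : IsCocOn (Lx L₀) N f) :
    ((totalSys L₁ S I₁ e θ hθ).comap (deltaS h₁)).S (N.comap (resLev hle)) (inflLx hle f) =
      ((totalSys L₀ S I₀ e θ hθ).comap (deltaS h₀)).S N f := by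
  rw [totalSys_comap_deltaS_S, totalSys_comap_deltaS_S]
  congr 1
  · refine Finset.sum_congr rfl fun q _ => ?_
    exact qSys_infl hle q.1 (I₀ q.1) (I₁ q.1) (hloc q.1) (e q.1) N f hf
  · refine finsum_congr fun ℓ => ?_
    exact unrSys_infl hle θ hθ h₀ h₁ ℓ N f hf

/-- **inflation invariance of THE total system on `Lˣ`.** -/
theorem totalSysU_infl {S : Finset Nat.Primes} (h₀ : UnrOutside L₀ S) (h₁ : UnrOutside L₁ S)
    (N : Subgroup (GalL L₀)) (f : GalL L₀ × GalL L₀ → Lx L₀) (hf : IsCocOn (Lx L₀) N f) :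
    ((totalSysU hp2 L₁ S).comap (deltaS h₁)).S (N.comap (resLev hle)) (inflLx hle f) =
      ((totalSysU hp2 L₀ S).comap (deltaS h₀)).S N f :=
  totalSys_infl hle (fun q => locSysU q L₀) (fun q => locSysU q L₁)
    (fun q N c hc => locSysU_infl q hle N c hc) (twistU hp2) qzProj qzProj_one h₀ h₁ N f hf

end Level

/-! ### reciprocity without the level condition -/

section Recip

variable {p : ℕ} [hp : Fact p.Prime] (hp2 : p ≠ 2)
variable {L : IntermediateField ℚ Qbar} [hn : Normal ℚ L] [FiniteDimensional ℚ L]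
  {S : Finset Nat.Primes}

/-- **RECIPROCITY FOR THE TOTAL SYSTEM, ALL LEVELS**: for every level `L ⊇ ℚ_M` unramified outside
`S ∋ p`, every `N ≤ Gal(L/ℚ)` (`K = L^N`) and every `a ∈ Kˣ`, the total system vanishes on the
principal idele class `δχ_M ∪ a`. -/
theorem totalSysU_carry_eq_zero' (hL : L.IsUnramifiedOutside S) (h : UnrOutside L S)
    (hpS : pp p ∈ S) (M : ℕ) (hM : towerField p M ≤ L) (N : Subgroup (GalL L)) (a : Lx L)
    (ha : ∀ g ∈ N, (Lx L).ρ g a = a) :
    ((totalSysU hp2 L S).comap (deltaS h)).S N (carry (Lx L) (towerCharL p L hp2 M hM) a) = 0 := by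
  have hne : NeZero (p ^ M) := ⟨pow_ne_zero _ hp.out.ne_zero⟩
  -- a bound for the `p`-part of the index of the normal core
  obtain ⟨s, hs⟩ : ∃ s, ∀ i, p ^ i ∣ N.normalCore.index → i ≤ s := by
    refine ⟨N.normalCore.index, fun i hi => ?_⟩
    have hpos : 0 < N.normalCore.index := Nat.pos_of_ne_zero Subgroup.index_ne_zero_of_finite
    exact ((Nat.lt_pow_self hp.out.one_lt).trans_le (Nat.le_of_dvd hpos hi)).le
  -- the bigger level
  have hnorm : Normal ℚ (L ⊔ towerField p (M + s) : IntermediateField ℚ Qbar) :=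
    @IntermediateField.normal_sup ℚ Qbar _ _ _ L (towerField p (M + s)) hn
      (normal_towerField p (M + s))
  have hfin : FiniteDimensional ℚ (L ⊔ towerField p (M + s) : IntermediateField ℚ Qbar) :=
    IntermediateField.finiteDimensional_sup L (towerField p (M + s))
  have hle : L ≤ L ⊔ towerField p (M + s) := le_sup_left
  have hL₁ : (L ⊔ towerField p (M + s)).IsUnramifiedOutside S :=
    hL.sup (towerField_isUnramifiedOutside p S hpS (M + s))
  have h₁ : UnrOutside (L ⊔ towerField p (M + s)) S :=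
    Fermat.Agent.S55.IdeleVal44.unrOutside_of_level _ hL₁
  rw [← totalSysU_infl hp2 hle h h₁ N _ (isCocOn_carry (Lx L) _ N a ha), inflLx_carry,
    ← towerCharL_comp_resLev hp2 hle M hM]
  refine totalSysU_carry_eq_zero hp2 h₁ hpS M s le_sup_right (N.comap (resLev hle)) ?_ _ ?_
  · rw [normalCore_comap_index _ (resLev_surjective hle)]
    exact hs
  · intro g hg
    rw [← inclUnitsAdd_rho, ha _ hg]

open Fermat.Agent.S55.CLDescent35.Hilbert90 Fermat.Agent.S55.CLDescent35.FinFields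
  Fermat.Agent.S55.Adapt77.HcycGlue in
/-- **the field `recT` of the tower layer of the D2 sequence, WITHOUT the level condition**: for
the level `j + m` tower character over `K = L^H` (`towerCharK`), `L ⊇ ℚ_{j+m}` any `S`-level:
`invJ (i_* (δχ ∪ b)) = 0` for all `b ∈ Kˣ`, `invJ := toH2top (restrict H (totalSysU hp2 L S))`. -/
theorem recT_D2' (hL : L.IsUnramifiedOutside S) (h : UnrOutside L S) (hpS : pp p ∈ S)
    (H : Subgroup (GalL L)) (j m : ℕ) (h' : towerField p (j + m) ≤ L)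
    (hj : ∀ g ∈ H, towerCharL p L hp2 j
      ((towerField_mono p (Nat.le_add_right j m)).trans h') g = 1)
    (b : (sesRes h H).X₁.ρ.invariants) :
    toH2top (restrict H (totalSysU hp2 L S)) ((push₂ (sesRes h H).f).hom
      (carryH2 (sesRes h H).X₁ (towerCharK p hp2 L H j m h' hj) b)) = 0 := by
  have hne : NeZero (p ^ (j + m)) := ⟨pow_ne_zero _ hp.out.ne_zero⟩
  rw [← carryH2_towerCharL_comp_subtype p hp2 L H j m h' hj]
  have key := invJ_push₂_carryH2 (H := H) (totalSysU hp2 L S) (deltaS h)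
    (towerCharL p L hp2 (j + m) h') b
  refine Eq.trans key ?_
  exact totalSysU_carry_eq_zero' hp2 hL h hpS (j + m) h' H b.1 (fun g hg => b.2 ⟨g, hg⟩)

open Fermat.Agent.S55.CLDescent35.Hilbert90 Fermat.Agent.S55.CLDescent35.FinFields
  Fermat.Agent.S55.Adapt77.HcycGlue in
/-- **THE TOWER LAYER OF InstD2, ALL FIELDS, WITHOUT THE LEVEL CONDITION**: `FinLayerHyp` for the
D2 idele sequence over `K = L^H`, the onto tower character `χ = towerCharK` of level `p^m` over `K`
(`K ∩ ℚ_∞ = ℚ_j`), `invJ := toH2top (restrict H (totalSysU hp2 L S))`, for EVERY `S`-level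
`L ⊇ ℚ_{j+m}`.  Inputs: the two inequalities (31-OUT, 32-OUT). -/
theorem finLayerHyp_D2' (hL : L.IsUnramifiedOutside S) (h : UnrOutside L S) (hpS : pp p ∈ S)
    (H : Subgroup (GalL L)) (h31 : FirstIneqOut (CS h) ⊤ p) {H₁ : Subgroup (GalL L)}
    (hH : Fermat.Agent.S55.CLDescent35.OutTop.H0 p L ≤ H₁) (h32 : SecondIneqOut (CS h) H₁ p)
    (j m : ℕ) (h' : towerField p (j + m) ≤ L)
    (hj : ∀ g ∈ H, towerCharL p L hp2 j
      ((towerField_mono p (Nat.le_add_right j m)).trans h') g = 1)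
    (hm : 1 ≤ m)
    (hex : ∃ g ∈ H, towerCharL p L hp2 (j + 1)
      ((towerField_mono p (Nat.add_le_add_left hm j)).trans h') g ≠ 1) :
    FinLayerHyp (sesRes h H) p m (towerCharK p hp2 L H j m h' hj)
      (toH2top (restrict H (totalSysU hp2 L S))) :=
  Fermat.Agent.S55.IdeleCoh54.FullDegSeam.finLayerHyp_towerCharK hp2 hL h ⟨pp p, hpS⟩ H h31 hH h32
    qzProj qzProj_one (fun _ => rfl) (totalSysU hp2 L S)
    (Fermat.Agent.S55.CycloRecip37.RecTSeam.totalSysU_comap_inr hp2) j m h' hj hm hex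
    (recT_D2' hp2 hL h hpS H j m h' hj)

end Recip

end Fermat.Agent.S55.CycloRecip37.RecTInfl
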