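/-
S55 / leaf 34 → 35 (helper37): pointwise evaluation of the INVERSE of `TotalSys.JqIsoE`
(`Coind_{jE} Eˣ ≅ J_q(L)`): `eLin ((JqIsoE⁻¹ F) g) = F g`.  This is the pointwise hypothesis `hc`
of helper64's `CoindCompat.sum_locw_eq_coindS` for the finite-level cochains
`f := JqIsoE⁻¹ ∘ (q-component)` occurring in `TotalSys.jqSys` / helper53's `toH2_jsSys_H2π`.
-/
import Mathlib
import Fermat.Agent.S55.CycloRecip37.TotalSys

set_option autoImplicit false
set_option linter.unusedSectionVars false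

namespace Fermat.Agent.S55.CycloRecip37.JqIsoEApply

open Fermat.Agent.S55.Idele73.Basic Fermat.Agent.S55.Idele73.Local
  Fermat.Agent.S55.CycloRecip37.TotalSys

variable (q : ℕ) [Fact q.Prime] (L : IntermediateField ℚ Qbar) [Normal ℚ L]

/-- `eLin ((JqIsoE⁻¹ F) g) = F g`. -/
theorem eLin_JqIsoE_inv (F : Jq q L) (g : GalL L) :
    eLin q L (((JqIsoE q L).inv.hom F).1 g) = F.1 g := by
  have h := congrArg (fun F' : Jq q L => F'.1 g) (JqIsoE_inv_hom q L F)
  rw [← JqIsoE_hom_apply]
  exact h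

/-- `JqIsoE⁻¹` is characterised by `eLin`. -/
theorem JqIsoE_inv_eq_iff (F : Jq q L) (f : Rep.coind (jE q L) (EUnits q L)) :
    (JqIsoE q L).inv.hom F = f ↔ ∀ g, eLin q L (f.1 g) = F.1 g := by
  constructor
  · rintro rfl g
    exact eLin_JqIsoE_inv q L F g
  · intro h
    apply Subtype.ext
    funext g
    apply eLin_injective q L
    rw [eLin_JqIsoE_inv, h]

end Fermat.Agent.S55.CycloRecip37.JqIsoEApply
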