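/-
S55 / leaf 34-CYCLO-RECIP, part (a2): the generic character.
helper37.  Mathlib only.

In a finite commutative group `A`, given finitely many elements `g t` whose orders are divisible
by `p ^ K`, there is a homomorphism `χ` from `A` ONTO a cyclic group of `p`-power order such that
`p ^ k ∣ orderOf (χ (g t))` for all `t`, as soon as the number of elements is `< p ^ (K + 1 - k)`.
(Counting: the bad characters for `t` lie in a subgroup of index `p ^ (K + 1 - k)` of the dual.)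
-/
import Mathlib

namespace Fermat.Agent.S55.CycloRecip37.CharAvoid

/-- Arithmetic core: if `e ∣ o`, `p ^ K ∣ o` and `p ^ k ∤ e` then `e ∣ o / p ^ (K + 1 - k)`. -/
theorem dvd_div_of_not_pow_dvd (p : ℕ) [hp : Fact p.Prime] {e o k K : ℕ} (hk : 1 ≤ k)
    (hkK : k ≤ K) (ho : o ≠ 0) (heo : e ∣ o) (hK : p ^ K ∣ o) (hne : ¬ p ^ k ∣ e) :
    e ∣ o / p ^ (K + 1 - k) := by
  obtain ⟨a, w, hw, rfl⟩ := Nat.exists_eq_pow_mul_and_not_dvd ho p hp.out.ne_one
  have he0 : e ≠ 0 := fun h => ho (by rw [h] at heo; exact Nat.eq_zero_of_zero_dvd heo)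
  obtain ⟨v, e', he', rfl⟩ := Nat.exists_eq_pow_mul_and_not_dvd he0 p hp.out.ne_one
  have hcop : Nat.Coprime p w := (Nat.Prime.coprime_iff_not_dvd hp.out).mpr hw
  have hcop' : Nat.Coprime p e' := (Nat.Prime.coprime_iff_not_dvd hp.out).mpr he'
  -- `K ≤ a`
  have hKa : K ≤ a := by
    by_contra hlt
    push Not at hlt
    have h1 : p ^ (a + 1) ∣ p ^ a * w := (pow_dvd_pow p (by omega)).trans hK
    rw [pow_succ] at h1
    have := (Nat.mul_dvd_mul_iff_left (pow_pos hp.out.pos a)).mp h1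
    exact hw this
  -- `v < k`
  have hvk : v < k := by
    by_contra hge
    push Not at hge
    exact hne ((pow_dvd_pow p hge).trans (Dvd.intro _ rfl))
  -- `e' ∣ w`
  have he'w : e' ∣ w := by
    have h1 : e' ∣ p ^ a * w := (Dvd.intro_left _ rfl).trans heo
    exact (Nat.Coprime.dvd_of_dvd_mul_left (Nat.Coprime.pow_right a hcop'.symm)) h1
  have hdiv : p ^ a * w / p ^ (K + 1 - k) = p ^ (a - (K + 1 - k)) * w := by
    have hle : K + 1 - k ≤ a := by omega
    have : p ^ a = p ^ (K + 1 - k) * p ^ (a - (K + 1 - k)) := by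
      rw [← pow_add]; congr 1; omega
    rw [this, mul_assoc, Nat.mul_div_cancel_left _ (pow_pos hp.out.pos _)]
  rw [hdiv]
  exact mul_dvd_mul (pow_dvd_pow p (by omega)) he'w

/-- `p`-part of the order is unchanged by a prime-to-`p` power. -/
theorem pow_dvd_orderOf_pow {G : Type*} [Monoid G] (p : ℕ) [hp : Fact p.Prime] (y : G) {u k : ℕ}
    (hu : ¬ p ∣ u) (hy : p ^ k ∣ orderOf y) : p ^ k ∣ orderOf (y ^ u) := by
  have hu0 : u ≠ 0 := fun h => hu (h ▸ dvd_zero p)
  rw [orderOf_pow' y hu0]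
  have hcop : Nat.Coprime (p ^ k) ((orderOf y).gcd u) := by
    apply Nat.Coprime.pow_left
    exact Nat.Coprime.coprime_dvd_right (Nat.gcd_dvd_right _ _)
      ((Nat.Prime.coprime_iff_not_dvd hp.out).mpr hu)
  have h1 : p ^ k ∣ (orderOf y / (orderOf y).gcd u) * (orderOf y).gcd u := by
    rwa [Nat.div_mul_cancel (Nat.gcd_dvd_left _ _)]
  exact hcop.dvd_of_dvd_mul_right h1

section main

variable (p : ℕ) [hp : Fact p.Prime] {A : Type*} [CommGroup A] [Finite A]

/-- Characters with values in `ℂˣ`: existence of a generic one. -/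
theorem exists_complex_char {ι : Type*} [Fintype ι] (g : ι → A) (k K : ℕ)
    (hk : 1 ≤ k) (hkK : k ≤ K) (hcard : Fintype.card ι < p ^ (K + 1 - k))
    (hg : ∀ t, p ^ K ∣ orderOf (g t)) :
    ∃ χ : A →* ℂˣ, ∀ t, p ^ k ∣ orderOf (χ (g t)) := by
  classical
  have hexp : NeZero (Monoid.exponent A) := ⟨Monoid.exponent_ne_zero_of_finite⟩
  have hM : HasEnoughRootsOfUnity ℂ (Monoid.exponent A) := inferInstance
  have hfinD : Finite (A →* ℂˣ) :=
    Finite.of_equiv A (CommGroup.monoidHom_mulEquiv_of_hasEnoughRootsOfUnity A ℂ).some.symm.toEquiv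
  set d := p ^ (K + 1 - k) with hd
  have hdpos : 0 < d := pow_pos hp.out.pos _
  have hord_pos : ∀ t, 0 < orderOf (g t) := fun t => orderOf_pos (g t)
  have hd_dvd : ∀ t, d ∣ orderOf (g t) := fun t =>
    (pow_dvd_pow p (by omega)).trans (hg t)
  -- the elements `h t` of order exactly `d`
  let h : ι → A := fun t => g t ^ (orderOf (g t) / d)
  have hh : ∀ t, orderOf (h t) = d := fun t =>
    orderOf_pow_orderOf_div (hord_pos t).ne' (hd_dvd t)
  -- bad sets
  let B : ι → Subgroup (A →* ℂˣ) := fun t =>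
    (MonoidHom.domRestrictHom (Subgroup.zpowers (h t)) ℂˣ).ker
  have hBcard : ∀ t, Nat.card (B t) * d = Nat.card A := by
    intro t
    have h1 : Nat.card (B t) = Nat.card (A ⧸ Subgroup.zpowers (h t)) :=
      CommGroup.card_domRestrictHom_ker (M := ℂ) (Subgroup.zpowers (h t))
    have h2 := Subgroup.card_eq_card_quotient_mul_card_subgroup (Subgroup.zpowers (h t))
    rw [Nat.card_zpowers, hh t] at h2
    rw [h1, h2]
  -- counting
  have hDcard : Nat.card (A →* ℂˣ) = Nat.card A :=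
    CommGroup.card_monoidHom_of_hasEnoughRootsOfUnity A ℂ
  have hex : ∃ χ : A →* ℂˣ, ∀ t, χ ∉ B t := by
    by_contra hcon
    push Not at hcon
    have hAcard : 0 < Nat.card A := Nat.card_pos
    have : Fintype (A →* ℂˣ) := Fintype.ofFinite _
    have hcover : (Finset.univ : Finset (A →* ℂˣ)) ⊆
        Finset.univ.biUnion (fun t : ι => (Finset.univ.filter (fun χ => χ ∈ B t))) := by
      intro χ _
      obtain ⟨t, ht⟩ := hcon χ
      exact Finset.mem_biUnion.mpr ⟨t, Finset.mem_univ _, by simpa using ht⟩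
    have h1 := Finset.card_le_card hcover
    have h2 := Finset.card_biUnion_le (s := (Finset.univ : Finset ι))
      (t := fun t : ι => (Finset.univ.filter (fun χ : A →* ℂˣ => χ ∈ B t)))
    have h3 : ∀ t : ι, (Finset.univ.filter (fun χ : A →* ℂˣ => χ ∈ B t)).card * d =
        Nat.card A := by
      intro t
      rw [← hBcard t]
      congr 1
      rw [Nat.card_eq_fintype_card, Fintype.card_subtype]
    have h4 : (Finset.univ : Finset (A →* ℂˣ)).card = Nat.card A := by
      rw [Finset.card_univ, ← Nat.card_eq_fintype_card, hDcard]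
    -- `card A * d ≤ ∑ t, card A = card ι * card A`
    have h5 : Nat.card A * d ≤ Fintype.card ι * Nat.card A := by
      calc Nat.card A * d = (Finset.univ : Finset (A →* ℂˣ)).card * d := by rw [h4]
        _ ≤ (∑ t : ι, (Finset.univ.filter (fun χ : A →* ℂˣ => χ ∈ B t)).card) * d :=
            Nat.mul_le_mul_right _ (h1.trans h2)
        _ = ∑ t : ι, (Finset.univ.filter (fun χ : A →* ℂˣ => χ ∈ B t)).card * d := by
            rw [Finset.sum_mul]
        _ = ∑ _t : ι, Nat.card A := Finset.sum_congr rfl (fun t _ => h3 t)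
        _ = Fintype.card ι * Nat.card A := by simp
    have h6 : Fintype.card ι * Nat.card A < d * Nat.card A :=
      Nat.mul_lt_mul_of_pos_right hcard hAcard
    rw [mul_comm d] at h6
    omega
  obtain ⟨χ, hχ⟩ := hex
  refine ⟨χ, fun t => ?_⟩
  -- `χ (h t) ≠ 1`
  have hne : χ (h t) ≠ 1 := by
    intro h1
    apply hχ t
    rw [MonoidHom.mem_ker]
    ext ⟨x, hx⟩
    obtain ⟨n, rfl⟩ := Subgroup.mem_zpowers_iff.mp hx
    simp [MonoidHom.domRestrictHom, map_zpow, h1]
  by_contra hnot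
  apply hne
  have hdvd : orderOf (χ (g t)) ∣ orderOf (g t) := orderOf_map_dvd χ (g t)
  have := dvd_div_of_not_pow_dvd p hk hkK (hord_pos t).ne' hdvd (hg t) hnot
  show χ (g t ^ (orderOf (g t) / d)) = 1
  rw [map_pow]
  exact orderOf_dvd_iff_pow_eq_one.mp this

/-- **Generic character.** -/
theorem exists_hom_orderOf_dvd {ι : Type*} [Fintype ι] (g : ι → A) (k K : ℕ)
    (hk : 1 ≤ k) (hkK : k ≤ K) (hcard : Fintype.card ι < p ^ (K + 1 - k))
    (hg : ∀ t, p ^ K ∣ orderOf (g t)) :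
    ∃ (n : ℕ) (χ : A →* Multiplicative (ZMod (p ^ n))),
      Function.Surjective χ ∧ ∀ t, p ^ k ∣ orderOf (χ (g t)) := by
  classical
  obtain ⟨χ₀, hχ₀⟩ := exists_complex_char p g k K hk hkK hcard hg
  have hA0 : Nat.card A ≠ 0 := Nat.card_pos.ne'
  obtain ⟨a, u, hu, hAu⟩ := Nat.exists_eq_pow_mul_and_not_dvd hA0 p hp.out.ne_one
  -- the `p`-part of the character
  let χ₁ : A →* ℂˣ := χ₀ ^ u
  have hχ₁ : ∀ t, p ^ k ∣ orderOf (χ₁ (g t)) := fun t => by
    show p ^ k ∣ orderOf ((χ₀ ^ u) (g t))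
    rw [MonoidHom.pow_apply]
    exact pow_dvd_orderOf_pow p _ hu (hχ₀ t)
  have hfinR : Finite χ₁.range := Set.finite_range χ₁
  have hpgrp : IsPGroup p χ₁.range := by
    rintro ⟨y, x, rfl⟩
    refine ⟨a, ?_⟩
    apply Subtype.ext
    show (χ₁ x) ^ p ^ a = 1
    show ((χ₀ ^ u) x) ^ p ^ a = 1
    rw [MonoidHom.pow_apply, ← pow_mul, mul_comm, ← hAu, ← map_pow, pow_card_eq_one', map_one]
  obtain ⟨n, hn⟩ := (IsPGroup.iff_card (p := p) (G := χ₁.range)).mp hpgrp
  have hcyc : IsCyclic χ₁.range := inferInstance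
  obtain ⟨N, hN, ⟨e⟩⟩ : ∃ N, N = p ^ n ∧ Nonempty (χ₁.range ≃* Multiplicative (ZMod N)) :=
    ⟨Nat.card χ₁.range, hn, ⟨(zmodCyclicMulEquiv hcyc).symm⟩⟩
  subst hN
  refine ⟨n, e.toMonoidHom.comp χ₁.rangeRestrict, ?_, fun t => ?_⟩
  · exact e.surjective.comp χ₁.rangeRestrict_surjective
  · have h1 : orderOf ((e.toMonoidHom.comp χ₁.rangeRestrict) (g t)) = orderOf (χ₁ (g t)) := by
      show orderOf (e (χ₁.rangeRestrict (g t))) = _
      rw [MulEquiv.orderOf_eq, ← Subgroup.orderOf_coe]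
      rfl
    rw [h1]
    exact hχ₁ t

end main

end Fermat.Agent.S55.CycloRecip37.CharAvoid
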