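/-
S55 / leaf 34-CYCLO-RECIP, part (a1): auxiliary primes for the crossing field.
helper37.  Mathlib only.

For an odd prime `p`, an integer `r ≥ 2` and `j ≥ 1`, every prime factor `ℓ ≠ p` of
`N = ∑ i < p, (r ^ p ^ (j-1)) ^ i` (the value of the `p ^ j`-th cyclotomic polynomial at `r`)
satisfies `orderOf (r : ZMod ℓ) = p ^ j`, and such a prime factor exists because
`v_p N ≤ 1 < N / p`.  Different `j` give different `ℓ`, so finitely many primes can be avoided.
-/
import Mathlib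

namespace Fermat.Agent.S55.CycloRecip37.CycSplit

/-- The value at `r` of the `p ^ (j+1)`-th cyclotomic polynomial. -/
def cycVal (p r j : ℕ) : ℕ := ∑ i ∈ Finset.range p, (r ^ p ^ j) ^ i

theorem cycVal_mul (p r j : ℕ) (hr : 1 ≤ r) :
    cycVal p r j * (r ^ p ^ j - 1) + 1 = r ^ p ^ (j + 1) := by
  unfold cycVal
  have hs : 1 ≤ r ^ p ^ j := Nat.one_le_pow _ _ hr
  obtain ⟨x, hx⟩ : ∃ x, r ^ p ^ j = x + 1 := ⟨r ^ p ^ j - 1, by omega⟩
  rw [hx, Nat.add_sub_cancel, geom_sum_mul_add, ← hx, ← pow_mul, ← pow_succ]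

theorem lt_cycVal (p r j : ℕ) (hp : 2 ≤ p) (hr : 2 ≤ r) : p < cycVal p r j := by
  unfold cycVal
  have hs : 2 ≤ r ^ p ^ j := by
    calc 2 ≤ r := hr
      _ = r ^ 1 := (pow_one r).symm
      _ ≤ r ^ p ^ j := Nat.pow_le_pow_right (by omega) (Nat.one_le_pow _ _ (by omega))
  calc p = ∑ _i ∈ Finset.range p, 1 := by simp
    _ < ∑ i ∈ Finset.range p, (r ^ p ^ j) ^ i := by
      apply Finset.sum_lt_sum
      · intro i _
        exact Nat.one_le_pow _ _ (by omega)
      · refine ⟨1, Finset.mem_range.mpr (by omega), ?_⟩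
        rw [pow_one]; omega

theorem padicValNat_cycVal_le_one (p : ℕ) [hp : Fact p.Prime] (hp2 : p ≠ 2) (r j : ℕ)
    (hr : 2 ≤ r) : padicValNat p (cycVal p r j) ≤ 1 := by
  have hpodd : Odd p := hp.out.odd_of_ne_two hp2
  set s := r ^ p ^ j with hs
  have hs2 : 2 ≤ s := by
    calc 2 ≤ r := hr
      _ = r ^ 1 := (pow_one r).symm
      _ ≤ r ^ p ^ j := Nat.pow_le_pow_right (by omega) (Nat.one_le_pow _ _ hp.out.pos)
  have hmul : cycVal p r j * (s - 1) + 1 = s ^ p := by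
    have := cycVal_mul p r j (by omega)
    rw [this, hs, ← pow_mul, ← pow_succ]
  by_cases hdvd : p ∣ cycVal p r j
  · -- then `p ∣ s ^ p - 1`, so `s ≡ 1 mod p`
    have h1 : p ∣ s ^ p - 1 := by
      have : s ^ p - 1 = cycVal p r j * (s - 1) := by omega
      rw [this]; exact Dvd.dvd.mul_right hdvd _
    have hsp : 1 ≤ s ^ p := Nat.one_le_pow _ _ (by omega)
    have h2 : (s : ZMod p) ^ p = 1 := by
      have : ((s ^ p - 1 : ℕ) : ZMod p) = 0 := (ZMod.natCast_eq_zero_iff _ _).mpr h1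
      rw [Nat.cast_sub hsp] at this
      push_cast at this
      exact sub_eq_zero.mp this
    rw [ZMod.pow_card] at h2
    have h3 : p ∣ s - 1 := by
      rw [← ZMod.natCast_eq_zero_iff, Nat.cast_sub (by omega), h2]; simp
    have h4 : ¬ p ∣ s := by
      intro h
      have : p ∣ 1 := by
        have := Nat.dvd_sub h h3
        rwa [show s - (s - 1) = 1 by omega] at this
      exact hp.out.one_lt.ne' (Nat.dvd_one.mp this)
    have hlte := padicValNat.pow_sub_pow (p := p) hpodd (x := s) (y := 1) (by omega)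
      (by simpa using h3) h4 (n := p) hp.out.ne_zero
    rw [one_pow, padicValNat_self] at hlte
    have hprod : s ^ p - 1 = cycVal p r j * (s - 1) := by omega
    have hN0 : cycVal p r j ≠ 0 := by
      have := lt_cycVal p r j hp.out.two_le hr; omega
    rw [hprod, padicValNat.mul hN0 (by omega)] at hlte
    omega
  · rw [padicValNat.eq_zero_of_not_dvd hdvd]; omega

/-- **Auxiliary prime.** For `p` odd, `r ≥ 2`: there is a prime `ℓ ≠ p` not dividing `r` such that
`r` has order exactly `p ^ (j+1)` in `(ZMod ℓ)ˣ`. -/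
theorem exists_prime_orderOf_eq (p : ℕ) [hp : Fact p.Prime] (hp2 : p ≠ 2) (r : ℕ) (hr : 2 ≤ r)
    (j : ℕ) :
    ∃ ℓ : ℕ, ℓ.Prime ∧ ℓ ≠ p ∧ ¬ ℓ ∣ r ∧ orderOf (r : ZMod ℓ) = p ^ (j + 1) := by
  set N := cycVal p r j with hN
  have hNgt : p < N := lt_cycVal p r j hp.out.two_le hr
  have hv : padicValNat p N ≤ 1 := padicValNat_cycVal_le_one p hp2 r j hr
  -- a prime factor different from `p`
  obtain ⟨ℓ, hℓ, hℓN, hℓp⟩ : ∃ ℓ : ℕ, ℓ.Prime ∧ ℓ ∣ N ∧ ℓ ≠ p := by
    by_contra hcon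
    push Not at hcon
    have hN0 : N ≠ 0 := by omega
    have hpow : N = p ^ N.primeFactorsList.length := by
      apply Nat.eq_prime_pow_of_unique_prime_dvd hN0
      intro q hq hqN
      exact hcon q hq hqN
    set a := N.primeFactorsList.length
    have : padicValNat p N = a := by
      rw [hpow, padicValNat.prime_pow]
    have ha : a ≤ 1 := by omega
    have : N ≤ p := by
      rw [hpow]
      calc p ^ a ≤ p ^ 1 := Nat.pow_le_pow_right hp.out.pos ha
        _ = p := pow_one p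
    omega
  have : Fact ℓ.Prime := ⟨hℓ⟩
  have hr1 : 1 ≤ r := by omega
  have hmul := cycVal_mul p r j hr1
  -- `r ^ p ^ (j+1) = 1` in `ZMod ℓ`
  have hone : (r : ZMod ℓ) ^ p ^ (j + 1) = 1 := by
    have h0 : ((N : ℕ) : ZMod ℓ) = 0 := (ZMod.natCast_eq_zero_iff _ _).mpr hℓN
    have := congrArg (fun n : ℕ => (n : ZMod ℓ)) hmul
    simp only [Nat.cast_add, Nat.cast_mul, Nat.cast_one, Nat.cast_pow] at this
    rw [← hN, h0, zero_mul, zero_add] at this
    exact this.symm
  -- `r ^ p ^ j ≠ 1` in `ZMod ℓ`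
  have hne : ¬ (r : ZMod ℓ) ^ p ^ j = 1 := by
    intro h
    have h0 : ((N : ℕ) : ZMod ℓ) = 0 := (ZMod.natCast_eq_zero_iff _ _).mpr hℓN
    have hNp : ((N : ℕ) : ZMod ℓ) = (p : ZMod ℓ) := by
      rw [hN]; unfold cycVal
      push_cast
      rw [h]; simp
    rw [hNp] at h0
    have : ℓ ∣ p := (ZMod.natCast_eq_zero_iff _ _).mp h0
    exact hℓp ((Nat.prime_dvd_prime_iff_eq hℓ hp.out).mp this)
  refine ⟨ℓ, hℓ, hℓp, ?_, orderOf_eq_prime_pow hne hone⟩
  intro hdiv
  have h0 : (r : ZMod ℓ) = 0 := (ZMod.natCast_eq_zero_iff _ _).mpr hdiv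
  rw [h0, zero_pow (pow_ne_zero _ hp.out.ne_zero)] at hone
  exact zero_ne_one hone

/-- **Auxiliary prime avoiding a finite set.** -/
theorem exists_prime_orderOf_notMem (p : ℕ) [hp : Fact p.Prime] (hp2 : p ≠ 2) (r : ℕ)
    (hr : 2 ≤ r) (avoid : Finset ℕ) (j₀ : ℕ) :
    ∃ j, j₀ ≤ j ∧ ∃ ℓ : ℕ, ℓ.Prime ∧ ℓ ≠ p ∧ ℓ ∉ avoid ∧ ¬ ℓ ∣ r ∧
      orderOf (r : ZMod ℓ) = p ^ (j + 1) := by
  classical
  choose f hf using fun j => exists_prime_orderOf_eq p hp2 r hr j
  have hinj : Function.Injective f := by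
    intro a b hab
    have ha := (hf a).2.2.2
    have hb := (hf b).2.2.2
    rw [hab] at ha
    rw [ha] at hb
    have := Nat.pow_right_injective hp.out.two_le hb
    omega
  -- among `f j₀, …, f (j₀ + card avoid)` one is outside `avoid`
  by_contra hcon
  push Not at hcon
  have hall : ∀ j, j₀ ≤ j → f j ∈ avoid := by
    intro j hj
    by_contra hnot
    exact hcon j hj (f j) (hf j).1 (hf j).2.1 hnot (hf j).2.2.1 (hf j).2.2.2
  have hsub : (Finset.range (avoid.card + 1)).image (fun i => f (j₀ + i)) ⊆ avoid := by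
    intro x hx
    obtain ⟨i, _, rfl⟩ := Finset.mem_image.mp hx
    exact hall _ (by omega)
  have hcard := Finset.card_le_card hsub
  rw [Finset.card_image_of_injective _ (fun a b hab => by
    have := hinj hab; omega), Finset.card_range] at hcard
  omega

end Fermat.Agent.S55.CycloRecip37.CycSplit
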