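/-
S55 / leaf 34-CYCLO-RECIP → 35 (helper37): multiplication by a `p`-adic unit on `ℚ/ℤ`.

The sum formula of leaf 34 holds for `∑_{q ≠ p} inv_q + ε · inv_p` with a compatible family of
units `ε_n ∈ (ℤ/p^n)ˣ` (a `p`-adic unit).  To have ONE total invariant map on the ideles
(independent of the level) the twist must be an endomorphism of `ℚ/ℤ`:
`epsHom eps heps : QZ →+ QZ`, equal to `(eps n).val • ·` on the `p^n`-torsion, to the identity on
the prime-to-`p` torsion, and injective.  Mathlib + QZ33 + ThetaUnit only.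
-/
import Mathlib
import Fermat.Agent.S55.CycloRecip37.ThetaUnit
import Fermat.Agent.S55.QZ33

set_option autoImplicit false

namespace Fermat.Agent.S55.CycloRecip37.EpsHom

open Fermat.Agent.S55.QZ33

/-! ### coherent multipliers on a torsion group -/

section Coherent

variable {A : Type*} [AddCommGroup A]

/-- a coherent family of multipliers: `c m ≡ c n [MOD n]` whenever `n ∣ m`. -/
def Coherent (c : ℕ → ℕ) : Prop := ∀ n m : ℕ, 0 < m → n ∣ m → c m ≡ c n [MOD n]

variable {c : ℕ → ℕ}

lemma Coherent.nsmul_eq (hc : Coherent c) {t : A} {n : ℕ} (hn : 0 < n) (ht : n • t = 0) :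
    c n • t = c (addOrderOf t) • t := by
  have hdvd : addOrderOf t ∣ n := addOrderOf_dvd_of_nsmul_eq_zero ht
  exact (nsmul_eq_nsmul_iff_modEq (x := t)).2 (hc _ _ hn hdvd)

/-- the endomorphism defined by a coherent family of multipliers on a torsion group. -/
noncomputable def cohHom (hc : Coherent c) (htors : ∀ t : A, ∃ n : ℕ, 0 < n ∧ n • t = 0) :
    A →+ A where
  toFun t := c (addOrderOf t) • t
  map_zero' := smul_zero _
  map_add' t t' := by
    obtain ⟨n, hn, hnt⟩ := htors t
    obtain ⟨n', hn', hnt'⟩ := htors t'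
    have hN : 0 < n * n' := Nat.mul_pos hn hn'
    have h1 : (n * n') • t = 0 := by rw [mul_comm, mul_smul, hnt, smul_zero]
    have h2 : (n * n') • t' = 0 := by rw [mul_smul, hnt', smul_zero]
    have h3 : (n * n') • (t + t') = 0 := by rw [smul_add, h1, h2, add_zero]
    rw [← hc.nsmul_eq hN h3, ← hc.nsmul_eq hN h1, ← hc.nsmul_eq hN h2, smul_add]

lemma cohHom_apply_of_nsmul (hc : Coherent c) (htors : ∀ t : A, ∃ n : ℕ, 0 < n ∧ n • t = 0)
    {t : A} {n : ℕ} (hn : 0 < n) (ht : n • t = 0) : cohHom hc htors t = c n • t :=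
  (hc.nsmul_eq hn ht).symm

lemma cohHom_injective (hc : Coherent c) (htors : ∀ t : A, ∃ n : ℕ, 0 < n ∧ n • t = 0)
    (hcop : ∀ n, 0 < n → Nat.Coprime (c n) n) : Function.Injective (cohHom hc htors) := by
  rw [injective_iff_map_eq_zero]
  intro t ht
  obtain ⟨n, hn, hnt⟩ := htors t
  have hpos : 0 < addOrderOf t := addOrderOf_pos_iff.2
    (isOfFinAddOrder_iff_nsmul_eq_zero.2 ⟨n, hn, hnt⟩)
  have h1 : addOrderOf t ∣ c (addOrderOf t) := addOrderOf_dvd_of_nsmul_eq_zero ht
  have h2 : addOrderOf t ∣ Nat.gcd (c (addOrderOf t)) (addOrderOf t) :=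
    Nat.dvd_gcd h1 dvd_rfl
  rw [hcop _ hpos, Nat.dvd_one] at h2
  exact AddMonoid.addOrderOf_eq_one_iff.1 h2

end Coherent

/-! ### the multipliers of a `p`-adic unit -/

section Eps

variable {p : ℕ} [hp : Fact p.Prime]

local instance neZeroPowE (n : ℕ) : NeZero (p ^ n) := ⟨pow_ne_zero _ hp.out.ne_zero⟩

variable (eps : ∀ n, (ZMod (p ^ n))ˣ)
  (heps : ∀ n, ThetaUnit.red p n (eps (n + 1) : ZMod (p ^ (n + 1))) = eps n)

include heps in
/-- a compatible family is compatible over several steps. -/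
lemma val_modEq {M N : ℕ} (h : M ≤ N) :
    ((eps N : ZMod (p ^ N)).val) ≡ ((eps M : ZMod (p ^ M)).val) [MOD p ^ M] := by
  induction N, h using Nat.le_induction with
  | base => rfl
  | succ N hMN ih =>
    have h1 : ((eps N : ZMod (p ^ N)).val) = ((eps (N + 1) : ZMod (p ^ (N + 1))).val) % p ^ N := by
      rw [← heps N, ThetaUnit.red, ZMod.castHom_apply, ZMod.cast_eq_val, ZMod.val_natCast]
    have h2 : ((eps (N + 1) : ZMod (p ^ (N + 1))).val) ≡ ((eps N : ZMod (p ^ N)).val)
        [MOD p ^ N] := by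
      rw [h1]; exact (Nat.mod_modEq _ _).symm
    exact (h2.of_dvd (pow_dvd_pow p hMN)).trans ih

lemma coprime_ordProj_ordCompl {n : ℕ} (hn : n ≠ 0) :
    Nat.Coprime (p ^ n.factorization p) (n / p ^ n.factorization p) :=
  Nat.Coprime.pow_left _ (Nat.coprime_ordCompl hp.out hn)

open Classical in
/-- the multiplier at level `n`: `≡ ε_a` modulo `p^a` (the `p`-part of `n`), `≡ 1` modulo the
prime-to-`p` part of `n`. -/
noncomputable def mult (n : ℕ) : ℕ :=
  if hn : n = 0 then 1 else
    (Nat.chineseRemainder (coprime_ordProj_ordCompl (p := p) hn)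
      ((eps (n.factorization p) : ZMod (p ^ n.factorization p)).val) 1 : ℕ)

lemma mult_modEq_left {n : ℕ} (hn : n ≠ 0) :
    mult eps n ≡ ((eps (n.factorization p) : ZMod (p ^ n.factorization p)).val)
      [MOD p ^ n.factorization p] := by
  rw [mult, dif_neg hn]
  exact (Nat.chineseRemainder _ _ _).2.1

lemma mult_modEq_right {n : ℕ} (hn : n ≠ 0) :
    mult eps n ≡ 1 [MOD n / p ^ n.factorization p] := by
  rw [mult, dif_neg hn]
  exact (Nat.chineseRemainder _ _ _).2.2

include heps in
lemma coherent_mult : Coherent (mult eps) := by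
  intro n m hm hnm
  have hm0 : m ≠ 0 := hm.ne'
  have hn0 : n ≠ 0 := fun h => hm0 (by rw [h] at hnm; exact Nat.eq_zero_of_zero_dvd hnm)
  have hab : n.factorization p ≤ m.factorization p :=
    (Nat.factorization_le_iff_dvd hn0 hm0).2 hnm p
  have h1 : mult eps m ≡ mult eps n [MOD p ^ n.factorization p] :=
    (((mult_modEq_left eps hm0).of_dvd (pow_dvd_pow p hab)).trans
      (val_modEq eps heps hab)).trans (mult_modEq_left eps hn0).symm
  have h2 : mult eps m ≡ mult eps n [MOD n / p ^ n.factorization p] :=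
    ((mult_modEq_right eps hm0).of_dvd (Nat.ordCompl_dvd_ordCompl_of_dvd hnm p)).trans
      (mult_modEq_right eps hn0).symm
  have h3 := (Nat.modEq_and_modEq_iff_modEq_mul (coprime_ordProj_ordCompl (p := p) hn0)).1 ⟨h1, h2⟩
  rwa [Nat.ordProj_mul_ordCompl_eq_self n p] at h3

lemma coprime_mult {n : ℕ} (hn : 0 < n) : Nat.Coprime (mult eps n) n := by
  have hn0 : n ≠ 0 := hn.ne'
  have h1 : Nat.Coprime (mult eps n) (p ^ n.factorization p) := by
    have hu : Nat.Coprime ((eps (n.factorization p) : ZMod (p ^ n.factorization p)).val)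
        (p ^ n.factorization p) := ZMod.val_coe_unit_coprime _
    have := (mult_modEq_left eps hn0).gcd_eq
    rw [Nat.Coprime, this]
    exact hu
  have h2 : Nat.Coprime (mult eps n) (n / p ^ n.factorization p) := by
    have := (mult_modEq_right eps hn0).gcd_eq
    rw [Nat.Coprime, this]
    exact Nat.gcd_one_left _
  have := Nat.Coprime.mul_right h1 h2
  rwa [Nat.ordProj_mul_ordCompl_eq_self n p] at this

/-- **multiplication by the `p`-adic unit `ε` on `ℚ/ℤ`**. -/
noncomputable def epsHom : QZ →+ QZ :=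
  cohHom (coherent_mult eps heps) QZ.exists_nsmul_eq_zero

/-- on the `p^n`-torsion `epsHom` is multiplication by (a lift of) `ε_n`. -/
theorem epsHom_apply_of_pow {t : QZ} {n : ℕ} (ht : (p ^ n) • t = 0) :
    epsHom eps heps t = ((eps n : ZMod (p ^ n)).val) • t := by
  have hpos : 0 < p ^ n := pow_pos hp.out.pos n
  rw [epsHom, cohHom_apply_of_nsmul _ _ hpos ht]
  have hdvd : addOrderOf t ∣ p ^ n := addOrderOf_dvd_of_nsmul_eq_zero ht
  refine (nsmul_eq_nsmul_iff_modEq (x := t)).2 (Nat.ModEq.of_dvd hdvd ?_)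
  have h := mult_modEq_left eps (n := p ^ n) hpos.ne'
  have hfac : (p ^ n).factorization p = n := by
    rw [Nat.Prime.factorization_pow hp.out]
    simp
  rw [hfac] at h
  exact h

/-- on the prime-to-`p` torsion `epsHom` is the identity. -/
theorem epsHom_apply_of_coprime {t : QZ} {n : ℕ} (hn : Nat.Coprime p n) (ht : n • t = 0) :
    epsHom eps heps t = t := by
  have hn0 : n ≠ 0 := by
    rintro rfl
    rw [Nat.coprime_zero_right] at hn
    exact hp.out.one_lt.ne' hn
  rw [epsHom, cohHom_apply_of_nsmul _ _ (Nat.pos_of_ne_zero hn0) ht]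
  have hdvd : addOrderOf t ∣ n := addOrderOf_dvd_of_nsmul_eq_zero ht
  have hfac : n.factorization p = 0 :=
    Nat.factorization_eq_zero_of_not_dvd ((Nat.Prime.coprime_iff_not_dvd hp.out).1 hn)
  have h := mult_modEq_right eps (n := n) hn0
  rw [hfac, pow_zero, Nat.div_one] at h
  have h1 : mult eps n • t = 1 • t :=
    (nsmul_eq_nsmul_iff_modEq (x := t)).2 (Nat.ModEq.of_dvd hdvd h)
  rw [h1, one_smul]

theorem epsHom_injective : Function.Injective (epsHom eps heps) :=
  cohHom_injective _ _ (fun _ hn => coprime_mult eps hn)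

theorem epsHom_nsmul_eq_zero_iff (m : ℕ) (t : QZ) : m • epsHom eps heps t = 0 ↔ m • t = 0 := by
  rw [← map_nsmul]
  exact ⟨fun h => epsHom_injective eps heps (by rw [h, map_zero]), fun h => by rw [h, map_zero]⟩

end Eps

end Fermat.Agent.S55.CycloRecip37.EpsHom
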