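/-
S55 / leaf 34-CYCLO-RECIP (helper37): THE SEAM 22b → 34.  The only arithmetic input of
`TowerRecip.tower_reciprocity` is a `WildFamily p QZ`.  Here it is produced from helper93's
`UnrExt93.InvFamily p` (local invariants of all finite extensions of `ℚ_p`), and the latter from
helper28's cochain form `LocInv28.Main.PresCochain K` of "every Brauer class is unramified"
(helper81's bridge from helper80's `LocInv80.LF.main_LF`).

* `fixK_eq_of_comap_eq`: fixed fields of subgroups with the same preimage in `Gal(Ω/ℚ_q)` agree.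
* `inv_inflClass_eq`: the invariant of an inflated class only depends on the inflation.
* `isCobOn_of_infl₂_mem_B₂`: `Br(E/K) ↪ Br(K)` in cochain form (explicit inflation–restriction,
  Hilbert 90 in the limit = helper86's `KummerBr86.Hilbert90Lim.exists_units_of_cocycle`).
* `locSysE_inj`: the local system of helper93 is injective on every `H²(D', Eˣ)`.
* `wildFamily I : WildFamily p QZ`, `invFamily hP : InvFamily q`,
  `tower_reciprocity_of_presCochain`.
-/
import Mathlib
import Fermat.Agent.S55.CycloRecip37.TowerRecip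
import Fermat.Agent.S55.UnrExt93.LocSys
import Fermat.Agent.S55.LocInv28.Main

set_option autoImplicit false
set_option linter.unusedSectionVars false

namespace Fermat.Agent.S55.CycloRecip37.WildInst

open Fermat.Agent.S55.LocField17 Fermat.Agent.S55.Profin15 Fermat.Agent.S55.UnrExt93
  Fermat.Agent.S55.LocInv28.Abstract Fermat.Agent.S55.LocInv28.Padic
  Fermat.Agent.S55.CycloRecip37.GSys groupCohomology

/-! ### inflation–restriction, cochain form (pure algebra) -/

section Abstract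

variable {G : Type} [Group G] (A : Rep ℤ G)

/-- the normalisation step of inflation–restriction: a 1-cochain `y` whose coboundary `F` vanishes
as soon as one argument lies in the normal subgroup `N`, and whose restriction to `N` is the
coboundary of `b`, can be corrected to a cochain constant modulo `N` with `N`-invariant values. -/
theorem infres_descend (N : Subgroup G) [N.Normal] (F : G × G → A) (y : G → A)
    (hy : ∀ g h, A.ρ g (y h) - y (g * h) + y g = F (g, h))
    (hF1 : ∀ g, ∀ n ∈ N, F (g, n) = 0) (hF2 : ∀ n ∈ N, ∀ g, F (n, g) = 0)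
    (b : A) (hb : ∀ n ∈ N, y n = A.ρ n b - b) :
    ∃ z : G → A, (∀ g h, A.ρ g (z h) - z (g * h) + z g = F (g, h)) ∧
      (∀ g, ∀ n ∈ N, z (g * n) = z g) ∧ (∀ n ∈ N, ∀ g, A.ρ n (z g) = z g) := by
  have hz1 : ∀ g h, A.ρ g (y h - (A.ρ h b - b)) - (y (g * h) - (A.ρ (g * h) b - b)) +
      (y g - (A.ρ g b - b)) = F (g, h) := by
    intro g h
    rw [← hy g h]
    simp only [map_sub, map_mul, Module.End.mul_apply]
    abel
  have hzN : ∀ n ∈ N, y n - (A.ρ n b - b) = 0 := fun n hn => by rw [hb n hn, sub_self]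
  have hz2 : ∀ g, ∀ n ∈ N, y (g * n) - (A.ρ (g * n) b - b) = y g - (A.ρ g b - b) := by
    intro g n hn
    have h1 := hz1 g n
    rw [hzN n hn, map_zero, hF1 g n hn, zero_sub, neg_add_eq_zero] at h1
    exact h1
  refine ⟨fun g => y g - (A.ρ g b - b), hz1, hz2, fun n hn g => ?_⟩
  have h1 := hz1 n g
  rw [hzN n hn, add_zero, hF2 n hn g, sub_eq_zero] at h1
  show A.ρ n (y g - (A.ρ g b - b)) = y g - (A.ρ g b - b)
  rw [h1]
  have h2 : n * g = g * (g⁻¹ * n * g) := by group
  have h3 : g⁻¹ * n * g ∈ N := by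
    have := ‹N.Normal›.conj_mem n hn g⁻¹
    rwa [inv_inv] at this
  rw [h2]
  exact hz2 g _ h3

end Abstract

variable {q : ℕ} [Fact q.Prime]

/-! ### fixed fields and inflation invariance -/

section Transport

variable {E E' : LF q} [FiniteDimensional ℚ_[q] E] [Normal ℚ_[q] E] [FiniteDimensional ℚ_[q] E']
  [Normal ℚ_[q] E']

theorem fixingSubgroup_fixK (D' : Subgroup (E ≃ₐ[ℚ_[q]] E)) :
    (fixK E D').fixingSubgroup = D'.comap (UnrExt93.resE E) := by
  ext g
  exact mem_fixingSubgroup_fixK_iff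

/-- subgroups of `Gal(E/ℚ_q)`, `Gal(E'/ℚ_q)` with the same preimage in `Gal(Ω/ℚ_q)` have the same
fixed field. -/
theorem fixK_eq_of_comap_eq {D' : Subgroup (E ≃ₐ[ℚ_[q]] E)} {D'' : Subgroup (E' ≃ₐ[ℚ_[q]] E')}
    (h : D'.comap (UnrExt93.resE E) = D''.comap (UnrExt93.resE E')) :
    fixK E D' = fixK E' D'' := by
  rw [← InfiniteGalois.fixedField_fixingSubgroup (fixK E D'),
    ← InfiniteGalois.fixedField_fixingSubgroup (fixK E' D''), fixingSubgroup_fixK,
    fixingSubgroup_fixK, h]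

theorem fixK_top_eq : fixK E (⊤ : Subgroup (E ≃ₐ[ℚ_[q]] E)) = fixK E' ⊤ :=
  fixK_eq_of_comap_eq (by rw [Subgroup.comap_top, Subgroup.comap_top])

/-- the invariant only depends on the underlying cocycle (transport along an equality of
fields). -/
theorem inv_H2π_eq_of_eq (I : InvFamily q) {K K' : LF q} [FiniteDimensional ℚ_[q] K]
    [FiniteDimensional ℚ_[q] K'] (h : K = K') (c : ↥((I.lev K).Z₂ (AK K)))
    (c' : ↥((I.lev K').Z₂ (AK K')))
    (hcc : ∀ (g a : Gq q) (hg : g ∈ K.fixingSubgroup) (ha : a ∈ K.fixingSubgroup)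
      (hg' : g ∈ K'.fixingSubgroup) (ha' : a ∈ K'.fixingSubgroup),
      valΩ K ((c : GK K × GK K → AK K) (⟨g, hg⟩, ⟨a, ha⟩)) =
        valΩ K' ((c' : GK K' × GK K' → AK K') (⟨g, hg'⟩, ⟨a, ha'⟩))) :
    (I.isInv K).inv ((I.lev K).H2π (AK K) c) = (I.isInv K').inv ((I.lev K').H2π (AK K') c') := by
  subst h
  have hc : c = c' := by
    apply Subtype.ext
    funext x
    obtain ⟨g, a⟩ := x
    exact valΩ_injective K (hcc g.1 a.1 g.2 a.2 g.2 a.2)
  rw [hc]

/-- **inflation invariance**: the invariant of the inflation of a cocycle only depends on the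
inflation to `Gal(Ω/ℚ_q)`. -/
theorem inv_inflClass_eq (I : InvFamily q) {D' : Subgroup (E ≃ₐ[ℚ_[q]] E)}
    {D'' : Subgroup (E' ≃ₐ[ℚ_[q]] E')} (h : fixK E D' = fixK E' D'')
    {f : (E ≃ₐ[ℚ_[q]] E) × (E ≃ₐ[ℚ_[q]] E) → unitsE E}
    {f' : (E' ≃ₐ[ℚ_[q]] E') × (E' ≃ₐ[ℚ_[q]] E') → unitsE E'}
    (hf : IsCocOn (unitsE E) D' f) (hf' : IsCocOn (unitsE E') D'' f')
    (hff' : ∀ g a : Gq q, UnrExt93.resE E g ∈ D' → UnrExt93.resE E a ∈ D' →
      (((Additive.toMul (f (UnrExt93.resE E g, UnrExt93.resE E a) : Additive (↥E)ˣ) : (↥E)ˣ) : E) :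
        PadicAlgCl q) =
      (((Additive.toMul (f' (UnrExt93.resE E' g, UnrExt93.resE E' a) : Additive (↥E')ˣ) :
        (↥E')ˣ) : E') : PadicAlgCl q)) :
    (I.isInv (fixK E D')).inv (inflClass I E D' f hf) =
      (I.isInv (fixK E' D'')).inv (inflClass I E' D'' f' hf') := by
  unfold inflClass
  refine inv_H2π_eq_of_eq I h _ _ fun g a hg ha hg' ha' => ?_
  show valΩ _ (inclE E _ (f (UnrExt93.resE E g, UnrExt93.resE E a))) =
    valΩ _ (inclE E' _ (f' (UnrExt93.resE E' g, UnrExt93.resE E' a)))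
  rw [valΩ_inclE, valΩ_inclE]
  exact hff' g a (mem_fixingSubgroup_fixK_iff.1 hg) (mem_fixingSubgroup_fixK_iff.1 ha)

end Transport

/-! ### `Br(E/K) ↪ Br(K)`, cochain form -/

section Inj

variable {E : LF q} [FiniteDimensional ℚ_[q] E] [Normal ℚ_[q] E]

theorem inclE_injective (K : LF q) : Function.Injective (inclE E K) := by
  intro u v h
  have h1 := congrArg (valΩ K) h
  rw [valΩ_inclE, valΩ_inclE] at h1
  apply Additive.toMul.injective
  apply Units.ext
  exact Subtype.ext h1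

/-- an element of `Ωˣ` fixed by `Gal(Ω/E)` comes from `Eˣ`. -/
theorem exists_inclE_eq (K : LF q) (a : AK K)
    (ha : ∀ s ∈ E.fixingSubgroup, s (valΩ K a) = valΩ K a) : ∃ u : unitsE E, inclE E K u = a := by
  have hmem : valΩ K a ∈ E := mem_of_fixed ha
  have hne : (⟨valΩ K a, hmem⟩ : E) ≠ 0 := fun h =>
    valΩ_ne_zero K a (congrArg (fun z : E => (z : PadicAlgCl q)) h)
  refine ⟨(Additive.ofMul (Units.mk0 (⟨valΩ K a, hmem⟩ : E) hne) : Additive (↥E)ˣ), ?_⟩
  apply valΩ_injective K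
  rfl

/-- **`Br(E/K) ↪ Br(K)` in cochain form**: a cocycle on `D' ≤ Gal(E/ℚ_q)` whose inflation to
`G_K`, `K = E^{D'}`, is a level coboundary, is a coboundary on `D'`. -/
theorem isCobOn_of_infl₂_mem_B₂' (K : LF q) {D' : Subgroup (E ≃ₐ[ℚ_[q]] E)} (hKE : K ≤ E)
    (hKD : ∀ g : Gq q, g ∈ K.fixingSubgroup ↔ UnrExt93.resE E g ∈ D')
    {𝒰 : LevelStr (GK K)} (h𝒰 : GoodLevels K 𝒰)
    {f : (E ≃ₐ[ℚ_[q]] E) × (E ≃ₐ[ℚ_[q]] E) → unitsE E} (hf : IsCocOn (unitsE E) D' f)
    (hB : infl₂ E K f ∈ 𝒰.B₂ (AK K)) : IsCobOn (unitsE E) D' f := by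
  classical
  rw [LevelStr.mem_B₂_iff] at hB
  obtain ⟨y, ⟨U, hU, hyU⟩, hdy⟩ := hB
  -- the projection `G_K → Gal(E/ℚ_q)`
  let πh : GK K →* (E ≃ₐ[ℚ_[q]] E) := (UnrExt93.resE E).comp K.fixingSubgroup.subtype
  have hπ : ∀ g : GK K, πh g = UnrExt93.resE E (g : Gq q) := fun _ => rfl
  have hπD : ∀ g : GK K, πh g ∈ D' := fun g => (hKD _).1 g.2
  have hy : ∀ g h : GK K, (AK K).ρ g (y h) - y (g * h) + y g =
      inclE E K (f (πh g, πh h)) := fun g h => by
    have := congrFun hdy (g, h)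
    rwa [d₁₂_hom_apply] at this
  have hρ : ∀ (g : GK K) (u : unitsE E),
      (AK K).ρ g (inclE E K u) = inclE E K ((unitsE E).ρ (πh g) u) := fun g u => rho_inclE E K g u
  -- normalisation constants
  set u₀ : unitsE E := f (1, 1) with hu₀
  have h1D : (1 : E ≃ₐ[ℚ_[q]] E) ∈ D' := D'.one_mem
  have hfa : ∀ σ ∈ D', f (σ, 1) = (unitsE E).ρ σ u₀ := fun σ hσ => by
    have := hf σ hσ 1 h1D 1 h1D
    rw [mul_one, mul_one, sub_add_cancel, sub_eq_zero] at this
    exact this.symm
  have hfb : ∀ τ ∈ D', f (1, τ) = u₀ := fun τ hτ => by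
    have := hf 1 h1D 1 h1D τ hτ
    rw [one_mul, one_mul, map_one, Module.End.one_apply, sub_self, zero_add, sub_eq_zero] at this
    exact this
  let N : Subgroup (GK K) := πh.ker
  let F : GK K × GK K → AK K := fun p =>
    inclE E K (f (πh p.1, πh p.2)) - (AK K).ρ p.1 (inclE E K u₀)
  let y' : GK K → AK K := fun g => y g - inclE E K u₀
  have hy' : ∀ g h, (AK K).ρ g (y' h) - y' (g * h) + y' g = F (g, h) := fun g h => by
    show (AK K).ρ g (y h - inclE E K u₀) - (y (g * h) - inclE E K u₀) + (y g - inclE E K u₀) =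
      inclE E K (f (πh g, πh h)) - (AK K).ρ g (inclE E K u₀)
    rw [← hy g h, map_sub]
    abel
  have hF1 : ∀ g, ∀ n ∈ N, F (g, n) = 0 := fun g n hn => by
    have hn1 : πh n = 1 := hn
    show inclE E K (f (πh g, πh n)) - (AK K).ρ g (inclE E K u₀) = 0
    rw [hn1, hfa _ (hπD g), hρ, sub_self]
  have hF2 : ∀ n ∈ N, ∀ g, F (n, g) = 0 := fun n hn g => by
    have hn1 : πh n = 1 := hn
    show inclE E K (f (πh n, πh g)) - (AK K).ρ n (inclE E K u₀) = 0
    rw [hn1, hfb _ (hπD g), hρ, hn1, map_one, Module.End.one_apply, sub_self]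
  -- Hilbert 90 on `N`
  obtain ⟨b, hb⟩ : ∃ b : AK K, ∀ n ∈ N, y' n = (AK K).ρ n b - b := by
    obtain ⟨T, hT⟩ := h𝒰.closed U hU
    have hfin := 𝒰.finiteIndex U hU
    let φ : N →* (PadicAlgCl q ≃ₐ[ℚ_[q]] PadicAlgCl q) := K.fixingSubgroup.subtype.comp N.subtype
    obtain ⟨b, hb⟩ := KummerBr86.Hilbert90Lim.exists_units_of_cocycle φ (U.subgroupOf N)
      (fun z => Additive.toMul (y' (z : GK K) : Additive (PadicAlgCl q)ˣ)) T
      (fun z => by rw [Subgroup.mem_subgroupOf]; exact hT (z : GK K))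
      (fun g h => by
        have h1 := hy' (g : GK K) (h : GK K)
        rw [hF1 _ _ h.2, sub_add_eq_add_sub, sub_eq_zero] at h1
        have h2 : y' ((g : GK K) * (h : GK K)) =
            y' (g : GK K) + (AK K).ρ (g : GK K) (y' (h : GK K)) := by
          rw [← h1, add_comm]
        exact congrArg (fun z : Additive (PadicAlgCl q)ˣ => Additive.toMul z) h2)
      (fun g t ht => by
        have := hyU (g : GK K) (t : GK K) (Subgroup.mem_subgroupOf.1 ht)
        show Additive.toMul (y ((g : GK K) * (t : GK K)) - inclE E K u₀ :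
          Additive (PadicAlgCl q)ˣ) = Additive.toMul (y (g : GK K) - inclE E K u₀ :
          Additive (PadicAlgCl q)ˣ)
        rw [this])
    refine ⟨(Additive.ofMul b : Additive (PadicAlgCl q)ˣ), fun n hn => ?_⟩
    have := hb ⟨n, hn⟩
    exact congrArg (fun w : (PadicAlgCl q)ˣ => (Additive.ofMul w : Additive (PadicAlgCl q)ˣ)) this
  have hNn : N.Normal := MonoidHom.normal_ker πh
  obtain ⟨z, hz1, hz2, hz3⟩ := infres_descend (AK K) N F y' hy' hF1 hF2 b hb
  -- the values of `z` lie in `Eˣ`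
  have hzE : ∀ g, ∃ u : unitsE E, inclE E K u = z g := fun g => by
    refine exists_inclE_eq K (z g) fun s hs => ?_
    have hsK : s ∈ K.fixingSubgroup :=
      IntermediateField.fixingSubgroup_antitone hKE hs
    have hsN : (⟨s, hsK⟩ : GK K) ∈ N := by
      show πh ⟨s, hsK⟩ = 1
      rw [hπ]
      exact resE_eq_one_of_fixes E ((IntermediateField.mem_fixingSubgroup_iff _ _).1 hs)
    have := hz3 _ hsN g
    exact (ρ_eq_iff K ⟨s, hsK⟩ (z g)).1 this
  choose zu hzu using hzE
  -- `z` only depends on the image in `Gal(E/ℚ_q)`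
  have hzπ : ∀ g g' : GK K, πh g = πh g' → z g = z g' := fun g g' h => by
    have h1 : g⁻¹ * g' ∈ N := by
      show πh (g⁻¹ * g') = 1
      rw [map_mul, map_inv, h, inv_mul_cancel]
    have h2 := hz2 g _ h1
    rw [mul_inv_cancel_left] at h2
    exact h2.symm
  -- lifts
  have hsurj : ∀ σ : (E ≃ₐ[ℚ_[q]] E), σ ∈ D' → ∃ g : GK K, πh g = σ := fun σ hσ => by
    obtain ⟨τ, rfl⟩ := resE_surjective E σ
    exact ⟨⟨τ, (hKD τ).2 hσ⟩, rfl⟩
  let c : (E ≃ₐ[ℚ_[q]] E) → unitsE E := fun σ =>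
    if h : σ ∈ D' then zu (Classical.choose (hsurj σ h)) + u₀ else 0
  have hc : ∀ (g : GK K), inclE E K (c (πh g)) = z g + inclE E K u₀ := fun g => by
    show inclE E K (if h : πh g ∈ D' then zu (Classical.choose (hsurj (πh g) h)) + u₀ else 0) = _
    rw [dif_pos (hπD g), map_add, hzu]
    rw [hzπ _ g (Classical.choose_spec (hsurj (πh g) (hπD g)))]
  refine ⟨c, fun σ hσ τ hτ => ?_⟩
  obtain ⟨g, rfl⟩ := hsurj σ hσ
  obtain ⟨h, rfl⟩ := hsurj τ hτ
  apply inclE_injective K
  rw [map_add, map_sub, ← hρ, ← map_mul, hc, hc, hc, map_add]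
  have := hz1 g h
  show (AK K).ρ g (z h) + (AK K).ρ g (inclE E K u₀) - (z (g * h) + inclE E K u₀) +
    (z g + inclE E K u₀) = inclE E K (f (πh g, πh h))
  have hF : F (g, h) = inclE E K (f (πh g, πh h)) - (AK K).ρ g (inclE E K u₀) := rfl
  rw [hF] at this
  rw [eq_sub_iff_add_eq] at this
  rw [← this]
  abel

theorem isCobOn_of_infl₂_mem_B₂ {D' : Subgroup (E ≃ₐ[ℚ_[q]] E)}
    {𝒰 : LevelStr (GK (fixK E D'))} (h𝒰 : GoodLevels (fixK E D') 𝒰)
    {f : (E ≃ₐ[ℚ_[q]] E) × (E ≃ₐ[ℚ_[q]] E) → unitsE E} (hf : IsCocOn (unitsE E) D' f)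
    (hB : infl₂ E (fixK E D') f ∈ 𝒰.B₂ (AK (fixK E D'))) : IsCobOn (unitsE E) D' f :=
  isCobOn_of_infl₂_mem_B₂' (fixK E D') (fixK_le D') (fun _ => mem_fixingSubgroup_fixK_iff) h𝒰 hf hB

/-- **the local system is injective on `H²(D', Eˣ)`**. -/
theorem locSysE_inj (I : InvFamily q) {D' : Subgroup (E ≃ₐ[ℚ_[q]] E)}
    {f : (E ≃ₐ[ℚ_[q]] E) × (E ≃ₐ[ℚ_[q]] E) → unitsE E} (hf : IsCocOn (unitsE E) D' f)
    (h0 : (locSysE I E).S D' f = 0) : IsCobOn (unitsE E) D' f := by
  rw [locSysE_S, locS_of_isCocOn I E hf] at h0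
  have h1 : inflClass I E D' f hf = 0 := by
    apply (I.isInv (fixK E D')).inv_injective
    rw [h0, map_zero]
  unfold inflClass at h1
  rw [LevelStr.H2π_eq_zero_iff] at h1
  exact isCobOn_of_infl₂_mem_B₂ (I.good (fixK E D')) hf h1

end Inj

/-! ### the wild family -/

section Wild

open Fermat.Agent.S55.Idele73.Basic Fermat.Agent.S55.QZ33
open Fermat.Agent.S55.CycloRecip37.TowerRecip

variable {p : ℕ} [hp : Fact p.Prime]

/-- **the wild family of leaf 34 from a family of local invariants at `p`**. -/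
noncomputable def wildFamily (I : InvFamily p) : WildFamily p QZ where
  sys L _ _ := locSysE I (Idele73.Local.Elev p L)
  infl L L' _ _ _ _ f f' hf hf' hff' := by
    show locS I (Idele73.Local.Elev p L) ⊤ f = locS I (Idele73.Local.Elev p L') ⊤ f'
    rw [locS_of_isCocOn I _ hf, locS_of_isCocOn I _ hf']
    refine inv_inflClass_eq I fixK_top_eq hf hf' fun g a _ _ => ?_
    have := congrArg (fun w : (Idele73.Basic.localUnits p).V =>
      ((Additive.toMul w : (PadicAlgCl p)ˣ) : PadicAlgCl p)) (hff' g a)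
    exact this
  inj L _ _ f hf h0 := locSysE_inj I hf h0

@[simp] lemma wildFamily_sys (I : InvFamily p) (L : IntermediateField ℚ Qbar) [Normal ℚ L]
    [FiniteDimensional ℚ L] : (wildFamily I).sys L = locSysE I (Idele73.Local.Elev p L) := rfl

end Wild

/-! ### the family of local invariants from the cochain form of `pres` -/

section Family

open Fermat.Agent.S55.LocInv28.Main Fermat.Agent.S55.KummerBr95

/-- conjugation is continuous for the Krull levels. -/
theorem isContinuous_conjHom_levelsK {K K' : LF q} (τ : Gq q) (hτ : ∀ x ∈ K, τ x ∈ K') :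
    LevelStr.IsContinuous (levelsK K') (levelsK K) (conjHom τ hτ) := by
  rintro U ⟨V, hV, rfl⟩
  refine ⟨V.comap K'.fixingSubgroup.subtype, ⟨V, hV, rfl⟩, fun s hs => ?_⟩
  have hVn : V.Normal := hV.1
  show τ⁻¹ * (s : Gq q) * τ ∈ V
  have := hVn.conj_mem (s : Gq q) hs τ⁻¹
  rwa [inv_inv] at this

/-- **the family of local invariants on the Krull levels**, from the cochain form of `pres`
for every finite extension of `ℚ_q`. -/
noncomputable def invFamily
    (hP : ∀ (K : LF q) [FiniteDimensional ℚ_[q] K], PresCochain K) : InvFamily q where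
  lev K := levelsK K
  good K _ := goodLevels_levelsK K
  isInv K _ := isLocalInv_of_presCochain K (hP K)
  cont_incl h := isContinuous_inclG h
  cont_conj τ hτ := isContinuous_conjHom_levelsK τ hτ

end Family

/-! ### leaf 34 from `pres` -/

section Final

open Fermat.Agent.S55.LocInv28.Main

variable {p : ℕ} [hp : Fact p.Prime]

/-- the wild family from the cochain form of `pres` at `p`. -/
noncomputable def wildFamilyOfPres
    (hP : ∀ (K : LF p) [FiniteDimensional ℚ_[p] K], PresCochain K) :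
    TowerRecip.WildFamily p QZ33.QZ :=
  wildFamily (invFamily hP)

open Fermat.Agent.S55.Idele73.Basic Fermat.Agent.S55.QZ33 Fermat.Agent.S55.CycloGlobal87
  Fermat.Agent.S55.GlobalInv91 Fermat.Agent.S55.CycloRecip37.IdeleSys
  Fermat.Agent.S55.CycloRecip37.TowerRecip in
/-- **LEAF 34 FROM `pres` AT `p`**: reciprocity for the tower classes over every `K = L^H`, with
the local terms at `p` computed by helper28's invariants `inv_{K_v}` (through helper93's
`locSysE`), from the single input "every Brauer class of a finite extension of `ℚ_p` is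
unramified" in cochain form. -/
theorem tower_reciprocity_of_presCochain (hp2 : p ≠ 2)
    (hP : ∀ (K : LF p) [FiniteDimensional ℚ_[p] K], PresCochain K) :
    ∃ eps : ∀ n, (ZMod (p ^ n))ˣ,
      (∀ n, ThetaUnit.red p n (eps (n + 1) : ZMod (p ^ (n + 1))) = eps n) ∧
      ∀ (L : IntermediateField ℚ Qbar) [Normal ℚ L] [FiniteDimensional ℚ L] (m s : ℕ)
        (h' : towerField p (m + s) ≤ L) (N : ℕ) (_hN : m + s ≤ N)
        (T : Finset Nat.Primes) (_hT : ∀ q ∈ T, (q : ℕ) ≠ p)
        (Qt : Nat.Primes → Sys (Lx L) QZ)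
        (_hQt : ∀ q ∈ T, ∀ b₀ : ℚˣ,
          (Qt q).S ⊤ (carry (Lx L) (towerCharL p L hp2 (m + s) h') (ratUnit L b₀)) =
            tameVal hp2 q (m + s) b₀)
        (H : Subgroup (GalL L)) (_hs : ∀ i, p ^ i ∣ H.normalCore.index → i ≤ s)
        (a : Lx L) (_ha : ∀ g ∈ H, (Lx L).ρ g a = a)
        (_hsupp : ∀ (b₀ : ℚˣ) (c : Finset (GalL L)), ratUnit L b₀ = ∑ g ∈ c, (Lx L).ρ g a →
          ∀ q : Nat.Primes, (q : ℕ) ≠ p → padicValRat q (b₀ : ℚ) ≠ 0 → q ∈ T),
        ∑ q ∈ T, (Qt q).S H (carry (Lx L)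
            (towerCharL p L hp2 m ((towerField_mono p (Nat.le_add_right m s)).trans h')) a) +
          ((eps N : ZMod (p ^ N)).val) •
            (qSys L (pp p) (locSysE (invFamily hP) (Idele73.Local.Elev p L))
              (AddMonoidHom.id QZ)).S H (carry (Lx L)
              (towerCharL p L hp2 m ((towerField_mono p (Nat.le_add_right m s)).trans h')) a)
          = 0 :=
  tower_reciprocity hp2 (wildFamilyOfPres hP)

end Final

end Fermat.Agent.S55.CycloRecip37.WildInst
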