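/-
S55 / leaf 34-CYCLO-RECIP (helper37): LEAF 34 UNCONDITIONALLY.  With `pres` closed
(helper71 `P2Local71.presCochain`, helper95 `KummerBr95.localPres`) the local systems
`UnrExt93.locSys q L (localPres q)` of helper93 exist without hypotheses; the wild family of
`TowerRecip` is built from them (`WildInst.wildFamily`), so `tower_reciprocity` holds for every
odd prime `p` with no further input.
-/
import Mathlib
import Fermat.Agent.S55.CycloRecip37.WildInst
import Fermat.Agent.S55.UnrExt93.LocSysInst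
import Fermat.Agent.S55.KummerBr95.PresFinal

set_option autoImplicit false
set_option linter.unusedSectionVars false

namespace Fermat.Agent.S55.CycloRecip37.Uncond

open Fermat.Agent.S55.Idele73.Basic Fermat.Agent.S55.Idele73.Local
  Fermat.Agent.S55.CycloRecip37.GSys Fermat.Agent.S55.CycloRecip37.IdeleSys
  Fermat.Agent.S55.CycloRecip37.TowerRecip Fermat.Agent.S55.CycloRecip37.WildInst
  Fermat.Agent.S55.GlobalInv91 Fermat.Agent.S55.CycloGlobal87 Fermat.Agent.S55.QZ33

/-- **the local system of invariants at `q`** for the finite Galois level `L / ℚ`,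
unconditionally: `S D' f = inv_{E^{D'}} [infl f]` on `(Gal(E/ℚ_q), Eˣ)`, `E = ℚ_q(ι L)`. -/
noncomputable def locSysU (q : Nat.Primes) (L : IntermediateField ℚ Qbar) [Normal ℚ L]
    [FiniteDimensional ℚ L] : Sys (EUnits (q : ℕ) L) QZ :=
  UnrExt93.locSys q L (KummerBr95.localPres q)

variable (p : ℕ) [hp : Fact p.Prime]

/-- **the wild family at `p`**, unconditionally. -/
noncomputable def wildFamilyU : WildFamily p QZ :=
  wildFamily (UnrExt93.invFamilyOfPres (pp p) (KummerBr95.localPres (pp p)))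

lemma wildFamilyU_sys (L : IntermediateField ℚ Qbar) [Normal ℚ L] [FiniteDimensional ℚ L] :
    (wildFamilyU p).sys L = locSysU (pp p) L := rfl

variable {p}

/-- **RECIPROCITY FOR THE TOWER CLASSES (leaf 34), UNCONDITIONALLY.**  One compatible family of
units `ε_n ∈ (ℤ/p^n)ˣ` such that for every level `L ⊇ ℚ_{m+s}`, every `H ≤ Gal(L/ℚ)` (`K = L^H`)
with `p^s ≥` the `p`-part of the degree of the Galois closure of `K`, every `a ∈ Kˣ`, every finite
`T` of primes `≠ p` containing the support of the norms of `a`, and ANY systems `Qt q` (`q ∈ T`)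
with the unramified base formula:
`∑_{q ∈ T} (Qt q)_K (δχ_m ∪ a) + ε · ∑_{v | p} inv_v (δχ_m ∪ a) = 0`, the terms at `p` being
helper28's local invariants (through helper93's `locSys`). -/
theorem tower_reciprocity_uncond (hp2 : p ≠ 2) :
    ∃ eps : ∀ n, (ZMod (p ^ n))ˣ,
      (∀ n, ThetaUnit.red p n (eps (n + 1) : ZMod (p ^ (n + 1))) = eps n) ∧
      ∀ (L : IntermediateField ℚ Qbar) [Normal ℚ L] [FiniteDimensional ℚ L] (m s : ℕ)
        (h' : towerField p (m + s) ≤ L) (N : ℕ) (_hN : m + s ≤ N)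
        (T : Finset Nat.Primes) (_hT : ∀ q ∈ T, (q : ℕ) ≠ p)
        (Qt : Nat.Primes → Sys (Lx L) QZ)
        (_hQt : ∀ q ∈ T, ∀ b₀ : ℚˣ,
          (Qt q).S ⊤ (carry (Lx L) (towerCharL p L hp2 (m + s) h') (ratUnit L b₀)) =
            tameVal hp2 q (m + s) b₀)
        (H : Subgroup (GalL L)) (_hs : ∀ i, p ^ i ∣ H.normalCore.index → i ≤ s)
        (a : Lx L) (_ha : ∀ g ∈ H, (Lx L).ρ g a = a)
        (_hsupp : ∀ (b₀ : ℚˣ) (c : Finset (GalL L)), ratUnit L b₀ = ∑ g ∈ c, (Lx L).ρ g a →
          ∀ q : Nat.Primes, (q : ℕ) ≠ p → padicValRat q (b₀ : ℚ) ≠ 0 → q ∈ T),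
        ∑ q ∈ T, (Qt q).S H (carry (Lx L)
            (towerCharL p L hp2 m ((towerField_mono p (Nat.le_add_right m s)).trans h')) a) +
          ((eps N : ZMod (p ^ N)).val) •
            (qSys L (pp p) (locSysU (pp p) L) (AddMonoidHom.id QZ)).S H (carry (Lx L)
              (towerCharL p L hp2 m ((towerField_mono p (Nat.le_add_right m s)).trans h')) a)
          = 0 :=
  tower_reciprocity hp2 (wildFamilyU p)

end Fermat.Agent.S55.CycloRecip37.Uncond
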