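/-
S55 / leaf 34 → 35 (helper37): CHANGE OF LEVEL for the local systems of invariants.

For `E ≤ E'` finite normal over `ℚ_q` inside `Ω`: the restriction `resEE : Gal(E'/ℚ_q) → Gal(E/ℚ_q)`,
the inclusion `inclEE : Eˣ → E'ˣ`, and **inflation invariance of helper93's local system**:
`(locSysE I E').S (ρ⁻¹ N) (φ ∘ c ∘ (ρ × ρ)) = (locSysE I E).S N c` for every cocycle `c` on
`N ≤ Gal(E/ℚ_q)` (both sides are `inv_K` of the same class of `Br(K)`, `K = E^N`).
Specialisation to the levels `L ≤ L'` of the Idele73 model: `resDE`, `inclEU`, `jE_resDE`,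
`locSysU_infl` (= the hypothesis `hloc` of helper54's `CoindInfl.coindSys_infl`).
-/
import Mathlib
import Fermat.Agent.S55.CycloRecip37.Uncond

set_option autoImplicit false
set_option linter.unusedSectionVars false

namespace Fermat.Agent.S55.CycloRecip37.LocInfl

open Fermat.Agent.S55.LocField17 Fermat.Agent.S55.Profin15 Fermat.Agent.S55.UnrExt93
  Fermat.Agent.S55.LocInv28.Abstract Fermat.Agent.S55.LocInv28.Padic
  Fermat.Agent.S55.CycloRecip37.GSys Fermat.Agent.S55.CycloRecip37.WildInst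

/-! ### general form, inside `Ω = PadicAlgCl q` -/

section General

variable {q : ℕ} [Fact q.Prime] {E E' : LF q} [FiniteDimensional ℚ_[q] E] [Normal ℚ_[q] E]
  [FiniteDimensional ℚ_[q] E'] [Normal ℚ_[q] E']

lemma ker_resE_le (h : E ≤ E') : (UnrExt93.resE E').ker ≤ (UnrExt93.resE E).ker := by
  intro τ hτ
  rw [MonoidHom.mem_ker] at hτ ⊢
  refine resE_eq_one_of_fixes E fun x hx => ?_
  have h1 := UnrExt93.resE_apply E' τ ⟨x, h hx⟩
  rw [hτ] at h1
  exact h1.symm

/-- the restriction `Gal(E'/ℚ_q) → Gal(E/ℚ_q)`. -/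
noncomputable def resEE (h : E ≤ E') : (E' ≃ₐ[ℚ_[q]] E') →* (E ≃ₐ[ℚ_[q]] E) :=
  (UnrExt93.resE E').liftOfSurjective (UnrExt93.resE_surjective E')
    ⟨UnrExt93.resE E, ker_resE_le h⟩

lemma resEE_resE (h : E ≤ E') (τ : Gq q) :
    resEE h (UnrExt93.resE E' τ) = UnrExt93.resE E τ :=
  MonoidHom.liftOfRightInverse_comp_apply _ _ _ _ τ

lemma resEE_surjective (h : E ≤ E') : Function.Surjective (resEE h) := by
  intro σ
  obtain ⟨τ, rfl⟩ := UnrExt93.resE_surjective E σ
  exact ⟨UnrExt93.resE E' τ, resEE_resE h τ⟩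

/-- `resEE σ'` is the restriction of `σ'` to `E`. -/
lemma resEE_apply (h : E ≤ E') (σ' : E' ≃ₐ[ℚ_[q]] E') (y : E) :
    ((resEE h σ' y : E) : PadicAlgCl q) = ((σ' ⟨(y : PadicAlgCl q), h y.2⟩ : E') : PadicAlgCl q) := by
  obtain ⟨τ, rfl⟩ := UnrExt93.resE_surjective E' σ'
  rw [resEE_resE, UnrExt93.resE_apply, UnrExt93.resE_apply]

/-- the inclusion `Eˣ → E'ˣ`, additively. -/
noncomputable def inclEE (h : E ≤ E') : unitsE E →+ unitsE E' :=
  (MonoidHom.toAdditive (Units.map ((IntermediateField.inclusion h : E →ₐ[ℚ_[q]] E') : E →* E')) :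
    Additive (↥E)ˣ →+ Additive (↥E')ˣ)

lemma inclE_inclEE (h : E ≤ E') (K : LF q) (u : unitsE E) :
    inclE E' K (inclEE h u) = inclE E K u := by
  apply valΩ_injective K
  rfl

lemma inclEE_rho (h : E ≤ E') (σ' : E' ≃ₐ[ℚ_[q]] E') (u : unitsE E) :
    (unitsE E').ρ σ' (inclEE h u) = inclEE h ((unitsE E).ρ (resEE h σ') u) := by
  apply Additive.toMul.injective
  apply Units.ext
  apply Subtype.ext
  exact (resEE_apply h σ' _).symm

/-- pull-back of a 2-cochain along the change of level. -/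
noncomputable def inflCoch (h : E ≤ E') (c : (E ≃ₐ[ℚ_[q]] E) × (E ≃ₐ[ℚ_[q]] E) → unitsE E) :
    (E' ≃ₐ[ℚ_[q]] E') × (E' ≃ₐ[ℚ_[q]] E') → unitsE E' :=
  fun a => inclEE h (c (resEE h a.1, resEE h a.2))

lemma isCocOn_inflCoch (h : E ≤ E') {N : Subgroup (E ≃ₐ[ℚ_[q]] E)}
    {c : (E ≃ₐ[ℚ_[q]] E) × (E ≃ₐ[ℚ_[q]] E) → unitsE E} (hc : IsCocOn (unitsE E) N c) :
    IsCocOn (unitsE E') (N.comap (resEE h)) (inflCoch h c) := by
  intro g hg a ha l hl
  have := congrArg (inclEE h) (hc _ hg _ ha _ hl)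
  rw [map_zero, map_sub, map_add, map_sub, ← inclEE_rho] at this
  rw [← this]
  simp only [inflCoch, map_mul]

/-- **inflation invariance of the local system** (all subgroups): both sides are the invariant
over `K = E^N` of the class of the inflation of `c` to `G_K`. -/
theorem locSysE_infl (I : InvFamily q) (h : E ≤ E') (N : Subgroup (E ≃ₐ[ℚ_[q]] E))
    (c : (E ≃ₐ[ℚ_[q]] E) × (E ≃ₐ[ℚ_[q]] E) → unitsE E) (hc : IsCocOn (unitsE E) N c) :
    (locSysE I E').S (N.comap (resEE h)) (inflCoch h c) = (locSysE I E).S N c := by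
  have hc' := isCocOn_inflCoch h hc
  rw [locSysE_S, locSysE_S, locS_of_isCocOn I E' hc', locS_of_isCocOn I E hc]
  refine inv_inflClass_eq I (fixK_eq_of_comap_eq ?_) hc' hc fun g a _ _ => ?_
  · ext τ
    rw [Subgroup.mem_comap, Subgroup.mem_comap, Subgroup.mem_comap, resEE_resE]
  · show ((((Additive.toMul (inclEE h (c (resEE h (UnrExt93.resE E' g),
      resEE h (UnrExt93.resE E' a))) : Additive (↥E')ˣ) : (↥E')ˣ) : E') : PadicAlgCl q)) = _
    rw [resEE_resE, resEE_resE]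
    rfl

end General

/-! ### the levels of the Idele73 model -/

section Levels

open Fermat.Agent.S55.Idele73.Basic Fermat.Agent.S55.Idele73.Local
  Fermat.Agent.S55.CycloRecip37.Uncond Fermat.Agent.S55.ProfinLoc80 Fermat.Agent.S55.QZ33

variable (q : ℕ) [Fact q.Prime] {L L' : IntermediateField ℚ Qbar} [Normal ℚ L] [Normal ℚ L']
  [FiniteDimensional ℚ L] [FiniteDimensional ℚ L']

lemma Elev_mono (hle : L ≤ L') : Elev q L ≤ Elev q L' := localLevel_mono q hle

/-- the restriction `Gal(E'/ℚ_q) → Gal(E/ℚ_q)`, `E = ℚ_q(ι L) ≤ E' = ℚ_q(ι L')`. -/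
noncomputable def resDE (hle : L ≤ L') : DE q L' →* DE q L := resEE (Elev_mono q hle)

lemma resDE_resE (hle : L ≤ L') (τ : Idele73.Basic.Gq q) :
    resDE q hle (Idele73.Local.resE q L' τ) = Idele73.Local.resE q L τ :=
  resEE_resE (Elev_mono q hle) τ

lemma resDE_surjective (hle : L ≤ L') : Function.Surjective (resDE q hle) := resEE_surjective _

/-- the inclusion `Eˣ → E'ˣ`. -/
noncomputable def inclEU (hle : L ≤ L') : EUnits q L →+ EUnits q L' := inclEE (Elev_mono q hle)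

/-- (`hφ` of `CoindInfl`) the inclusion is equivariant along the restriction. -/
lemma inclEU_rho (hle : L ≤ L') (d' : DE q L') (a : EUnits q L) :
    (EUnits q L').ρ d' (inclEU q hle a) = inclEU q hle ((EUnits q L).ρ (resDE q hle d') a) :=
  inclEE_rho (Elev_mono q hle) d' a

/-- (`hcomm` of `CoindInfl`) for any restriction `r : Gal(L'/ℚ) → Gal(L/ℚ)`. -/
lemma jE_resDE (hle : L ≤ L') (r : GalL L' →* GalL L) (hr : r.comp (resL L') = resL L)
    (d' : DE q L') : r (jE q L' d') = jE q L (resDE q hle d') := by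
  obtain ⟨τ, rfl⟩ := Idele73.Local.resE_surjective q L' d'
  rw [resDE_resE, jE_resE, jE_resE, locHom, locHom, ← hr]
  rfl

end Levels

section LevelsU

open Fermat.Agent.S55.Idele73.Basic Fermat.Agent.S55.Idele73.Local
  Fermat.Agent.S55.CycloRecip37.Uncond Fermat.Agent.S55.QZ33
  Fermat.Agent.S55.CycloRecip37.IdeleSys

variable (q : Nat.Primes) {L L' : IntermediateField ℚ Qbar} [Normal ℚ L] [Normal ℚ L']
  [FiniteDimensional ℚ L] [FiniteDimensional ℚ L']

/-- **inflation invariance of the unconditional local systems** (= `hloc` of helper54's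
`CoindInfl.coindSys_infl` with `ρ := resDE`, `φ := inclEU`). -/
theorem locSysU_infl (hle : L ≤ L') (N : Subgroup (DE (q : ℕ) L))
    (c : DE (q : ℕ) L × DE (q : ℕ) L → EUnits (q : ℕ) L) (hc : IsCocOn (EUnits (q : ℕ) L) N c) :
    (locSysU q L').S (N.comap (resDE (q : ℕ) hle))
      (fun a => inclEU (q : ℕ) hle (c (resDE (q : ℕ) hle a.1, resDE (q : ℕ) hle a.2))) =
      (locSysU q L).S N c :=
  locSysE_infl (UnrExt93.invFamilyOfPres q (KummerBr95.localPres q)) (Elev_mono (q : ℕ) hle) N c hc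

end LevelsU

end Fermat.Agent.S55.CycloRecip37.LocInfl
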