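/-
S55 / leaf 34-CYCLO-RECIP, part (a3): the crossing modulus and its character.
helper37.  Mathlib only.

For an odd prime `p`, a finite set `R` of primes (possibly containing `p`), a finite set `avoid`
and `k`, there are a squarefree `m` all of whose prime factors are `≡ 1 mod p`, different from `p`
and outside `R ∪ avoid`, and a SURJECTIVE homomorphism `χ : (ZMod m)ˣ →* ℤ/pⁿ` such that
`p ^ k ∣ orderOf (χ r)` for every `r ∈ R`.
-/
import Fermat.Agent.S55.CycloRecip37.CycSplit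
import Fermat.Agent.S55.CycloRecip37.CharAvoid

namespace Fermat.Agent.S55.CycloRecip37.Modulus

open Fermat.Agent.S55.CycloRecip37

theorem mod_eq_one_of_orderOf (p : ℕ) [hp : Fact p.Prime] {ℓ r j : ℕ} (hℓ : ℓ.Prime)
    (hdiv : ¬ ℓ ∣ r) (hord : orderOf (r : ZMod ℓ) = p ^ (j + 1)) : ℓ % p = 1 := by
  have : Fact ℓ.Prime := ⟨hℓ⟩
  have hr0 : (r : ZMod ℓ) ≠ 0 := fun h => hdiv ((ZMod.natCast_eq_zero_iff _ _).mp h)
  have h1 : (r : ZMod ℓ) ^ (ℓ - 1) = 1 := ZMod.pow_card_sub_one_eq_one hr0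
  have h2 : p ^ (j + 1) ∣ ℓ - 1 := hord ▸ orderOf_dvd_of_pow_eq_one h1
  have h3 : p ∣ ℓ - 1 := (dvd_pow_self p (Nat.succ_ne_zero j)).trans h2
  obtain ⟨c, hc⟩ := h3
  have hℓ2 := hℓ.two_le
  have hℓeq : ℓ = p * c + 1 := by omega
  rw [hℓeq, Nat.mul_add_mod]
  exact Nat.mod_eq_of_lt hp.out.one_lt

/-- Choice of distinct auxiliary primes, one for each `r ∈ R`. -/
theorem exists_aux_primes (p : ℕ) [hp : Fact p.Prime] (hp2 : p ≠ 2) (K : ℕ) (R : Finset ℕ)
    (hR : ∀ r ∈ R, 2 ≤ r) :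
    ∀ avoid : Finset ℕ, ∃ ℓ : ℕ → ℕ, (∀ r ∈ R, (ℓ r).Prime ∧ ℓ r ≠ p ∧ ℓ r ∉ avoid ∧
      ℓ r % p = 1 ∧ ¬ ℓ r ∣ r ∧ p ^ K ∣ orderOf (r : ZMod (ℓ r))) ∧ Set.InjOn ℓ R := by
  classical
  induction R using Finset.induction_on with
  | empty =>
    intro avoid
    exact ⟨fun _ => 0, by simp, by simp⟩
  | insert r₀ R' hr₀ ih =>
    intro avoid
    obtain ⟨ℓ', hℓ', hinj'⟩ := ih (fun r hr => hR r (Finset.mem_insert_of_mem hr)) avoid
    obtain ⟨j, hj, ℓ₀, hprime, hne, hnot, hndvd, hord⟩ :=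
      CycSplit.exists_prime_orderOf_notMem p hp2 r₀ (hR r₀ (Finset.mem_insert_self _ _))
        (avoid ∪ R'.image ℓ') K
    refine ⟨Function.update ℓ' r₀ ℓ₀, ?_, ?_⟩
    · intro r hr
      rcases Finset.mem_insert.mp hr with rfl | hr'
      · rw [Function.update_self]
        refine ⟨hprime, hne, fun h => hnot (Finset.mem_union_left _ h),
          mod_eq_one_of_orderOf p hprime hndvd hord, hndvd, ?_⟩
        rw [hord]
        exact pow_dvd_pow p (by omega)
      · have hrne : r ≠ r₀ := fun h => hr₀ (h ▸ hr')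
        rw [Function.update_of_ne hrne]
        exact hℓ' r hr'
    · intro a ha b hb hab
      rcases Finset.mem_insert.mp (Finset.mem_coe.mp ha) with rfl | ha'
      · rcases Finset.mem_insert.mp (Finset.mem_coe.mp hb) with rfl | hb'
        · rfl
        · exfalso
          have hbne : b ≠ a := fun h => hr₀ (h ▸ hb')
          rw [Function.update_self, Function.update_of_ne hbne] at hab
          exact hnot (Finset.mem_union_right _ (Finset.mem_image.mpr ⟨b, hb', hab.symm⟩))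
      · rcases Finset.mem_insert.mp (Finset.mem_coe.mp hb) with rfl | hb'
        · exfalso
          have hane : a ≠ b := fun h => hr₀ (h ▸ ha')
          rw [Function.update_self, Function.update_of_ne hane] at hab
          exact hnot (Finset.mem_union_right _ (Finset.mem_image.mpr ⟨a, ha', hab⟩))
        · have hane : a ≠ r₀ := fun h => hr₀ (h ▸ ha')
          have hbne : b ≠ r₀ := fun h => hr₀ (h ▸ hb')
          rw [Function.update_of_ne hane, Function.update_of_ne hbne] at hab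
          exact hinj' ha' hb' hab

/-- **The crossing modulus and its generic character.** -/
theorem exists_modulus_character (p : ℕ) [hp : Fact p.Prime] (hp2 : p ≠ 2) (R avoid : Finset ℕ)
    (hR : ∀ r ∈ R, r.Prime) (k : ℕ) :
    ∃ (m n : ℕ) (χ : (ZMod m)ˣ →* Multiplicative (ZMod (p ^ n))),
      Squarefree m ∧ 0 < m ∧
      (∀ ℓ ∈ m.primeFactors, ℓ ≠ p ∧ ℓ ∉ R ∧ ℓ ∉ avoid ∧ ℓ % p = 1) ∧
      Function.Surjective χ ∧
      ∀ r ∈ R, ∀ u : (ZMod m)ˣ, (u : ZMod m) = (r : ZMod m) → p ^ k ∣ orderOf (χ u) := by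
  classical
  -- WLOG `1 ≤ k`
  wlog hk : 1 ≤ k generalizing k
  · obtain ⟨m, n, χ, h1, h2, h3, h4, h5⟩ := this 1 le_rfl
    refine ⟨m, n, χ, h1, h2, h3, h4, fun r hr u hu => ?_⟩
    have : k = 0 := by omega
    subst this
    simp
  set K := k + R.card with hK
  obtain ⟨ℓ, hℓ, hinj⟩ := exists_aux_primes p hp2 K R (fun r hr => (hR r hr).two_le) (avoid ∪ R)
  set m := ∏ r ∈ R, ℓ r with hm
  have hmpos : 0 < m := Finset.prod_pos (fun r hr => (hℓ r hr).1.pos)
  have hdvd : ∀ r ∈ R, ℓ r ∣ m := fun r hr => Finset.dvd_prod_of_mem ℓ hr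
  -- prime factors of `m`
  have hpf : ∀ q ∈ m.primeFactors, ∃ r ∈ R, q = ℓ r := by
    intro q hq
    have hqp := Nat.prime_of_mem_primeFactors hq
    have hqm := Nat.dvd_of_mem_primeFactors hq
    obtain ⟨r, hr, hqr⟩ := (Prime.dvd_finsetProd_iff hqp.prime ℓ).mp hqm
    exact ⟨r, hr, (Nat.prime_dvd_prime_iff_eq hqp (hℓ r hr).1).mp hqr⟩
  have hsq : Squarefree m := by
    rw [hm]
    apply Finset.squarefree_prod_of_pairwise_isCoprime
    · intro a ha b hb hab
      have hne : ℓ a ≠ ℓ b := fun h => hab (hinj ha hb h)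
      exact Nat.coprime_iff_isRelPrime.mp
        ((Nat.coprime_primes (hℓ a ha).1 (hℓ b hb).1).mpr hne)
    · intro r hr
      exact (hℓ r hr).1.prime.squarefree
  -- `r ∈ R` is coprime to `m`
  have hcop : ∀ r ∈ R, Nat.Coprime r m := by
    intro r hr
    rw [hm]
    apply Nat.Coprime.prod_right
    intro r' hr'
    have h1 : ℓ r' ∉ R := fun h => (hℓ r' hr').2.2.1 (Finset.mem_union_right _ h)
    have hne : r ≠ ℓ r' := fun h => h1 (h ▸ hr)
    exact (Nat.coprime_primes (hR r hr) (hℓ r' hr').1).mpr hne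
  have hm1 : ∀ r ∈ R, Fact (1 < ℓ r) := fun r hr => ⟨(hℓ r hr).1.one_lt⟩
  let g : R → (ZMod m)ˣ := fun r => ZMod.unitOfCoprime r.1 (hcop r.1 r.2)
  have hfin : Finite (ZMod m)ˣ := by
    have : NeZero m := ⟨hmpos.ne'⟩
    infer_instance
  have hg : ∀ t : R, p ^ K ∣ orderOf (g t) := by
    rintro ⟨r, hr⟩
    have h1 := (hℓ r hr).2.2.2.2.2
    refine h1.trans ?_
    let φ : (ZMod m)ˣ →* (ZMod (ℓ r))ˣ := Units.map (ZMod.castHom (hdvd r hr) (ZMod (ℓ r))).toMonoidHom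
    have h2 : orderOf (φ (g ⟨r, hr⟩)) ∣ orderOf (g ⟨r, hr⟩) := orderOf_map_dvd φ _
    have h3 : ((φ (g ⟨r, hr⟩) : (ZMod (ℓ r))ˣ) : ZMod (ℓ r)) = (r : ZMod (ℓ r)) := by
      simp [φ, g]
    rw [← h3, orderOf_units]
    exact h2
  have hcard : Fintype.card R < p ^ (K + 1 - k) := by
    rw [Fintype.card_coe, show K + 1 - k = R.card + 1 by omega]
    calc R.card < R.card + 1 := Nat.lt_succ_self _
      _ ≤ 2 ^ (R.card + 1) := Nat.lt_two_pow_self.le
      _ ≤ p ^ (R.card + 1) := Nat.pow_le_pow_left hp.out.two_le _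
  obtain ⟨n, χ, hsurj, hχ⟩ :=
    CharAvoid.exists_hom_orderOf_dvd p g k K hk (by omega) hcard hg
  refine ⟨m, n, χ, hsq, hmpos, ?_, hsurj, ?_⟩
  · intro q hq
    obtain ⟨r, hr, rfl⟩ := hpf q hq
    obtain ⟨_, h2, h3, h4, _, _⟩ := hℓ r hr
    exact ⟨h2, fun h => h3 (Finset.mem_union_right _ h),
      fun h => h3 (Finset.mem_union_left _ h), h4⟩
  · intro r hr u hu
    have : u = g ⟨r, hr⟩ := by
      apply Units.ext
      rw [hu]
      simp [g]
    rw [this]
    exact hχ ⟨r, hr⟩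

end Fermat.Agent.S55.CycloRecip37.Modulus
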